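import Fermat.Agent.GalRep.Wild.Space

/-!
# A contradiction from the local statements at `p`
-/

set_option autoImplicit false
set_option linter.style.haveILetI false

noncomputable section

namespace Fermat.Agent.GalRep.Wild

open CongruenceSubgroup
open WeierstrassCurve WeierstrassCurve.Affine.Point
open scoped WeierstrassCurve.Affine
open Fermat.Agent.EC
open Fermat.Agent.Galois (GQ)

/-- A representation restricted to a stable subgroup killed by `p`. -/
def restrictRep {M : Type*} [AddCommGroup M] {G : Type*} [Group G] (p : ℕ)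
    (ρ : G →* Module.End ℤ M) (V : AddSubgroup M) [Module (ZMod p) V]
    (h : ∀ g, ∀ x ∈ V, ρ g x ∈ V) : G →* Module.End (ZMod p) V where
  toFun g := (AddMonoidHom.mk' (fun x : V => (⟨_, h g x.1 x.2⟩ : V))
    fun x y => Subtype.ext (map_add (ρ g) x.1 y.1)).toZModLinearMap p
  map_one' := LinearMap.ext fun x => Subtype.ext (LinearMap.congr_fun (map_one ρ) x.1)
  map_mul' g g' := LinearMap.ext fun x => Subtype.ext (LinearMap.congr_fun (map_mul ρ g g') x.1)

theorem coe_restrictRep {M : Type*} [AddCommGroup M] {G : Type*} [Group G] (p : ℕ)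
    (ρ : G →* Module.End ℤ M) (V : AddSubgroup M) [Module (ZMod p) V]
    (h : ∀ g, ∀ x ∈ V, ρ g x ∈ V) (g : G) (x : V) :
    ((restrictRep p ρ V h g x : V) : M) = ρ g x.1 := rfl

theorem coe_zmod_smul {M : Type*} [AddCommGroup M] (p : ℕ) [NeZero p] (V : AddSubgroup M)
    [Module (ZMod p) V] (c : ZMod p) (x : V) : ((c • x : V) : M) = c.val • x.1 := by
  conv_lhs => rw [← ZMod.natCast_zmod_val c, Nat.cast_smul_eq_nsmul]
  rfl

theorem restrictRep_rel {M : Type*} [AddCommGroup M] {G : Type*} [Group G] (p : ℕ) [NeZero p]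
    (ρ : G →* Module.End ℤ M) (V : AddSubgroup M) [Module (ZMod p) V]
    (h : ∀ g, ∀ x ∈ V, ρ g x ∈ V) (g g' : G) (c t : ZMod p)
    (hrel : ∀ x ∈ V, ρ g x + c.val • ρ g' x = t.val • x) :
    restrictRep p ρ V h g + c • restrictRep p ρ V h g' = t • 1 :=
  LinearMap.ext fun x => Subtype.ext (by
    rw [LinearMap.add_apply, LinearMap.smul_apply, LinearMap.smul_apply, Module.End.one_apply,
      AddSubgroup.coe_add, coe_zmod_smul, coe_zmod_smul, coe_restrictRep, coe_restrictRep]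
    exact hrel x.1 x.2)

theorem restrictRep_eq_one {M : Type*} [AddCommGroup M] {G : Type*} [Group G] (p : ℕ)
    (ρ : G →* Module.End ℤ M) (V : AddSubgroup M) [Module (ZMod p) V]
    (h : ∀ g, ∀ x ∈ V, ρ g x ∈ V) (g : G) (hg : ∀ x ∈ V, ρ g x = x) :
    restrictRep p ρ V h g = 1 :=
  LinearMap.ext fun x => Subtype.ext (hg x.1 x.2)

attribute [local irreducible] kummerGalois autChar

variable (P : FreyPackage) [Fact P.p.Prime] {N : ℕ} [NeZero N] [NeZero P.p]

set_option maxHeartbeats 1000000 in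
/-- Classes fixed by inertia vanish and wild inertia fixes what it moves by fixed classes: then
`E[p]` is reducible. -/
theorem not_irreducible_of_local {A : ValuationSubring (AlgebraicClosure ℚ)}
    (hA : A.LiesOverPrime P.p) (hd : (P.p : ℤ) ∣ P.a * P.b * P.c)
    {f : CuspForm (Gamma0 N) 2} (hf : f.IsNormalizedEigenform)
    {W : WeierstrassCurve ℤ} (hW : W.IsIntegralModelOf P.freyCurve)
    {𝔪 : Ideal (integralClosure ℤ ℂ)} (h𝔪 : 𝔪.IsMaximal)
    (hp𝔪 : (P.p : integralClosure ℤ ℂ) ∈ 𝔪)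
    (hmod : ∀ ℓ : ℕ, ℓ.Prime → W.IsGoodPrimeFor ℓ → ¬ ℓ ∣ N → ℓ ≠ P.p →
      ∃ a : integralClosure ℤ ℂ, (a : ℂ) = ModularFormClass.qCoeff f ℓ ∧
        a - ((W.apOfModel ℓ : ℤ) : integralClosure ℤ ℂ) ∈ 𝔪)
    (S : Finset ℕ) (hS : ∀ ℓ : ℕ, ℓ.Prime → ℓ ∉ S → W.IsGoodPrimeFor ℓ ∧ ℓ ≠ P.p)
    (hfixed : ∀ χ ∈ eigenSpace P N S W,
      (∀ s ∈ A.inertiaSubgroupIn ℚ, (kummerGalois N P.p).galois s χ = χ) → χ = 0)
    (hwild : (∃ s ∈ A.inertiaSubgroupIn ℚ, (∀ z : AlgebraicClosure ℚ, z ^ P.p = 1 → s z = z) ∧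
        ∃ x : FreyTorsion P, s • x ≠ x) →
      ∃ τ ∈ A.inertiaSubgroupIn ℚ, (∀ z : AlgebraicClosure ℚ, z ^ P.p = 1 → τ z = z) ∧
        (∃ x : FreyTorsion P, τ • x ≠ x) ∧
        ∀ χ ∈ eigenSpace P N S W,
          (kummerGalois N P.p).galois τ ((kummerGalois N P.p).galois τ χ - χ) =
              (kummerGalois N P.p).galois τ χ - χ →
            (kummerGalois N P.p).galois τ χ = χ) :
    ¬ GaloisRepIsIrreducible (K := AlgebraicClosure ℚ) ℚ P.freyCurve P.p := by
  obtain ⟨χ₀, h0, hhecke, hrel⟩ := exists_eigen P hf hW h𝔪 hp𝔪 hmod S hS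
  obtain ⟨ψ, hψ, hψ0⟩ := exists_fixed_eigen (S := S) (W := W) h0 ⟨hhecke, hrel⟩
  set V := eigenSpace P N S W with hV
  letI : Module (ZMod P.p) V :=
    AddCommGroup.zmodModule fun x => Subtype.ext (parHom_prime_nsmul x.1)
  haveI : Nontrivial V := ⟨⟨⟨ψ, hψ⟩, 0, fun h => hψ0 (congrArg Subtype.val h)⟩⟩
  have hstab : ∀ (g : GQ), ∀ x ∈ V, (kummerGalois N P.p).galois g x ∈ V := fun g x hx =>
    ⟨hx.1.galois g, fun k hk => by
      have hc : g⁻¹ * k * g ∈ torsionKer P := fun y => by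
        rw [mul_smul, mul_smul, hk, inv_smul_smul]
      conv_rhs => rw [← hx.2 _ hc, ← Module.End.mul_apply, ← map_mul, ← mul_assoc, ← mul_assoc,
        mul_inv_cancel, one_mul, map_mul, Module.End.mul_apply]⟩
  set σ := restrictRep P.p (kummerGalois N P.p).galois V hstab with hσ
  refine not_irreducible_of_eigenspace P hA hd σ
    (fun g => restrictRep_rel P.p _ V hstab g g⁻¹ _ _ fun x hx => hx.1.rel g)
    (fun g hg => restrictRep_eq_one P.p _ V hstab g fun x hx => hx.2 g hg)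
    (fun h => ?_) (fun v hv => ?_)
  · obtain ⟨τ, hτ, hτμ, hτx, hτV⟩ := hwild h
    refine ⟨τ, hτ, hτμ, hτx, fun v hv => Subtype.ext ?_⟩
    have h1 := congrArg Subtype.val hv
    rw [coe_restrictRep, AddSubgroup.coe_sub, coe_restrictRep] at h1
    rw [coe_restrictRep]
    exact hτV v.1 v.2 h1
  · refine Subtype.ext (hfixed v.1 v.2 fun s hs => ?_)
    have h1 := congrArg Subtype.val (hv s hs)
    rwa [coe_restrictRep] at h1

end Fermat.Agent.GalRep.Wild
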