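/-
The logarithmic derivative of the reduced series of `F ^ p`, for a Kummer function `F` of an
eigenclass modulo `p`, is an eigen series: the transfer of `F` times a power of `F` is a modular
function, so its `p`-th power reduces to a series killed by `q d/dq`.
-/
import Fermat.Agent.GalRep.KummerCongr
import Fermat.Agent.GalRep.Level.Congr
import Fermat.Agent.GalRep.Semistable.BadRed
import Fermat.Agent.MCurve.RootBridge
import Fermat.Agent.MCurve.Theta

set_option autoImplicit false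
set_option linter.style.haveILetI false
set_option linter.unusedSectionVars false

noncomputable section

namespace Fermat.Agent.GalRep.Wild

open UpperHalfPlane CongruenceSubgroup
open Fermat.Agent.GalRep Fermat.Agent.GalRep.Level
open Fermat.Agent.MCurve (thetaL thetaL_coeff thetaL_mul thetaL_C thetaL_qExpand)
open scoped MatrixGroups Manifold

local notation "ℚb" => AlgebraicClosure ℚ
local notation "κ" A:max => IsLocalRing.ResidueField A

section Formal

variable {k : Type} [Field k]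

theorem thetaL_pow_eq (x : LaurentSeries k) :
    ∀ n : ℕ, thetaL (x ^ n) * x = (n : LaurentSeries k) * thetaL x * x ^ n
  | 0 => by rw [pow_zero, ← map_one (HahnSeries.C (Γ := ℤ) (R := k)), thetaL_C]; simp
  | n + 1 => by
    rw [pow_succ, thetaL_mul, add_mul, mul_assoc, mul_comm x x, ← mul_assoc, thetaL_pow_eq x n]
    push_cast
    ring

theorem thetaL_pow_char {p : ℕ} [CharP k p] (x : LaurentSeries k) : thetaL (x ^ p) = 0 := by
  rcases eq_or_ne x 0 with rfl | hx
  · rcases eq_or_ne p 0 with rfl | hp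
    · rw [pow_zero, ← map_one (HahnSeries.C (Γ := ℤ) (R := k)), thetaL_C]
    · rw [zero_pow hp]; ext j; simp
  refine (mul_eq_zero.mp ?_).resolve_right hx
  rw [thetaL_pow_eq, ← map_natCast (HahnSeries.C (Γ := ℤ) (R := k)), CharP.cast_eq_zero, map_zero,
    zero_mul, zero_mul]

theorem thetaL_expand_series (a : ℕ) (ha : a ≠ 0) (x : LaurentSeries k) :
    thetaL (expand a ha x) = HahnSeries.C (a : k) * expand a ha (thetaL x) := by
  haveI : NeZero a := ⟨ha⟩
  have h := thetaL_qExpand a x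
  rwa [MCurve.qExpand_eq_expand, MCurve.qExpand_eq_expand] at h

theorem thetaL_twist_series (u : kˣ) (x : LaurentSeries k) :
    thetaL (twist u x) = twist u (thetaL x) := by
  ext j
  simp [mul_assoc]

theorem thetaL_prod_eq {ι : Type} (s : Finset ι) (x w : ι → LaurentSeries k)
    (h : ∀ i ∈ s, thetaL (x i) = w i * x i) :
    thetaL (∏ i ∈ s, x i) = (∑ i ∈ s, w i) * ∏ i ∈ s, x i := by
  classical
  induction s using Finset.induction with
  | empty =>
    rw [Finset.prod_empty, Finset.sum_empty, zero_mul,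
      ← map_one (HahnSeries.C (Γ := ℤ) (R := k)), thetaL_C]
  | insert i s hi ih =>
    rw [Finset.prod_insert hi, Finset.sum_insert hi, thetaL_mul, h i (Finset.mem_insert_self i s),
      ih fun j hj => h j (Finset.mem_insert_of_mem hj)]
    ring

theorem C_mul_coeff (c : k) (x : LaurentSeries k) (j : ℤ) :
    (HahnSeries.C c * x).coeff j = c * x.coeff j := by
  rw [HahnSeries.C_mul_eq_smul, HahnSeries.coeff_smul, smul_eq_mul]

/-- The dlog relation of the transfer, read at the coefficient `ℓ n`. -/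
theorem coeff_transfer_dlog {ℓ : ℕ} [NeZero ℓ] (hℓ : (ℓ : k) ≠ 0) {a : k} {ι : Type} [Fintype ι]
    (hι : Fintype.card ι = ℓ) (u : ι → kˣ) (hu : ∀ i, u i ^ ℓ = 1) {g U : LaurentSeries k}
    {w : PowerSeries k} (hg : g ≠ 0) (hw : HahnSeries.ofPowerSeries ℤ k w * g = thetaL g)
    (hU : expand ℓ (NeZero.ne ℓ) U =
      expand ℓ (NeZero.ne ℓ) (expand ℓ (NeZero.ne ℓ) g) * ∏ i, twist (u i) g)
    (hθ : thetaL U = HahnSeries.C a * HahnSeries.ofPowerSeries ℤ k w * U) (n : ℕ) :
    PowerSeries.coeff (n * ℓ) w +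
      (if ℓ ∣ n then (ℓ : k) * PowerSeries.coeff (n / ℓ) w else 0) =
        a * PowerSeries.coeff n w := by
  classical
  set W := HahnSeries.ofPowerSeries ℤ k w with hWdef
  set e := expand (K := k) ℓ (NeZero.ne ℓ) with he
  have hW : ∀ i : ℕ, W.coeff (i : ℤ) = PowerSeries.coeff i w := fun i =>
    HahnSeries.ofPowerSeries_apply_coeff w i
  have htw : ∀ i, twist (u i) g ≠ 0 := fun i h0 => hg (by
    ext j
    have := congrArg (fun x : LaurentSeries k => x.coeff j) h0
    exact (mul_eq_zero.mp (by simpa using this)).resolve_right (zpow_ne_zero _ (Units.ne_zero _)))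
  have hP : e U ≠ 0 := by
    rw [hU]
    exact mul_ne_zero ((map_ne_zero_iff _ (expand_injective ℓ _)).mpr
      ((map_ne_zero_iff _ (expand_injective ℓ _)).mpr hg)) (Finset.prod_ne_zero_iff.mpr fun i _ => htw i)
  have h1 : thetaL (e U) = HahnSeries.C (ℓ : k) * e (HahnSeries.C a * W) * e U := by
    rw [he, thetaL_expand_series, hθ, map_mul, mul_assoc]
  have h2 : thetaL (e U) = (HahnSeries.C (ℓ : k) * (HahnSeries.C (ℓ : k) * e (e W)) +
      ∑ i, twist (u i) W) * e U := by
    rw [hU, thetaL_mul, thetaL_prod_eq Finset.univ (fun i => twist (u i) g) (fun i => twist (u i) W)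
      (fun i _ => by rw [thetaL_twist_series, ← hw, map_mul]), he, thetaL_expand_series,
      thetaL_expand_series, ← hw, map_mul (expand ℓ (NeZero.ne ℓ)) (HahnSeries.C _),
      map_mul (expand ℓ (NeZero.ne ℓ)) W, map_mul (expand ℓ (NeZero.ne ℓ))
      (expand ℓ (NeZero.ne ℓ) W)]
    have hC : expand ℓ (NeZero.ne ℓ) (HahnSeries.C (ℓ : k)) = HahnSeries.C (ℓ : k) := by
      rw [map_natCast HahnSeries.C, map_natCast]
    rw [hC]
    ring
  have hkey := congrArg (fun x : LaurentSeries k => x.coeff ((ℓ : ℤ) * n))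
    (mul_right_cancel₀ hP (h1.symm.trans h2))
  simp only [HahnSeries.coeff_add, HahnSeries.coeff_sum, C_mul_coeff, he, expand_coeff_mul,
    twist_coeff] at hkey
  have hone : ∀ i, u i ^ ((ℓ : ℤ) * n) = 1 := fun i => by
    rw [zpow_mul, zpow_natCast, zpow_natCast, hu, one_pow]
  simp only [hone, Units.val_one, mul_one, Finset.sum_const, Finset.card_univ, hι, nsmul_eq_mul]
    at hkey
  rw [show (ℓ : ℤ) * n = ((n * ℓ : ℕ) : ℤ) by push_cast; ring] at hkey
  simp only [hW] at hkey
  have hd : (expand ℓ (NeZero.ne ℓ) W).coeff (n : ℤ) =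
      if ℓ ∣ n then PowerSeries.coeff (n / ℓ) w else 0 := by
    split_ifs with hn
    · obtain ⟨j, rfl⟩ := hn
      rw [Nat.mul_div_cancel_left _ (NeZero.pos ℓ), Nat.cast_mul, expand_coeff_mul, hW]
    · exact expand_coeff_of_not_dvd _ _ _ _ fun h => hn (Int.natCast_dvd_natCast.mp h)
  rw [hd] at hkey
  refine mul_left_cancel₀ hℓ ?_
  rw [mul_add, hkey]
  split_ifs <;> ring

end Formal

variable {A : ValuationSubring (AlgebraicClosure ℚ)} {N p : ℕ} [NeZero N] [hp : Fact p.Prime]

local instance instFintypeRootsDlog (ℓ : ℕ) [NeZero ℓ] :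
    Fintype (rootsOfUnity ℓ (AlgebraicClosure ℚ)) :=
  Fintype.ofFinite _

/-- The reduced twist by a root of unity is by a root of unity. -/
theorem exists_twist_red_root {z : ℚbˣ} {ℓ : ℕ} (hℓ : ℓ ≠ 0) (hz : z ^ ℓ = 1) :
    ∃ u : (κ A)ˣ, u ^ ℓ = 1 ∧
      ∀ (f : LaurentSeries ℚb) (F : LaurentSeries (κ A)), HasRed A f F →
        HasRed A (twist z f) (twist u F) := by
  obtain ⟨u, hu⟩ := Semistable.exists_twist_red (A := A) hℓ hz
  refine ⟨u, ?_, hu⟩
  have hone : HasRed A (HahnSeries.single (ℓ : ℤ) (1 : ℚb)) (HahnSeries.single (ℓ : ℤ) 1) :=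
    HasRed.iff_exists.mpr ⟨HahnSeries.single (ℓ : ℤ) 1, by
      ext j; rcases eq_or_ne j (ℓ : ℤ) with rfl | hj <;> simp [HahnSeries.coeff_single_of_ne, *],
      by ext j; rcases eq_or_ne j (ℓ : ℤ) with rfl | hj <;> simp [HahnSeries.coeff_single_of_ne, *]⟩
  have h := hu _ _ hone
  rw [show twist z (HahnSeries.single (ℓ : ℤ) (1 : ℚb)) = HahnSeries.single (ℓ : ℤ) 1 by
    ext j
    rcases eq_or_ne j (ℓ : ℤ) with rfl | hj <;> simp [HahnSeries.coeff_single_of_ne, *]] at h
  have := congrArg (fun x : LaurentSeries (κ A) => x.coeff (ℓ : ℤ)) (Semistable.hasRed_unique hone h)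
  simp only [twist_coeff, HahnSeries.coeff_single_same, one_mul, zpow_natCast] at this
  exact Units.ext this.symm

set_option maxHeartbeats 1000000 in
/-- The logarithmic derivative of the reduced series of an eigen Kummer function is an eigen
series. -/
theorem dlog_eigen (hA : A.LiesOverPrime p) {χ : ParHom N (ZMod p)} {F : ℍ → ℂ}
    (hF : IsRepG (Gamma0 N) p χ F) (l : GoodPrime N) (hlp : (l : ℕ) ≠ p) {a : ℤ}
    (heig : heckeHomAt l χ = a • χ) (s : LaurentSeries A) {c : ℂ} (hc : c ≠ 0)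
    (hs : HasQSeries 1 (fun τ => c * F τ ^ p) (lmap (qbarToC.comp A.subtype) s))
    {g : LaurentSeries (κ A)} (hgs : g = lmap (IsLocalRing.residue A) s) (hg0 : g ≠ 0)
    (w : PowerSeries (κ A)) (hw : HahnSeries.ofPowerSeries ℤ (κ A) w * g = thetaL g) (n : ℕ) :
    PowerSeries.coeff (n * (l : ℕ)) w +
      (if (l : ℕ) ∣ n then ((l : ℕ) : κ A) * PowerSeries.coeff (n / (l : ℕ)) w else 0) =
        (a : κ A) * PowerSeries.coeff n w := by
  classical
  have hp' := hp.out
  set ℓ : ℕ := (l : ℕ)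
  have hg := goodIndex l
  haveI : NeZero ℓ := ⟨hg.prime.ne_zero⟩
  haveI := charP_residue hp' hA
  have hℓk : (ℓ : κ A) ≠ 0 := fun h => hlp
    (((Nat.prime_dvd_prime_iff_eq hp' hg.prime).mp ((CharP.cast_eq_zero_iff (κ A) p ℓ).mp h)).symm)
  have hK : IsKummerRep N p χ F := ⟨hF.holo, hF.ne_zero, hF.equivariant, hF.cusps⟩
  obtain ⟨r₀, hr₀⟩ := IsAlgClosed.exists_pow_nat_eq c hp'.pos
  have hr0 : r₀ ≠ 0 := fun h0 => hc (by rw [← hr₀, h0, zero_pow hp'.ne_zero])
  set F' : ℍ → ℂ := fun τ => r₀ * F τ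
  have hF' : IsKummerRep N p χ F' := hK.const_mul hr0
  obtain ⟨fC, hfC, -⟩ := hF'.exists_series_one
  set sA := lmap A.subtype s
  have hfp : seriesToC sA = fC ^ p := by
    refine HasQSeries.unique one_pos ?_ (hfC.pow p)
    rw [seriesToC_eq_lmap, lmap_lmap]
    exact hs.congr (.of_forall fun τ => by
      show c * F τ ^ p = (r₀ * F τ) ^ p
      rw [mul_pow, hr₀])
  have hsA : HasRed A sA g := HasRed.iff_exists.mpr ⟨s, rfl, hgs.symm⟩
  have hfC0 : fC ≠ 0 := by
    intro h0
    rw [h0, zero_pow hp'.ne_zero, seriesToC_eq_lmap] at hfp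
    have hsA0 : sA = 0 := lmap_injective qbarToC_injective (hfp.trans (map_zero _).symm)
    exact hg0 (Semistable.hasRed_unique hsA (hsA0 ▸ fun m => ⟨A.zero_mem, map_zero _⟩))
  obtain ⟨f₀, rfl⟩ := exists_series_of_pow (n := p) hfC0 hfp
  have hf₀ : f₀ ^ p = sA := seriesToC_injective (by rw [hfp, seriesToC_eq_lmap, map_pow]; rfl)
  -- the transfer
  have hTh := heckeProd_rep hg hF' (isHeckeTransfer_heckeHom hg χ)
  obtain ⟨uC, huC, -⟩ := hTh.exists_series_one
  have hexp : expand ℓ (NeZero.ne ℓ) uC = seriesToC (heckeSeriesA ℓ f₀) := by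
    have := huC.refine_width one_pos ℓ (NeZero.ne ℓ)
    rw [one_mul] at this
    rw [seriesToC_heckeSeriesA]
    exact this.unique (NeZero.pos ℓ) (hasQSeries_heckeProd hg hfC)
  obtain ⟨u, rfl⟩ : ∃ u, seriesToC u = uC := exists_seriesToC_eq fun j => by
    rw [← expand_coeff_mul ℓ (NeZero.ne ℓ) uC j, hexp]
    exact (Algebra.IsAlgebraic.isAlgebraic _).algHom qbarToC.toRatAlgHom
  have hu : expand ℓ (NeZero.ne ℓ) u = heckeSeriesA ℓ f₀ :=
    seriesToC_injective (by rw [← hexp, seriesToC_eq_lmap, lmap_expand]; rfl)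
  choose ub hub1 hub using fun ω : rootsOfUnity ℓ ℚb =>
    exists_twist_red_root (A := A) (NeZero.ne ℓ) ((mem_rootsOfUnity _ _).mp ω.2)
  have hred : HasRed A (expand ℓ (NeZero.ne ℓ) (u ^ p))
      (expand ℓ (NeZero.ne ℓ) (expand ℓ (NeZero.ne ℓ) g) * ∏ ω, twist (ub ω) g) := by
    rw [map_pow, hu, ← heckeSeriesA_pow, hf₀]
    exact ((hsA.expand ℓ (NeZero.ne ℓ)).expand ℓ (NeZero.ne ℓ)).mul
      (HasRed.prod Finset.univ fun ω _ => hub ω _ _ hsA)
  obtain ⟨U, hU, hPU⟩ := Semistable.exists_hasRed_of_expand (NeZero.ne ℓ) hred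
  have hU0 : U ≠ 0 := by
    rintro rfl
    rw [map_zero, mul_eq_zero] at hPU
    rcases hPU with h | h
    · exact hg0 (expand_injective ℓ _ (expand_injective ℓ _ (h.trans (by rw [map_zero, map_zero]))))
    · obtain ⟨i, -, hi⟩ := Finset.prod_eq_zero_iff.mp h
      refine hg0 ?_
      ext j
      have := congrArg (fun x : LaurentSeries (κ A) => x.coeff j) hi
      exact (mul_eq_zero.mp (by simpa using this)).resolve_right (zpow_ne_zero _ (Units.ne_zero _))
  -- the modular function
  set r : ℕ := (((-a : ℤ) : ZMod p)).val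
  have hrk : (r : κ A) = -(a : κ A) := by
    have := congrArg (ZMod.castHom (dvd_refl p) (κ A)) (ZMod.natCast_zmod_val ((-a : ℤ) : ZMod p))
    rw [map_natCast, map_intCast] at this
    exact this.trans (Int.cast_neg a)
  have hrep : IsKummerRep N p (0 : ParHom N (ZMod p)) (heckeProd hg F' * F' ^ r) := by
    have h1 := hTh.mul (hF'.pow r)
    have e0 : heckeHom hg χ + r • χ = 0 := by
      rw [show heckeHom hg χ = a • χ from heig]
      refine Subtype.ext (AddMonoidHom.ext fun x => ?_)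
      show a • (χ : Additive (Gamma0 N) →+ ZMod p) x +
        ((r • χ : ParHom N (ZMod p)) : Additive (Gamma0 N) →+ ZMod p) x = 0
      rw [Submodule.coe_smul_of_tower, AddMonoidHom.nsmul_apply, nsmul_eq_mul, zsmul_eq_mul,
        ZMod.natCast_zmod_val, Int.cast_neg]
      ring
    rwa [e0] at h1
  have hser : HasQSeries 1 (heckeProd hg F' * F' ^ r) (seriesToC (u * f₀ ^ r)) :=
    hasQSeries_mul_seriesToC huC (hasQSeries_pow_seriesToC hfC r)
  have hR : HasRed A ((u * f₀ ^ r) ^ p) (U * g ^ r) := by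
    rw [mul_pow, ← pow_mul, mul_comm r, pow_mul, hf₀]
    exact hU.mul (hsA.pow r)
  have hR0 : U * g ^ r ≠ 0 := mul_ne_zero hU0 (pow_ne_zero r hg0)
  have hh0 : u * f₀ ^ r ≠ 0 := fun h0 => hR0 (by
    rw [h0, zero_pow hp'.ne_zero] at hR
    exact Semistable.hasRed_unique hR fun m => ⟨A.zero_mem, map_zero _⟩)
  obtain ⟨c₂, hc₂, hint, m, hm⟩ :=
    exists_modFun_normalisation hp' hA hrep.isModFun hser hh0
  obtain ⟨X, hX⟩ := exists_hasRed hint
  have hX0 : X ≠ 0 := ne_zero_of_hasRed hX hm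
  -- the reduction of its power is killed by the derivation
  have hθR : thetaL (U * g ^ r) = 0 := by
    have hcoef : ∀ (e : κ A) (Y : LaurentSeries (κ A)),
        thetaL (HahnSeries.C e * Y) = HahnSeries.C e * thetaL Y := fun e Y => by
      rw [thetaL_mul, thetaL_C, zero_mul, zero_add]
    rcases A.mem_or_inv_mem (c₂ ^ p) with hA' | hA'
    · have h := Semistable.hasRed_unique (hX.pow p) (by
        rw [mul_pow, ← map_pow]; exact (Semistable.hasRed_C hA').mul hR)
      have h0 := congrArg thetaL h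
      rw [thetaL_pow_char, hcoef] at h0
      refine (mul_eq_zero.mp h0.symm).resolve_left fun hC => pow_ne_zero p hX0 ?_
      rw [h, hC, zero_mul]
    · have h := Semistable.hasRed_unique hR (show HasRed A ((u * f₀ ^ r) ^ p) _ by
        have := (Semistable.hasRed_C hA').mul (hX.pow p)
        rwa [mul_pow (HahnSeries.C c₂), ← map_pow, ← mul_assoc, ← map_mul,
          inv_mul_cancel₀ (pow_ne_zero p hc₂), map_one, one_mul] at this)
      rw [h, hcoef, thetaL_pow_char, mul_zero]
  set W := HahnSeries.ofPowerSeries ℤ (κ A) w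
  have hθU : thetaL U = HahnSeries.C (a : κ A) * W * U := by
    have h1 : thetaL (g ^ r) = (r : LaurentSeries (κ A)) * W * g ^ r := by
      refine mul_right_cancel₀ hg0 ?_
      rw [thetaL_pow_eq, ← hw]
      ring
    rw [thetaL_mul, h1, ← map_natCast (HahnSeries.C (Γ := ℤ) (R := κ A)), hrk, map_neg] at hθR
    refine mul_right_cancel₀ (pow_ne_zero r hg0) ?_
    linear_combination hθR
  refine coeff_transfer_dlog hℓk ?_ ub hub1 hg0 hw hPU.symm hθU n
  rw [← Nat.card_eq_fintype_card, HasEnoughRootsOfUnity.natCard_rootsOfUnity]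

end Fermat.Agent.GalRep.Wild
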