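import Fermat.Agent.MCurve.SpecialDifferential.Special
import Fermat.Agent.MCurve.Spec.RedField
import Fermat.Agent.MCurve.Spec.SeriesRed
import Fermat.Agent.Models.Gamma0.OrdNorm
import Fermat.Agent.Models.Wild.RedValue
import Fermat.Agent.Models.Wild.HdivTame
import Fermat.Agent.Newform.ModPTheta

/-!
The reduced series of a function with roots everywhere has orders divisible by `p`; if the
logarithmic derivative is an eigen series it gives a character of the Hecke algebra, so without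
one the derivative vanishes.
-/

set_option autoImplicit false
set_option linter.style.haveILetI false
set_option linter.unusedSectionVars false

noncomputable section

namespace Fermat.Agent.GalRep.Wild

open IsLocalRing ModularCurve
open Fermat.Agent.MCurve Fermat.Agent.MCurve.Spec Fermat.Agent.MCurve.SpecialDifferential
open Fermat.Agent.ModField
open Fermat.Agent.Models (IsWildModel HasRootAt)
open Fermat.Agent.GalRep.Level

section Theta

variable {k : Type} [Field k] [IsAlgClosed k] {p : ℕ} [Fact p.Prime] {m : ℕ} [NeZero m]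

/-- An eigen logarithmic derivative gives a character; without one it vanishes. -/
theorem thetaL_eq_zero_of_no_theta [CharP k p] (hind : RedIndependent k m)
    (hpm : ¬ p ∣ m) (h : LaurentSeries k)
    (hF : h ∈ modularFunctionFieldFullC k m) (h0 : h ≠ 0)
    (hdiv : ∀ V : ValuationSubring (modularFunctionFieldFullC k m),
      (∀ a, algebraMap k (modularFunctionFieldFullC k m) a ∈ V) →
      ∃ y : modularFunctionFieldFullC k m, y ≠ 0 ∧
        (⟨h, hF⟩ : modularFunctionFieldFullC k m) * y ^ p ∈ V ∧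
        ((⟨h, hF⟩ : modularFunctionFieldFullC k m) * y ^ p)⁻¹ ∈ V)
    (S : Finset ℕ) (hmS : ∀ q : ℕ, q.Prime → q ∣ m → q ∈ S) (a : ℕ → k)
    (heig : ∀ w : PowerSeries k,
      HahnSeries.ofPowerSeries ℤ k w * h = thetaL h →
      ∀ ℓ : ℕ, ℓ.Prime → ¬ ℓ ∣ m → ℓ ∉ S → ∀ n : ℕ, PowerSeries.coeff (n * ℓ) w +
        (if ℓ ∣ n then (ℓ : k) * PowerSeries.coeff (n / ℓ) w else 0) =
          a ℓ * PowerSeries.coeff n w)
    (hno : ∀ θ : CuspForm.heckeAlgebra m 2 (↑S : Set ℕ) →+* k,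
      ∃ (ℓ : ℕ) (hℓ : ℓ.Prime) (hℓm : ¬ ℓ ∣ m) (hℓS : ℓ ∉ (↑S : Set ℕ)),
        θ (CuspForm.heckeAlgebra.T hℓ hℓm hℓS) ≠ a ℓ) :
    thetaL h = 0 := by
  obtain ⟨w, hw, hwh⟩ := exists_dlog_mem_redSpace hpm hind h hF h0 hdiv
  rcases eq_or_ne w 0 with rfl | hw0
  · rw [map_zero, zero_mul] at hwh
    exact hwh.symm
  obtain ⟨θ, hθ⟩ := Newform.exists_theta_of_series (↑S : Set ℕ) (fun q hq hqm => hmS q hq hqm) w hw0
    hw a fun ℓ hℓ hℓm hℓS n => heig w hwh ℓ hℓ hℓm (by simpa using hℓS) n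
  obtain ⟨ℓ, hℓ, hℓm, hℓS, hne⟩ := hno θ
  exact absurd (hθ ℓ hℓ hℓm hℓS) hne

end Theta

section Div

variable {k : Type} [Field k] {K : Subfield (LaurentSeries k)} {O : Type} [CommRing O] [IsDomain O] [IsDiscreteValuationRing O]
  {M : ℕ} [NeZero M] {E : Emb O M} {p m : ℕ} [Fact p.Prime] [NeZero m]
  {m₀ : ℕ} [NeZero m₀] {π : O} {hπ : Irreducible π} {e : ℕ}
  {F₀ : Subfield (Fld₀ O E p m)}

/-- Roots everywhere make the orders of the reduced series divisible by `p`. -/
theorem hdiv_of_roots (hw : IsWildModel (model₀ O E p m) π (twoP O E p m hπ) e p F₀)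
    (res : O →+* k) (hsurj : Function.Surjective res)
    (ρ : twoP O E p m hπ false →+* LaurentSeries k)
    (hker : ∀ z, ρ z = 0 ↔ (z : Fld₀ O E p m) ∈ (twoP O E p m hπ false).nonunits)
    (hcst : ∀ o : O, ρ ⟨algebraMap O _ o, hw.algebraMap_mem false o⟩ =
      HahnSeries.C (res o))
    (hj : ∀ hmem : jF₀ O E p m ∈ twoP O E p m hπ false,
      ρ ⟨jF₀ O E p m, hmem⟩ = qExpand k m (jqModC k))
    (hK : ∀ z, ρ z ∈ K)
    (hqK : ∀ y ∈ modularFunctionFieldFullC k m₀, qExpand k m y ∈ K)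
    (htame : ∀ Wv : ValuationSubring (K),
      (∀ (c : k) (hc : HahnSeries.C c ∈ K), (⟨_, hc⟩ : K) ∈ Wv) → Wv ≠ ⊤ →
      ∃ u : K, u ≠ 0 ∧ Wv.valuation u < 1 ∧
        (∀ x : K, x ≠ 0 → ∃ n : ℤ, Wv.valuation x = Wv.valuation u ^ n) ∧
        ∃ n : ℕ, 0 < n ∧ ¬ p ∣ n ∧ ∀ (J : K),
          (J : LaurentSeries k) = qExpand k m (jqModC k) →
          ((∃ (c : k) (C : K), (C : LaurentSeries k) = HahnSeries.C c ∧
              Wv.valuation (J - C) = Wv.valuation u ^ n) ∨
            Wv.valuation J⁻¹ = Wv.valuation u ^ n))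
    {f : Fld₀ O E p m} (hf : f ∈ twoP O E p m hπ false)
    (hroots : Models.RootsEverywhere (model₀ O E p m) p f) (h : LaurentSeries k)
    (hF : h ∈ modularFunctionFieldFullC k m₀) (h0 : h ≠ 0)
    (hh : ρ ⟨f, hf⟩ = qExpand k m h)
    (V : ValuationSubring (modularFunctionFieldFullC k m₀))
    (hV : ∀ a, algebraMap k (modularFunctionFieldFullC k m₀) a ∈ V) :
    ∃ y : modularFunctionFieldFullC k m₀, y ≠ 0 ∧
      (⟨h, hF⟩ : modularFunctionFieldFullC k m₀) * y ^ p ∈ V ∧
      ((⟨h, hF⟩ : modularFunctionFieldFullC k m₀) * y ^ p)⁻¹ ∈ V := by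
  by_cases hVtop : V = ⊤
  · exact ⟨1, one_ne_zero, hVtop ▸ ValuationSubring.mem_top _, hVtop ▸ ValuationSubring.mem_top _⟩
  let ι : modularFunctionFieldFullC k m₀ →+* K :=
    ((qExpand k m).comp (modularFunctionFieldFullC k m₀).val.toRingHom).codRestrict _
      fun y => hqK _ y.2
  obtain ⟨Wv, hWv⟩ := Models.exists_comap_eq ι V
  have hιc : ∀ c : k, (ι (algebraMap k _ c) : LaurentSeries k) = HahnSeries.C c := fun c => by
    show qExpand k m (algebraMap k (LaurentSeries k) c) = _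
    rw [algebraMap_laurentSeries_eq_single, ← HahnSeries.C_apply, qExpand_C]
  have hW : ∀ (c : k) (hc : HahnSeries.C c ∈ K), (⟨_, hc⟩ : K) ∈ Wv := by
    intro c hc
    rw [show (⟨_, hc⟩ : K) = ι (algebraMap k _ c) from Subtype.ext (hιc c).symm]
    have := hV c
    rw [← hWv] at this
    exact this
  have htop : Wv ≠ ⊤ := fun h' => hVtop (by
    rw [← hWv, h']
    ext x
    simp only [ValuationSubring.mem_top, ValuationSubring.mem_comap])
  obtain ⟨u, hu, hu1, hgen, n, hn0, hpn, hJ⟩ := htame Wv hW htop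
  let ρK : twoP O E p m hπ false →+* K := ρ.codRestrict _ hK
  have hkerK : ∀ z, ρK z = 0 ↔ (z : Fld₀ O E p m) ∈ (twoP O E p m hπ false).nonunits := fun z => by
    rw [← hker z]
    exact ⟨fun h' => congrArg Subtype.val h', fun h' => Subtype.ext h'⟩
  set jF : modularFunctionFieldFullC k m₀ := jFullC k m₀
  have hιj : (ι jF : LaurentSeries k) = qExpand k m (jqModC k) := rfl
  have hcW : ∀ o : O, ρK ⟨algebraMap O _ o, hw.algebraMap_mem false o⟩ ∈ Wv := fun o => by
    have hC : HahnSeries.C (res o) ∈ K := hcst o ▸ hK _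
    rw [show ρK _ = ⟨_, hC⟩ from Subtype.ext (hcst o)]
    exact hW _ hC
  have hjP : jF₀ O E p m ∈ twoP O E p m hπ false :=
    hw.chart₀.fibre.le false _ (model₀ O E p m).w_mem
  have hρj : ρK ⟨jF₀ O E p m, hjP⟩ = ι jF := Subtype.ext ((hj hjP).trans hιj.symm)
  have hlt : Wv.valuation u ^ n < 1 := pow_lt_one₀ zero_le hu1 hn0.ne'
  have hne : Wv.valuation u ^ n ≠ 0 := pow_ne_zero n ((_root_.map_ne_zero _).mpr hu)
  have hfK : ρK ⟨f, hf⟩ = ι ⟨h, hF⟩ := Subtype.ext hh
  have hf0 : ρK ⟨f, hf⟩ ≠ 0 := fun h' => h0 (qExpand_injective m (by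
    rw [← hh, map_zero]; exact congrArg Subtype.val h'))
  obtain ⟨y, hy, z, hz, hval⟩ : ∃ y, Wv.valuation (ι y) = Wv.valuation u ^ n ∧
      ∃ z : K, z ≠ 0 ∧ Wv.valuation (ι ⟨h, hF⟩) = Wv.valuation z ^ p := by
    rcases hJ (ι jF) hιj with ⟨c, C, hC, hv⟩ | hv
    · obtain ⟨o, ho⟩ := hsurj c
      have hC' : C = ι (algebraMap k _ c) := Subtype.ext (hC.trans (hιc c).symm)
      refine ⟨jF - algebraMap k _ c, by rw [map_sub, ← hC']; exact hv, ?_⟩
      have hb : ρK ⟨((⟨jF₀ O E p m, (model₀ O E p m).w_mem⟩ : (model₀ O E p m).B₀) -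
          algebraMap O _ o : (model₀ O E p m).B₀),
            hw.chart₀.fibre.le false _ (Subtype.mem _)⟩ = ι jF - C := by
        rw [← hρj, show C = ρK ⟨algebraMap O _ o, hw.algebraMap_mem false o⟩ from Subtype.ext
          (hC.trans ((hcst o).trans (congrArg _ ho)).symm), ← map_sub]
        exact congrArg ρK (Subtype.ext rfl)
      have hjW : ρK ⟨jF₀ O E p m, hjP⟩ ∈ Wv := by
        rw [hρj, ← sub_add_cancel (ι jF) C]
        exact add_mem ((Wv.valuation_le_one_iff _).mp (hv ▸ hlt.le))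
          (by
            have := hW c (hC ▸ C.2)
            rwa [show (⟨HahnSeries.C c, hC ▸ C.2⟩ : K) = C from Subtype.ext hC.symm] at this)
      obtain ⟨z, hz, hzv⟩ := hw.exists_reduced_pow hw.chart₀ (model₀ O E p m).w_mem false ρK hkerK
        Wv hcW (fun _ => hjW)
        ⟨_, fun h' => hne (by rw [← hv, ← hb, h', map_zero]), by rw [hb, hv]; exact hlt⟩
        hroots.1 hf hf0
      exact ⟨z, hz, hfK ▸ hzv⟩
    · refine ⟨jF⁻¹, by rw [map_inv₀]; exact hv, ?_⟩
      have hinv : ∀ (x : Fld₀ O E p m) (hmem : x ∈ twoP O E p m hπ false),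
          x = (jF₀ O E p m)⁻¹ → ρK ⟨x, hmem⟩ = (ι jF)⁻¹ := fun x hmem hx => by
        subst hx
        refine eq_inv_of_mul_eq_one_left ?_
        rw [← hρj, ← map_mul, ← map_one ρK]
        exact congrArg ρK (Subtype.ext (inv_mul_cancel₀ (jF₀_ne_zero O E p m)))
      obtain ⟨z, hz, hzv⟩ := hw.exists_reduced_pow hw.chart₁ (model₀ O E p m).w_inv_mem false ρK
        hkerK Wv hcW
        (fun hmem => by
          rw [hinv _ hmem rfl]
          exact (Wv.valuation_le_one_iff _).mp (hv ▸ hlt.le))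
        ⟨⟨_, (model₀ O E p m).w_inv_mem⟩, fun h' => hne (by
            have h'' : (ι jF)⁻¹ = 0 := (hinv _ (hw.chart₁.fibre.le false _
              (model₀ O E p m).w_inv_mem) rfl).symm.trans h'
            rw [← hv, h'', map_zero]),
          by
            rw [← hv] at hlt
            exact lt_of_eq_of_lt (congrArg Wv.valuation (hinv _ (hw.chart₁.fibre.le false _
              (model₀ O E p m).w_inv_mem) rfl)) hlt⟩
        hroots.2 hf hf0
      exact ⟨z, hz, hfK ▸ hzv⟩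
  obtain ⟨t, ht, h1, h2⟩ :=
    Models.exists_pow_mul_unit ι Wv (Fact.out : p.Prime) hu hu1 hgen hpn hy hz hval
  exact ⟨t, ht, hWv ▸ h1, hWv ▸ h2⟩

end Div

end Fermat.Agent.GalRep.Wild
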