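import Fermat.Agent.GalRep.Wild.GaloisEnd
import Fermat.Agent.EC.TraceVC
import Fermat.Agent.EC.FrobeniusTrace
import Fermat.Agent.GalRep.Endgame
import Fermat.Agent.GalRep.Residual
import Fermat.Agent.GalRep.Model.Reduction
import Fermat.Prelude.Def_FLTPrelim_ModularRep

/-!
# Eigenclasses modulo `p` carrying the traces of `E[p]`
-/

set_option autoImplicit false
set_option linter.style.haveILetI false

noncomputable section

namespace Fermat.Agent.GalRep.Wild

open CongruenceSubgroup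
open WeierstrassCurve WeierstrassCurve.Affine.Point
open scoped WeierstrassCurve.Affine
open scoped IsMulCommutative
open Fermat.Agent.EC
open Fermat.Agent.Galois (GQ)

section Reduction

variable {N p : ℕ} [NeZero N] [Fact p.Prime]

/-- Reduction of the lattice modulo `p`. -/
def red1 : Lat N p →+ ParHom N (ZMod p) :=
  AddMonoidHom.mk' (fun v => parMap (PadicInt.toZMod (p := p)).toAddMonoidHom (toPar v))
    (fun v w => by rw [← map_add]; rfl)

theorem red1_apply (v : Lat N p) (x : Additive (Gamma0 N)) :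
    (red1 v : Additive (Gamma0 N) →+ ZMod p) x =
      PadicInt.toZMod ((v : Additive (Gamma0 N) →+ ℤ_[p]) x) := rfl

theorem exists_smul_of_red1 {v : Lat N p} (h : red1 v = 0) :
    ∃ w : Lat N p, v = (p : ℤ_[p]) • w := by
  have hdvd : ∀ x, (p : ℤ_[p]) ∣ (v : Additive (Gamma0 N) →+ ℤ_[p]) x := fun x => by
    rw [← Ideal.mem_span_singleton, ← PadicInt.maximalIdeal_eq_span_p, ← PadicInt.ker_toZMod,
      RingHom.mem_ker, ← red1_apply, h]
    rfl
  choose q hq using hdvd
  have hp : (p : ℤ_[p]) ≠ 0 := Nat.cast_ne_zero.mpr (Fact.out : p.Prime).ne_zero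
  exact ⟨⟨AddMonoidHom.mk' q fun a b => mul_left_cancel₀ hp (by
      rw [mul_add, ← hq, ← hq, ← hq, map_add]), fun γ hγ => mul_left_cancel₀ hp (by
      show (p : ℤ_[p]) * q (Additive.ofMul γ) = _
      rw [← hq, v.2 γ hγ, mul_zero])⟩, Subtype.ext (AddMonoidHom.ext fun x => hq x)⟩

theorem isCastHom_red1 (v : Lat N p) :
    IsCastHom (dvd_pow_self p one_ne_zero) (redPow 1 v) (red1 v) :=
  AddMonoidHom.ext fun x => by
    rw [AddMonoidHom.comp_apply, redPow_apply, red1_apply]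
    show _ = ZMod.castHom (dvd_pow_self p one_ne_zero) (ZMod p) (PadicInt.toZModPow 1 _)
    conv_rhs => rw [← ZMod.natCast_zmod_val (PadicInt.toZModPow 1 _), map_natCast]
    exact toZMod_eq_of_toZModPow (ZMod.natCast_zmod_val _).symm

theorem red1_smul (c : ℤ_[p]) (v : Lat N p) :
    red1 (c • v) = (PadicInt.toZMod c).val • red1 v :=
  Subtype.ext (AddMonoidHom.ext fun x => by
    rw [red1_apply, Submodule.coe_smul, AddMonoidHom.smul_apply, smul_eq_mul, map_mul,
      ← red1_apply, Submodule.coe_smul_of_tower, AddMonoidHom.smul_apply, nsmul_eq_mul,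
      ZMod.natCast_zmod_val])

theorem red1_latHecke (ℓ : GoodPrime N) (v : Lat N p) :
    red1 (latHecke N p ℓ v) = heckeHomAt ℓ (red1 v) :=
  Subtype.ext (transferHom_comp (goodIndex ℓ) (PadicInt.toZMod (p := p)).toAddMonoidHom
    (v : Additive (Gamma0 N) →+ ℤ_[p])).symm

theorem red1_latGalois [∀ k, NeZero (p ^ k)] [NeZero p] (s : GQ) (v : Lat N p) :
    red1 (latGalois (fun k => kummerGalois N (p ^ k)) (kummerCompat N) s v) =
      (kummerGalois N p).galois s (red1 v) := by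
  have h1 := isCastHom_red1 (latGalois (fun k => kummerGalois N (p ^ k)) (kummerCompat N) s v)
  rw [redPow_latGalois] at h1
  have h2 := kummerCompat N p (p ^ 1) (dvd_pow_self p one_ne_zero) (kummerGalois N (p ^ 1))
    (kummerGalois N p) s _ _ (isCastHom_red1 v)
  exact Subtype.ext (h1.trans h2.symm)

theorem heckeHomAt_red1 {ℓ : GoodPrime N} {a : ℤ} (y : Lat N p)
    (h : red1 (latHeckePoly N p (MvPolynomial.X ℓ) y - a • y) = 0) :
    heckeHomAt ℓ (red1 y) = a • red1 y := by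
  rw [← red1_latHecke, ← sub_eq_zero, ← map_zsmul, ← map_sub]
  refine Eq.trans ?_ h
  congr 2
  exact congrArg (fun T : Module.End ℤ_[p] (Lat N p) => T y) (polyHom_X _ _ ℓ).symm

theorem galois_red1 [∀ k, NeZero (p ^ k)] [NeZero p] {g : GQ} {c : ℤ_[p]} {n : ℕ} (y : Lat N p)
    (h : red1 (latGalois (fun k => kummerGalois N (p ^ k)) (kummerCompat N) g y +
      c • latGalois (fun k => kummerGalois N (p ^ k)) (kummerCompat N) g⁻¹ y - n • y) = 0) :
    (kummerGalois N p).galois g (red1 y) +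
      (PadicInt.toZMod c).val • (kummerGalois N p).galois g⁻¹ (red1 y) = n • red1 y := by
  rw [← red1_latGalois, ← red1_latGalois, ← red1_smul, ← map_add, ← sub_eq_zero, ← map_nsmul,
    ← map_sub]
  exact h

end Reduction

section TraceE

variable (P : FreyPackage) [Fact P.p.Prime]

local notation "Qbar" => AlgebraicClosure ℚ
local notation "ρE" => galoisRepModuleEnd (K := Qbar) ℚ P.freyCurve.toAffine P.p

/-- The relation `g + ω(g) g⁻¹ = tr(g)` on `E[p]`. -/
theorem freyRel (g : GQ) : ρE g + freyOmega P g • ρE g⁻¹ = freyTrace P g • 1 := by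
  classical
  have hrk := finrank_torsionBy (K := Qbar) P.freyCurve.toAffine P.p
  haveI : Module.Finite (ZMod P.p) (FreyTorsion P) := Module.finite_of_finrank_eq_succ hrk
  set bs := Module.finBasisOfFinrankEq (ZMod P.p) _ hrk
  have hsq : ρE g * ρE g + freyOmega P g • 1 = freyTrace P g • ρE g := by
    set e := LinearMap.toMatrixAlgEquiv bs
    set M := e (ρE g) with hM
    have d2 : M.det = freyOmega P g :=
      (LinearMap.det_toMatrix bs _).trans (det_eq_freyOmega P g)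
    have d1 : M.trace = freyTrace P g :=
      (LinearMap.trace_eq_matrix_trace (ZMod P.p) bs _).symm
    apply e.injective
    rw [map_add, map_smul, map_smul, map_one, map_mul, ← hM, ← d1, ← d2]
    ext i j
    fin_cases i <;> fin_cases j <;>
      simp [Matrix.mul_apply, Fin.sum_univ_two, Matrix.det_fin_two, Matrix.trace_fin_two] <;> ring
  have h := congrArg (· * ρE g⁻¹) hsq
  simp only [add_mul, mul_assoc, smul_mul_assoc, ← map_mul, mul_inv_cancel, map_one, mul_one,
    one_mul] at h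
  exact h

/-- The trace of a power of an element with trace `a` and cyclotomic value `l`. -/
theorem freyTrace_pow {σ : GQ} {a : ZMod P.p} {l : ℕ} (ha : freyTrace P σ = a)
    (hl : freyOmega P σ = l) (b : ℕ) :
    freyTrace P (σ ^ b) = frobPoly a (l : ZMod P.p) b := by
  haveI := nontrivial_torsionBy (K := Qbar) P.freyCurve.toAffine P.p
  have h1 := freyRel P σ
  rw [ha, hl, Nat.cast_smul_eq_nsmul, nsmul_eq_mul] at h1
  have h2 := pow_add_pow_eq_frobPoly (F := ρE σ) (G := ρE σ⁻¹)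
    (by rw [← map_mul, mul_inv_cancel, map_one]) (by rw [← map_mul, inv_mul_cancel, map_one]) h1 b
  have hω : freyOmega P (σ ^ b) = (l : ZMod P.p) ^ b := by
    rw [← det_eq_freyOmega, map_pow, map_pow, det_eq_freyOmega, hl]
  have h3 := freyRel P (σ ^ b)
  rw [hω, map_pow, ← inv_pow, map_pow, ← Nat.cast_pow, Nat.cast_smul_eq_nsmul, nsmul_eq_mul,
    Nat.cast_pow, h2] at h3
  have h4 := map_frobPoly (algebraMap (ZMod P.p) (Module.End (ZMod P.p) (FreyTorsion P))) a
    (l : ZMod P.p) b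
  rw [map_natCast, Algebra.algebraMap_eq_smul_one, Algebra.algebraMap_eq_smul_one, h3] at h4
  exact (smul_left_injective (ZMod P.p) one_ne_zero h4).symm

/-- The trace of Frobenius on `E[p]` is `a_ℓ` of any integral model. -/
theorem freyTrace_frobenius {W : WeierstrassCurve ℤ} (hW : W.IsIntegralModelOf P.freyCurve)
    {ℓ : ℕ} (hℓ : ℓ.Prime) (hgood : W.IsGoodPrimeFor ℓ) (hℓp : ℓ ≠ P.p)
    {A : ValuationSubring Qbar} (hA : A.LiesOverPrime ℓ) {σ : GQ} (hσ : A.IsFrobeniusAt σ ℓ) :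
    freyTrace P σ = (W.apOfModel ℓ : ZMod P.p) ∧ freyOmega P σ = (ℓ : ZMod P.p) := by
  obtain ⟨C, hC⟩ := hW
  haveI : P.freyCurve.IsElliptic := ⟨(freyCurve_Δ_ne_zero P).isUnit⟩
  refine ⟨?_, ?_⟩
  · rw [freyTrace, ← galoisTrace_variableChange C P.p σ hC]
    exact (galoisTrace_frobenius W hℓ hgood hA hσ P.pp (by have := P.hp5; omega) hℓp.symm).1
  · rw [freyOmega, cyc_frobenius P.p hℓ hℓp hA hσ, map_natCast]

end TraceE

variable (P : FreyPackage) [Fact P.p.Prime] {N : ℕ} [NeZero N]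

set_option maxHeartbeats 1000000 in
/-- A congruence eigenform gives an eigenclass modulo `p` with the traces of `E[p]`. -/
theorem exists_eigen [NeZero P.p] {f : CuspForm (Gamma0 N) 2} (hf : f.IsNormalizedEigenform)
    {W : WeierstrassCurve ℤ} (hW : W.IsIntegralModelOf P.freyCurve)
    {𝔪 : Ideal (integralClosure ℤ ℂ)} (h𝔪 : 𝔪.IsMaximal)
    (hp𝔪 : (P.p : integralClosure ℤ ℂ) ∈ 𝔪)
    (hmod : ∀ ℓ : ℕ, ℓ.Prime → W.IsGoodPrimeFor ℓ → ¬ ℓ ∣ N → ℓ ≠ P.p →
      ∃ a : integralClosure ℤ ℂ, (a : ℂ) = ModularFormClass.qCoeff f ℓ ∧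
        a - ((W.apOfModel ℓ : ℤ) : integralClosure ℤ ℂ) ∈ 𝔪)
    (S : Finset ℕ) (hS : ∀ ℓ : ℕ, ℓ.Prime → ℓ ∉ S → W.IsGoodPrimeFor ℓ ∧ ℓ ≠ P.p) :
    ∃ χ : ParHom N (ZMod P.p), χ ≠ 0 ∧
      (∀ ℓ : GoodPrime N, ((ℓ : Nat.Primes) : ℕ) ∉ S →
        heckeHomAt ℓ χ = W.apOfModel ((ℓ : Nat.Primes) : ℕ) • χ) ∧
      ∀ g, (kummerGalois N P.p).galois g χ +
          (freyOmega P g).val • (kummerGalois N P.p).galois g⁻¹ χ = (freyTrace P g).val • χ := by
  classical
  haveI : ∀ k, NeZero (P.p ^ k) := fun k => ⟨pow_ne_zero k P.hp0⟩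
  let D : EichlerShimuraDatum N P.p :=
    eichlerShimuraDatum (fun k => kummerGalois N (P.p ^ k)) (kummerCompat N)
      (fun k => kummerHeckeComm N (P.p ^ k)) (kummerFrobenius N (Model.kummerReduction N))
  letI := Ideal.Quotient.field 𝔪
  set k := integralClosure ℤ ℂ ⧸ 𝔪
  haveI : CharP k P.p := by
    refine (CharP.charP_iff_prime_eq_zero P.pp).mpr ?_
    rw [← map_natCast (Ideal.Quotient.mk 𝔪), Ideal.Quotient.eq_zero_iff_mem]
    exact hp𝔪
  letI := padicAlgebraOfCharP (p := P.p) k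
  have hp0 : (P.p : k) = 0 := CharP.cast_eq_zero k P.p
  obtain ⟨χ₀, hχ₀⟩ := exists_eigenCharacter hf (↑S : Set ℕ)
  obtain ⟨ψ, hψ, hψc⟩ := exists_extension (D := D) (I := ⊥) (by rw [hp0]; exact zero_mem _)
    (fun r hr => by simpa using hr 1) ((Ideal.Quotient.mk 𝔪).comp χ₀)
  have hgen : ∀ i : GoodPrimeOff N (↑S : Set ℕ),
      ψ (heckeGen D _ i) = (W.apOfModel ((i.1 : Nat.Primes) : ℕ) : k) := by
    rintro ⟨⟨⟨ℓ, hℓ⟩, hℓN⟩, hℓS⟩
    obtain ⟨hgood, hℓp⟩ := hS ℓ hℓ hℓS
    obtain ⟨a, ha, ham⟩ := hmod ℓ hℓ hgood hℓN hℓp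
    rw [hψ]
    have he : χ₀ (CuspForm.heckeAlgebra.T hℓ hℓN hℓS) = a :=
      Subtype.ext ((hχ₀ ℓ hℓ hℓN hℓS).trans ha.symm)
    show Ideal.Quotient.mk 𝔪 (χ₀ (CuspForm.heckeAlgebra.T hℓ hℓN hℓS)) = _
    rw [he, ← map_intCast (Ideal.Quotient.mk 𝔪), Ideal.Quotient.eq]
    exact ham
  obtain ⟨m, hm⟩ := hψc 1
  have hm0 : ∀ c : heckeClosure D (↑S : Set ℕ),
      (∃ f', (c : Module.End ℤ_[P.p] D.L) = (P.p ^ m : ℤ_[P.p]) • f') → ψ c = 0 := fun c hc => by
    simpa using hm c hc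
  -- the universal trace has the eigenvalue of the trace on `E[p]`
  have htr : ∀ g, ψ ⟨uTrace D g, uTrace_mem D frobeniusPowDensity S g⟩ =
      ((freyTrace P g).val : k) := fun g => by
    obtain ⟨F, hF, hFev⟩ := exists_level_eigen D S ψ hm frobeniusPowDensity
    obtain ⟨L, hL, hLfix⟩ :=
      EC.exists_finite_level ℚ P.freyCurve.toAffine (K := AlgebraicClosure ℚ) P.p P.pp.one_le
    obtain ⟨ℓ, hℓ, hbad, A, hA, σ, hσ, b, hb⟩ :=
      frobeniusPowDensity (F ⊔ L) (S ∪ N.primeFactors) g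
    simp only [Finset.mem_union, not_or] at hbad
    have hℓN : ¬ ℓ ∣ N := fun h => hbad.2 (Nat.mem_primeFactors.mpr ⟨hℓ, h, NeZero.ne N⟩)
    obtain ⟨hgood, hℓp⟩ := hS ℓ hℓ hbad.1
    let i : GoodPrimeOff N (↑S : Set ℕ) := ⟨⟨⟨ℓ, hℓ⟩, hℓN⟩, fun h => hbad.1 (by simpa using h)⟩
    have h1 := hFev g σ i A b hℓp hA hσ fun x hx => hb x ((le_sup_left : F ≤ F ⊔ L) hx)
    rw [Submodule.pow_one, Ideal.mem_bot, sub_eq_zero, hgen] at h1
    obtain ⟨hta, htω⟩ := freyTrace_frobenius P hW hℓ hgood hℓp hA hσ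
    have hg : freyTrace P g = freyTrace P (σ ^ b) := by
      have e : galoisRepModuleEnd (K := AlgebraicClosure ℚ) ℚ P.freyCurve.toAffine P.p
          ((σ ^ b)⁻¹ * g) = 1 := LinearMap.ext fun Q => hLfix _ (fun x hx => by
        rw [AlgEquiv.mul_apply, ← hb x ((le_sup_right : L ≤ F ⊔ L) hx)]
        exact (σ ^ b).symm_apply_apply x) Q
      rw [freyTrace, freyTrace, galoisTrace_def, galoisTrace_def]
      conv_lhs => rw [← mul_inv_cancel_left (σ ^ b) g, map_mul, e, mul_one]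
    rw [h1, hg, freyTrace_pow P hta htω b]
    have h2 := map_frobPoly (ZMod.castHom (dvd_refl P.p) k) (W.apOfModel ℓ : ZMod P.p)
      (ℓ : ZMod P.p) b
    rw [map_intCast, map_natCast] at h2
    conv_rhs => rw [← map_natCast (ZMod.castHom (dvd_refl P.p) k), ZMod.natCast_zmod_val, h2]
  -- a vector of the lattice modulo `p` killed by the kernel
  haveI : Module.Finite ℤ_[P.p] (heckeClosure D (↑S : Set ℕ)) :=
    Module.Finite.of_injective (heckeClosure D (↑S : Set ℕ)).val.toLinearMap Subtype.val_injective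
  haveI : IsNoetherianRing (heckeClosure D (↑S : Set ℕ)) := IsNoetherianRing.of_finite ℤ_[P.p] _
  haveI : Algebra.IsIntegral ℤ_[P.p] (heckeClosure D (↑S : Set ℕ)) := Algebra.IsIntegral.of_finite _ _
  haveI : Module.Finite (heckeClosure D (↑S : Set ℕ)) D.L :=
    Module.Finite.of_restrictScalars_finite ℤ_[P.p] _ _
  let pC : heckeClosure D (↑S : Set ℕ) := (P.p : ℕ)
  let pL : Submodule (heckeClosure D (↑S : Set ℕ)) D.L :=
    LinearMap.range (LinearMap.lsmul (heckeClosure D (↑S : Set ℕ)) D.L pC)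
  have hpC : ∀ x : D.L, pC • x = (P.p : ℤ_[P.p]) • x := fun x => by
    show ((P.p : ℕ) : heckeClosure D (↑S : Set ℕ)) • x = _
    rw [Nat.cast_smul_eq_nsmul, Nat.cast_smul_eq_nsmul]
  have hann : Module.annihilator (heckeClosure D (↑S : Set ℕ)) (D.L ⧸ pL) ≤ RingHom.ker ψ := by
    intro c hc
    have h1 : ∀ v : D.L, ∃ w, (c : Module.End ℤ_[P.p] D.L) v = (P.p ^ 1 : ℤ_[P.p]) • w := by
      intro v
      have h := Module.mem_annihilator.mp hc (Submodule.Quotient.mk v)
      rw [← Submodule.Quotient.mk_smul, Submodule.Quotient.mk_eq_zero] at h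
      obtain ⟨w, hw⟩ := h
      exact ⟨w, by rw [pow_one, ← hpC]; exact hw.symm⟩
    obtain ⟨f', hf'⟩ := exists_smul_of_forall (D := D) h1
    have h2 : ψ (c ^ m) = 0 := hm0 _ ⟨f' ^ m, by
      rw [SubmonoidClass.coe_pow, hf', pow_one, smul_pow]⟩
    rw [map_pow] at h2
    exact eq_zero_of_pow_eq_zero h2
  have hmin : RingHom.ker ψ ∈
      (Module.annihilator (heckeClosure D (↑S : Set ℕ)) (D.L ⧸ pL)).minimalPrimes := by
    haveI : (RingHom.ker ψ).IsPrime := RingHom.ker_isPrime _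
    refine ⟨⟨inferInstance, hann⟩, fun Q hQ hQP => ?_⟩
    haveI : Q.IsPrime := hQ.1
    have hpQ : pC ∈ Q := hQ.2 (Module.mem_annihilator.mpr fun x => by
      obtain ⟨v, rfl⟩ := Submodule.Quotient.mk_surjective _ x
      rw [← Submodule.Quotient.mk_smul, Submodule.Quotient.mk_eq_zero]
      exact ⟨v, rfl⟩)
    have hcomap : Q.comap (algebraMap ℤ_[P.p] (heckeClosure D (↑S : Set ℕ))) =
        IsLocalRing.maximalIdeal ℤ_[P.p] := by
      refine ((IsLocalRing.maximalIdeal.isMaximal ℤ_[P.p]).eq_of_le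
        (Ideal.IsPrime.ne_top inferInstance) ?_).symm
      rw [PadicInt.maximalIdeal_eq_span_p, Ideal.span_singleton_le_iff_mem, Ideal.mem_comap,
        map_natCast]
      exact hpQ
    haveI : (Q.comap (algebraMap ℤ_[P.p] (heckeClosure D (↑S : Set ℕ)))).IsMaximal := by
      rw [hcomap]; infer_instance
    haveI hQmax : Q.IsMaximal := Ideal.isMaximal_of_isIntegral_of_isMaximal_comap (R := ℤ_[P.p]) Q
      inferInstance
    exact (hQmax.eq_of_le (Ideal.IsPrime.ne_top ‹(RingHom.ker ψ).IsPrime›) hQP).ge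
  obtain ⟨-, y, hy⟩ := isAssociatedPrime_iff.1
    (Module.associatedPrimes.minimalPrimes_annihilator_subset_associatedPrimes _ _ hmin)
  obtain ⟨x, rfl⟩ := Submodule.Quotient.mk_surjective _ y
  have hker : ∀ c : heckeClosure D (↑S : Set ℕ), ψ c = 0 →
      red1 ((c : Module.End ℤ_[P.p] D.L) x) = 0 := fun c hc => by
    have h1 : c ∈ RingHom.ker ψ := hc
    rw [hy, Submodule.mem_colon_singleton, Submodule.mem_bot, ← Submodule.Quotient.mk_smul,
      Submodule.Quotient.mk_eq_zero] at h1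
    obtain ⟨w, hw⟩ := h1
    have hw' : (P.p : ℤ_[P.p]) • w = (c : Module.End ℤ_[P.p] D.L) x := (hpC w).symm.trans hw
    rw [← hw']
    exact (red1_smul _ _).trans (by rw [map_natCast, ZMod.natCast_self, ZMod.val_zero, zero_smul])
  refine ⟨red1 (x : Lat N P.p), fun h0 => ?_, fun ℓ hℓ => ?_, fun g => ?_⟩
  · obtain ⟨w, hw⟩ := exists_smul_of_red1 h0
    have h1 : (1 : heckeClosure D (↑S : Set ℕ)) ∈ RingHom.ker ψ := by
      rw [hy, Submodule.mem_colon_singleton, one_smul, Submodule.mem_bot,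
        Submodule.Quotient.mk_eq_zero]
      exact ⟨w, (hpC w).trans hw.symm⟩
    rw [RingHom.mem_ker, map_one] at h1
    exact one_ne_zero h1
  · let i : GoodPrimeOff N (↑S : Set ℕ) := ⟨ℓ, fun h => hℓ (by simpa using h)⟩
    have h := hker (heckeGen D _ i - (W.apOfModel ((ℓ : Nat.Primes) : ℕ) : heckeClosure D (↑S : Set ℕ)))
      (by rw [map_sub, hgen, map_intCast, sub_self])
    rw [AddSubgroupClass.coe_sub, coe_heckeGen, LinearMap.sub_apply, SubringClass.coe_intCast,
      Module.End.intCast_apply] at h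
    exact heckeHomAt_red1 x h
  · have h := hker (⟨uTrace D g, uTrace_mem D frobeniusPowDensity S g⟩ -
      ((freyTrace P g).val : heckeClosure D (↑S : Set ℕ))) (by
        rw [map_sub, htr, map_natCast, sub_self])
    have hcast : (((freyTrace P g).val : heckeClosure D (↑S : Set ℕ)) :
        Module.End ℤ_[P.p] D.L) = ((freyTrace P g).val : Module.End ℤ_[P.p] D.L) :=
      map_natCast (heckeClosure D (↑S : Set ℕ)).val _
    rw [AddSubgroupClass.coe_sub, hcast, LinearMap.sub_apply, Module.End.natCast_apply] at h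
    exact galois_red1 x h

end Fermat.Agent.GalRep.Wild
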