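import Fermat.Agent.GalRep.Wild.EigenPow
import Fermat.Agent.GalRep.Wild.DlogEigen
import Fermat.Agent.GalRep.Ordinary.Setup
import Fermat.Agent.GalRep.Ordinary.Classes
import Fermat.Agent.Models.Gamma0.OrdInvolution
import Fermat.Agent.Models.Wild.SwapRoots

/-!
The scaled Kummer function of an eigenclass is a `p`-th power on both components when the
eigenvalues do not come from level prime to `p`.
-/

set_option autoImplicit false
set_option linter.style.haveILetI false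
set_option linter.unusedSectionVars false

noncomputable section

namespace Fermat.Agent.GalRep.Wild

open IsLocalRing UpperHalfPlane CongruenceSubgroup
open Fermat.Agent.ModField
open Fermat.Agent.NewVec
open Fermat.Agent.GalRep Fermat.Agent.GalRep.Level
open Fermat.Agent.GalRep.InertiaBase
open Fermat.Agent.GalRep.Semistable (ChartsSemi alR alR_add alR_heckeHom)
open Fermat.Agent.GalRep.WildModel (irreducible_rUnif)
open Fermat.Agent.Models (IsKummer IsU RootsEverywhere IsSwapAut)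
open scoped MatrixGroups

local notation "Qb" => AlgebraicClosure ℚ

/-- An automorphism exchanging two valuation rings exchanges their units. -/
theorem isU_of_swap {F : Type} [Field F] {A B : ValuationSubring F} (σ : F ≃+* F)
    (h : ∀ z, σ z ∈ A.nonunits ↔ z ∈ B.nonunits) {x : F} (hx : IsU B x) : IsU A (σ x) := by
  have key : ∀ (C : ValuationSubring F) (y : F), y ≠ 0 → (y ∈ C ↔ y⁻¹ ∉ C.nonunits) :=
    fun C y hy => by
      rw [ValuationSubring.mem_nonunits_iff, map_inv₀, not_lt, one_le_inv₀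
        (zero_lt_iff.mpr ((_root_.map_ne_zero _).mpr hy)), C.valuation_le_one_iff]
  obtain ⟨hx0, hx1, hx2⟩ := Models.isU_iff.mp hx
  have hσ : σ x ≠ 0 := (map_ne_zero σ).mpr hx0
  refine Models.isU_iff.mpr ⟨hσ, (key A _ hσ).mpr ?_, (key A _ (inv_ne_zero hσ)).mpr ?_⟩
  · rw [← map_inv₀, h]
    exact (key B x hx0).mp hx1
  · rw [inv_inv, h]
    simpa using (key B x⁻¹ (inv_ne_zero hx0)).mp hx2

/-- The translate of an eigenclass is an eigenclass. -/
theorem alR_eigen {q m n : ℕ} [Fact q.Prime] [NeZero q] [NeZero m] [NeZero n]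
    {g : SL(2, ℤ)} (hg : g 1 0 = (m : ℤ) ∧ g 1 1 = (q : ℤ))
    {χ : ParHom (q * m) (ZMod n)} (l : GoodPrime (q * m)) {a : ℤ}
    (heig : heckeHomAt l χ = a • χ) : heckeHomAt l (alR hg χ) = a • alR hg χ := by
  have h := congrArg (Semistable.alL hg) heig
  rw [map_zsmul, Semistable.alL_apply, Semistable.alL_apply] at h
  exact ((alR_heckeHom hg (goodIndex l) χ).symm.trans h)

/-- A matrix with lower row `(m, p)`. -/
theorem exists_lowerRow {p m : ℕ} (hp : p.Prime) (hpm : ¬ p ∣ m) :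
    ∃ g : SL(2, ℤ), g 1 0 = (m : ℤ) ∧ g 1 1 = (p : ℤ) := by
  obtain ⟨u, v, huv⟩ := (hp.coprime_iff_not_dvd.mpr hpm).isCoprime
  exact ⟨⟨!![u, -v; (m : ℤ), (p : ℤ)], by
    rw [Matrix.det_fin_two_of]; linear_combination huv⟩, by simp, by simp⟩

variable {A : ValuationSubring (AlgebraicClosure ℚ)} {L : IntermediateField ℚ (AlgebraicClosure ℚ)}
  [FiniteDimensional ℚ L] [Normal ℚ L]
  {p m m' : ℕ} [Fact p.Prime] [NeZero (p * m')] [NeZero (p * m)] [NeZero m] [NeZero m']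

/-- The eigen identities of a logarithmic derivative. -/
theorem dlog_hyp (hA : A.LiesOverPrime p) (S : Finset ℕ) (hpS : p ∈ S) (a : ℕ → ℤ)
    {χ : ParHom (p * m) (ZMod p)} {F : ℍ → ℂ} (hF : IsRepG (Gamma0 (p * m)) p χ F)
    (heig : ∀ l : GoodPrime (p * m), (l : ℕ) ∉ S → heckeHomAt l χ = a (l : ℕ) • χ)
    (c : ℂ) (sA : LaurentSeries A) (hc : c ≠ 0)
    (hs : HasQSeries 1 (fun τ => c * F τ ^ p) (lmap (qbarToC.comp A.subtype) sA))
    (h0 : lmap (residue A) sA ≠ 0) (w : PowerSeries (ResidueField A))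
    (hw : HahnSeries.ofPowerSeries ℤ _ w * lmap (residue A) sA =
      MCurve.thetaL (lmap (residue A) sA))
    (ℓ : ℕ) (hℓ : ℓ.Prime) (hℓm : ¬ ℓ ∣ m) (hℓS : ℓ ∉ S) (n : ℕ) :
    PowerSeries.coeff (n * ℓ) w +
      (if ℓ ∣ n then (ℓ : ResidueField A) * PowerSeries.coeff (n / ℓ) w else 0) =
      (a ℓ : ResidueField A) * PowerSeries.coeff n w := by
  have hlp : ℓ ≠ p := fun h => hℓS (h ▸ hpS)
  have hlN : ¬ ℓ ∣ p * m := fun h => (hℓ.dvd_mul.mp h).elim
    (fun h1 => hlp ((Nat.prime_dvd_prime_iff_eq hℓ (Fact.out : p.Prime)).mp h1)) hℓm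
  exact dlog_eigen hA hF ⟨⟨ℓ, hℓ⟩, hlN⟩ hlp (heig ⟨⟨ℓ, hℓ⟩, hlN⟩ hℓS) sA hc hs rfl h0 w hw n

set_option maxHeartbeats 1000000 in
/-- Both components. -/
theorem exists_root_eigen (hA : A.LiesOverPrime p) (hp5 : 5 ≤ p) (hpm' : ¬ p ∣ m')
    (h2 : 2 ∣ m') (h6 : 6 ≤ m') (hmm : m ∣ m') (hζ : zetaQ (p * m') ∈ L)
    (hcharts : ChartsSemi A p m') [IsDiscreteValuationRing (rBase A L)]
    (S : Finset ℕ) (hmS : ∀ r : ℕ, r.Prime → r ∣ m → r ∈ S) (hpS : p ∈ S) (a : ℕ → ℤ)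
    (hno : ∀ θ : CuspForm.heckeAlgebra m 2 (↑S : Set ℕ) →+* ResidueField A,
      ∃ (ℓ : ℕ) (hℓ : ℓ.Prime) (hℓm : ¬ ℓ ∣ m) (hℓS : ℓ ∉ (↑S : Set ℕ)),
        θ (CuspForm.heckeAlgebra.T hℓ hℓm hℓS) ≠ (a ℓ : ResidueField A))
    {χ : ParHom (p * m) (ZMod p)}
    (heig : ∀ l : GoodPrime (p * m), (l : ℕ) ∉ S → heckeHomAt l χ = a (l : ℕ) • χ)
    {F : ℍ → ℂ} (hF : IsRepG (Gamma0 (p * m)) p χ F)
    {b : bddMF (embR A L hζ)} (hb : ((b : MF (p * m')) : ℍ → ℂ) = F ^ p)
    {f : rTop A L hζ p m'} (hf0 : f ≠ 0) (hfb : (f : Fld (embR A L hζ)) = toFld (embR A L hζ) b)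
    {t : ℕ}
    (hK : IsKummer (model₀ (rBase A L) (embR A L hζ) p m') (rUnif (Fact.out : p.Prime) hA)
      (twoP (rBase A L) (embR A L hζ) p m' (irreducible_rUnif (Fact.out : p.Prime) hA)) p
      (algebraMap (rBase A L) _ (rUnif (Fact.out : p.Prime) hA) ^ t * f))
    (hroots : RootsEverywhere (model₀ (rBase A L) (embR A L hζ) p m') p
      (algebraMap (rBase A L) _ (rUnif (Fact.out : p.Prime) hA) ^ t * f)) :
    ∃ T : Bool → rTop A L hζ p m', ∀ i,
      T i ^ p / (algebraMap (rBase A L) _ (rUnif (Fact.out : p.Prime) hA) ^ t * f) - 1 ∈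
        (twoP (rBase A L) (embR A L hζ) p m'
          (irreducible_rUnif (Fact.out : p.Prime) hA) i).nonunits := by
  classical
  have hpm : ¬ p ∣ m := fun h => hpm' (h.trans hmm)
  obtain ⟨g, hg⟩ := exists_lowerRow (Fact.out : p.Prime) hpm
  obtain ⟨g', hg'⟩ := exists_lowerRow (Fact.out : p.Prime) hpm'
  haveI : NeZero p := ⟨(Fact.out : p.Prime).ne_zero⟩
  let W := wOp (O := rBase A L) (E := embR A L hζ) (p := p) (m := m') rfl hpm' hg'
  have hWs : IsSwapAut (model₀ (rBase A L) (embR A L hζ) p m')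
      (twoP (rBase A L) (embR A L hζ) p m' (irreducible_rUnif (Fact.out : p.Prime) hA)) W :=
    isSwapAut_wOp rfl hpm' hg' (irreducible_rUnif (Fact.out : p.Prime) hA)
      (fun δ => Ordinary.comp_rTop hA hpm' hcharts δ)
  -- at infinity
  obtain ⟨T₀, hT₀⟩ := exists_root_false_eigen hA hp5 hpm' h2 h6 hmm hζ hcharts S hmS
    (fun ℓ => (a ℓ : ResidueField A)) hno hF hb hf0 hfb
    (fun c sA hc hs h0 w hw ℓ hℓ hℓm hℓS n => dlog_hyp hA S hpS a hF heig c sA hc hs h0 w hw ℓ hℓ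
      hℓm hℓS n) hroots (hK.ord false)
  -- the translated class
  have hWt : W (algebraMap (rBase A L) _ (rUnif (Fact.out : p.Prime) hA) ^ t * f) =
      algebraMap (rBase A L) _ (rUnif (Fact.out : p.Prime) hA) ^ t * W f := by
    rw [map_mul, map_pow, wOp_algebraMap]
  obtain ⟨b', hb', hWb⟩ := Ordinary.exists_al_rep (n := p) hg (mul_dvd_mul_left p hmm) hmm hg' hF hb
    (x := (W f : Fld (embR A L hζ))) (by rw [← hfb]; exact toLS_wOp rfl hpm' hg' f)
  have heig' : ∀ l : GoodPrime (p * m), (l : ℕ) ∉ S →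
      heckeHomAt l (alR hg χ) = a (l : ℕ) • alR hg χ := fun l hl =>
    alR_eigen hg l (heig l hl)
  have hrootsW : RootsEverywhere (model₀ (rBase A L) (embR A L hζ) p m') p
      (algebraMap (rBase A L) _ (rUnif (Fact.out : p.Prime) hA) ^ t * W f) :=
    (congrArg (RootsEverywhere (model₀ (rBase A L) (embR A L hζ) p m') p) hWt).mp <| hroots.map W.toRingHom (fun _ hb₀ => (hWs.chart₀ _).mpr hb₀)
      fun _ hb₁ => (hWs.near _).mpr (Models.Model.le_nearSub _ hb₁)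
  obtain ⟨G, hG⟩ := hK.ord true
  have hordW := isU_of_swap W (fun z => hWs.swap false z) hG
  rw [map_div₀, map_pow, hWt] at hordW
  obtain ⟨T₁, hT₁⟩ := exists_root_false_eigen hA hp5 hpm' h2 h6 hmm hζ hcharts S hmS
    (fun ℓ => (a ℓ : ResidueField A)) hno (Semistable.alR_rep hg hF) hb'
    ((map_ne_zero W).mpr hf0) hWb.symm
    (fun c sA hc hs h0 w hw ℓ hℓ hℓm hℓS n => dlog_hyp hA S hpS a (Semistable.alR_rep hg hF) heig'
      c sA hc hs h0 w hw ℓ hℓ hℓm hℓS n) hrootsW ⟨W G, hordW⟩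
  refine ⟨fun i => bif i then W.symm T₁ else T₀, fun i => ?_⟩
  cases i with
  | false => exact hT₀
  | true =>
    refine (hWs.swap false _).mp ?_
    simp only [cond_true, map_sub, map_one, map_div₀, map_pow, RingEquiv.apply_symm_apply, hWt]
    exact hT₁

end Fermat.Agent.GalRep.Wild
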