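/-
Reduction on the component over infinity of the level model: it lands in the field of reduced
series of level `m`, and invariant functions reduce into the function field of `X₀(m₀)` in
characteristic `p`.
-/
import Fermat.Agent.Models.Gamma0.ToLevel
import Fermat.Agent.Models.Gamma0.OrdNorm
import Fermat.Agent.Models.Gamma0.DeltaInv

set_option autoImplicit false
set_option linter.style.haveILetI false
set_option linter.unusedSectionVars false

noncomputable section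

namespace Fermat.Agent.ModField

open Polynomial IsLocalRing CongruenceSubgroup
open Fermat.Agent.GalRep
open Fermat.Agent.GalRep.Level
open Fermat.Agent.GalRep.Model (chartRing self_mem_chartRing Lev WFld wSer)
open Fermat.Agent.Models (IsWildModel IsU)
open Fermat.Agent.MCurve (jHom jHom_injective evJq evJq_eq_jHom)
open Fermat.Agent.MCurve.Spec (LK intHol rS redFld rS_mem_redFld shiftA sQ sk)
open ModularCurve (qExpand jqModC modularFunctionFieldFullC)
open scoped MatrixGroups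

local notation "Q̄" => AlgebraicClosure ℚ

/-! ## Groups -/

section Groups

variable {p m : ℕ} [hp : Fact p.Prime] [NeZero m] (hpm : ¬ p ∣ m)

include hpm in
/-- The coset representatives meet every class of `Γ₀(p)`. -/
theorem exists_cosRep_gamma0 (h : SL(2, ℤ)) : ∃ i, h * (cosRep p m i)⁻¹ ∈ Gamma0 p := by
  by_cases hc : (p : ℤ) ∣ h 1 0
  · refine ⟨none, (mul_inv_mem_gamma0_iff _ _).mpr ?_⟩
    simpa [show cosRep p m none = 1 from rfl] using hc
  have hm0 : (m : ZMod p) ≠ 0 := fun h0 => hpm ((ZMod.natCast_eq_zero_iff _ _).mp h0)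
  have hc0 : ((h 1 0 : ℤ) : ZMod p) ≠ 0 := fun h0 =>
    hc ((ZMod.intCast_zmod_eq_zero_iff_dvd _ _).mp h0)
  set z : ZMod p := (((h 1 1 : ℤ) : ZMod p) * (m : ZMod p) - ((h 1 0 : ℤ) : ZMod p)) /
    (((h 1 0 : ℤ) : ZMod p) * (m : ZMod p) * (m : ZMod p)) with hz
  refine ⟨some ⟨z.val, ZMod.val_lt z⟩, (mul_inv_mem_gamma0_iff _ _).mpr ?_⟩
  rw [← ZMod.intCast_zmod_eq_zero_iff_dvd, cosRep_some_10, cosRep_some_11]
  push_cast
  rw [ZMod.natCast_zmod_val, hz]
  field_simp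
  ring

include hpm in
/-- `Γ₀(m₀) = Γ₀(p m₀) Γ(m)`. -/
theorem exists_gamma0_split {m₀ : ℕ} (hd : m₀ ∣ m) {g : SL(2, ℤ)} (hg : g ∈ Gamma0 m₀) :
    ∃ γ ∈ Gamma0 (p * m₀), ∃ h ∈ Gamma m, g = γ * h := by
  obtain ⟨i, hi⟩ := exists_cosRep_gamma0 hpm g
  refine ⟨g * (cosRep p m i)⁻¹, ?_, cosRep p m i, cosRep_mem i, by group⟩
  have h0 : cosRep p m i ∈ Gamma0 m₀ :=
    MCurve.Gamma0_le_of_dvd hd (GalRep.Gamma_le_Gamma0 m (cosRep_mem i))
  have h1 := mul_mem hg (inv_mem h0)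
  rw [Gamma0_mem, ZMod.intCast_zmod_eq_zero_iff_dvd] at hi h1 ⊢
  rw [Nat.cast_mul]
  exact IsCoprime.mul_dvd (Nat.isCoprime_iff_coprime.mpr
    (hp.out.coprime_iff_not_dvd.mpr fun h => hpm (h.trans hd))) hi h1

end Groups

variable {O : Type} [CommRing O] [IsDomain O] [IsDiscreteValuationRing O] {M : ℕ} [NeZero M]
  {E : Emb O M} {p m : ℕ} [hp : Fact p.Prime] [NeZero m]

theorem fShift_aeval_jF (g : SL(2, ℤ)) (R : O[X]) :
    fShift E g (aeval (jF E) R) = aeval (jF E) R := by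
  induction R using Polynomial.induction_on with
  | C a => rw [aeval_C, fShift_algebraMap]
  | add p q hp hq => rw [map_add, map_add, hp, hq]
  | monomial n a ih => rw [pow_succ, ← mul_assoc, map_mul, aeval_X, map_mul, ih, fShift_jF]

/-- Invariance of the trace. -/
theorem fShift_trOp (hpm : ¬ p ∣ m) (b : Fld₀ O E p m) {γ h : SL(2, ℤ)} (hγ : γ ∈ Gamma0 p)
    (hb : fShift E γ (b : Fld E) = b) (hh : h ∈ Gamma m) :
    fShift E (γ * h) (trOp hpm b : Fld E) = trOp hpm b := by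
  let η : Option (Fin p) → SL(2, ℤ) := fun i => γ⁻¹ * cosRep p m i * γ * h
  have hη : ∀ i, η i ∈ Gamma m := fun i => mul_mem (by
    simpa using (Gamma_normal m).conj_mem _ (cosRep_mem (p := p) i) γ⁻¹) hh
  have hinj : ∀ i j, η i * (η j)⁻¹ ∈ levelG p m → i = j := fun i j hij => by
    refine cosRep_inj hpm (mem_levelG.mpr ⟨?_, mul_mem (cosRep_mem i) (inv_mem (cosRep_mem j))⟩)
    rw [show cosRep p m i * (cosRep p m j)⁻¹ = γ * (η i * (η j)⁻¹) * γ⁻¹ by simp only [η]; group]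
    exact mul_mem (mul_mem hγ hij.1) (inv_mem hγ)
  rw [trOp_eq_sum hpm hη hinj, ← trOp_eq_sum hpm hη hinj, coe_trOp, map_sum]
  conv_rhs => rw [← coe_trOp hpm, trOp_eq_sum hpm hη hinj]
  refine Finset.sum_congr rfl fun i _ => ?_
  rw [fShift_fShift]
  conv_rhs => rw [← hb, fShift_fShift]
  exact congrArg (fun g => fShift E g (b : Fld E)) (by simp only [η]; group)

variable {π : O} {hπ : Irreducible π} {e : ℕ} {F₀ : Subfield (Fld₀ O E p m)}
  (A : ValuationSubring Q̄) [hu : Fact (IsUnit (m : A))] (iA : O →+* A) [IsLocalHom iA]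

local notation "rA" => RingHom.comp (residue A) iA
local notation "𝕜" => ResidueField A
local notation "P₀" => twoP O E p m hπ false

theorem aeval_mem_B₀ (Q : O[X]) :
    aeval (jF₀ O E p m) Q ∈ (model₀ O E p m).B₀ :=
  coe_polyHom₀ (jF₀ O E p m) Q ▸ SetLike.coe_mem _

theorem natCast_mem_of_wild (hw : IsWildModel (model₀ O E p m) π (twoP O E p m hπ) e p F₀) :
    (p : O) ∈ maximalIdeal O := by
  obtain ⟨u, hu⟩ := hw.natCast_eq
  rw [hu, hπ.maximalIdeal_eq, Ideal.mem_span_singleton]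
  exact Dvd.dvd.mul_left (dvd_pow_self π hw.e_pos.ne') _

/-- The reduction on polynomials in `j`. -/
theorem redComp_aeval (hM : M = p * m) (ρ : P₀ →+* LaurentSeries 𝕜)
    (hρ : ∀ (z : P₀) (s : LaurentSeries O), lmap E.φ s = toLS E ((z : Fld₀ O E p m) : Fld E) →
      expand p hp.out.ne_zero (ρ z) = lmap rA s)
    (Q : O[X]) (h : aeval (jF₀ O E p m) Q ∈ P₀) :
    ρ ⟨_, h⟩ = qExpand 𝕜 m (jHom 𝕜 (Q.map rA)) := by
  subst hM
  let ev : O[X] →+* LaurentSeries O := eval₂RingHom HahnSeries.C (jqModC O)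
  have h1 : ∀ {K : Type} [Field K] (f : O →+* K),
      lmap f (ev Q) = jHom K (Q.map f) := fun f => by
    simp only [ev, jHom, coe_eval₂RingHom, hom_eval₂, eval₂_map, lmap_jqModC]
    exact congrArg (fun c => eval₂ c _ Q) (RingHom.ext fun a => lmap_C f a)
  have hs : lmap E.φ (qExpand O (p * m) (ev Q)) = toLS E (aeval (jF E) Q) := by
    rw [lmap_qExp, h1, toLS_aeval, jqN_eq, jq_eq_jqModC, MCurve.qExpand_eq_expand,
      ← evJq_eq_jHom, evJq]
    conv_rhs => rw [aeval_def]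
    rw [aeval_def, hom_eval₂]
    refine congrArg (fun c => eval₂ c _ (Q.map E.φ)) (RingHom.ext fun a => ?_)
    rw [RingHom.comp_apply, HahnSeries.algebraMap_apply', PowerSeries.algebraMap_eq,
      HahnSeries.ofPowerSeries_C, ← MCurve.qExpand_eq_expand, ModularCurve.qExpand_C]
  have hc : ((aeval (jF₀ O E p m) Q : Fld₀ O E p m) : Fld E) = aeval (jF E) Q :=
    (Polynomial.hom_eval₂ Q (algebraMap O (Fld₀ O E p m)) (Fld₀ O E p m).subtype
      (jF₀ O E p m)).trans (congrArg (fun c => eval₂ c (jF E) Q)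
        (RingHom.ext fun a => algebraMap_coe (p := p) (m := m) a))
  have h2 := hρ ⟨_, h⟩ _ (by rw [hc]; exact hs)
  rw [← MCurve.qExpand_eq_expand, lmap_qExp, h1, ← ModularCurve.qExpand_qExpand] at h2
  exact ModularCurve.qExpand_injective p h2

variable (hiA : ∀ o, qbarToC (iA o : Q̄) = E.φ o)

include hiA in
/-- A chart element reduces to a ratio of reduced series of level `m`. -/
theorem exists_red_chart (L : Lev m) (hM : M = p * m) (hpm : ¬ p ∣ m)
    (hw : IsWildModel (model₀ O E p m) π (twoP O E p m hπ) e p F₀)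
    (ρ : P₀ →+* LaurentSeries 𝕜)
    (h0 : ∀ z : P₀, ρ z = 0 ↔ (z : Fld₀ O E p m) ∈ (P₀).nonunits)
    (hρ : ∀ (z : P₀) (s : LaurentSeries O), lmap E.φ s = toLS E ((z : Fld₀ O E p m) : Fld E) →
      expand p hp.out.ne_zero (ρ z) = lmap rA s)
    {b : Fld₀ O E p m} (hb : b ∈ (model₀ O E p m).B₀) :
    ∃ (Q : Polynomial O) (y : intHol m A) (g : LaurentSeries O),
      Q.map rA ≠ 0 ∧
      ρ ⟨b, hw.chart₀.fibre.le false b hb⟩ * qExpand 𝕜 m (jHom 𝕜 (Q.map rA)) = lmap rA g ∧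
      rS A y = lmap rA g ∧ wSer ((y : LK m A) : WFld m) = lmap E.φ g ∧
      ∀ δ, fShift E δ (trOp hpm b : Fld E) = trOp hpm b → shiftA m A δ⁻¹ (y : LK m A) = y := by
  set T := trOp hpm b
  have hTB : T ∈ (model₀ O E p m).B₀ := (isNormOp_normOp hpm hπ.ne_zero).trace₀ b hb
  obtain ⟨φ, Q, hQ, hφ⟩ := exists_num_invariant (E := E) hπ (T : Fld E)
  have hfix : ∀ δ, fShift E δ (T : Fld E) = T → shift M δ (φ : MF M) = φ := fun δ hδ => by
    have h1 : fShift E δ (toFld E φ) = toFld E φ := by rw [← hφ, map_mul, hδ, fShift_aeval_jF]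
    rw [fShift_toFld] at h1
    exact congrArg Subtype.val (toFld_injective E h1)
  have hinv : ∀ h ∈ Gamma m, shift M h (φ : MF M) = φ := fun h hh => hfix h (by
    have := fShift_trOp hpm b (γ := 1) (one_mem _) (fShift_one E _) hh
    rwa [one_mul] at this)
  have hQB : aeval (jF₀ O E p m) Q ∈ (model₀ O E p m).B₀ := aeval_mem_B₀ Q
  have hc : ((T * aeval (jF₀ O E p m) Q : Fld₀ O E p m) : Fld E) = toFld E φ := by
    rw [← hφ, Subfield.coe_mul]
    congr 1
    exact (Polynomial.hom_eval₂ Q (algebraMap O (Fld₀ O E p m)) (Fld₀ O E p m).subtype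
      (jF₀ O E p m)).trans (congrArg (fun c => eval₂ c (jF E) Q) (RingHom.ext fun a => algebraMap_coe (p := p) (m := m) a))
  have hpole : ∀ δ, PoleBound (serAt E δ (toFld E φ)) := fun δ => by
    rw [serAt_eq, ← hc]
    exact poleBound_chart (fShift_mem_chart (mem_B₀_iff.mp (mul_mem hTB hQB)) δ)
  obtain ⟨y, g, hy, hg, hr, hsh⟩ := exists_intHol A iA L hM hπ hiA φ hpole hinv
  refine ⟨Q, y, g, ?_, ?_, hr, hy, fun δ hδ => hsh δ (hfix δ hδ)⟩
  · intro h
    refine hQ ((Polynomial.C_dvd_iff_dvd_coeff _ _).mpr fun i => ?_)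
    rw [← residue_iA_eq_zero_iff A iA hπ]
    have := congrArg (fun R => Polynomial.coeff R i) h
    simpa [Polynomial.coeff_map] using this
  · have hTP := hw.chart₀.fibre.le false T hTB
    have hQP := hw.chart₀.fibre.le false _ hQB
    have e1 : ρ ⟨b, hw.chart₀.fibre.le false b hb⟩ = ρ ⟨T, hTP⟩ := by
      rw [eq_comm, ← sub_eq_zero, ← map_sub, h0]
      exact trOp_sub_self_mem hpm (natCast_mem_of_wild hw) hM hπ (chartRing_le_overlap _ hb)
    have e2 := hρ (⟨T, hTP⟩ * ⟨_, hQP⟩) (qExpand O p g) (by rw [MulMemClass.coe_mul, hc]; exact hg)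
    rw [lmap_qExp, ← MCurve.qExpand_eq_expand, map_mul, redComp_aeval A iA hM ρ hρ] at e2
    rw [e1]
    exact ModularCurve.qExpand_injective p e2

/-- The reduction of series on the component over infinity. -/
theorem exists_redSer₀ :
    ∃ ρ' : P₀ →+* LaurentSeries 𝕜,
      (∀ z : P₀, ρ' z = 0 ↔ (z : Fld₀ O E p m) ∈ (P₀).nonunits) ∧
      ∀ (z : P₀) (s : LaurentSeries O), lmap E.φ s = toLS E ((z : Fld₀ O E p m) : Fld E) →
        ρ' z = lmap rA s := by
  obtain ⟨ρp, hp1, hp2⟩ := exists_redSer (E := E) A iA hπ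
  let ι : P₀ →+* gaussP E hπ 1 :=
    { toFun := fun z => ⟨((z : Fld₀ O E p m) : Fld E), (mem_twoP_false hπ).mp z.2⟩
      map_one' := rfl
      map_zero' := rfl
      map_mul' := fun _ _ => rfl
      map_add' := fun _ _ => rfl }
  refine ⟨ρp.comp ι, fun z => ?_, fun z s hs => hp2 (ι z) s hs⟩
  rw [mem_nonunits_twoP_false hπ]
  exact hp1 (ι z)

include hiA in
/-- The reduction on the component over infinity. -/
theorem exists_redComp (hM : M = p * m) (hpm : ¬ p ∣ m) (h2 : 2 ∣ m) (h6 : 6 ≤ m)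
    (hw : IsWildModel (model₀ O E p m) π (twoP O E p m hπ) e p F₀) :
    ∃ ρ : P₀ →+* LaurentSeries 𝕜,
      (∀ z : P₀, ρ z = 0 ↔ (z : Fld₀ O E p m) ∈ (P₀).nonunits) ∧
      (∀ (o : O) (h : algebraMap O (Fld₀ O E p m) o ∈ P₀),
        ρ ⟨_, h⟩ = HahnSeries.C (residue A (iA o))) ∧
      (∀ h : jF₀ O E p m ∈ P₀, ρ ⟨_, h⟩ = qExpand 𝕜 m (jqModC 𝕜)) ∧
      (∀ z, ρ z ∈ redFld m A) ∧
      ∀ (z : P₀) (s : LaurentSeries O), lmap E.φ s = toLS E ((z : Fld₀ O E p m) : Fld E) →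
        expand p hp.out.ne_zero (ρ z) = lmap rA s := by
  classical
  have hp0 : p ≠ 0 := hp.out.ne_zero
  obtain ⟨ρ', h0', hρ'⟩ := exists_redSer₀ (p := p) (m := m) (E := E) (hπ := hπ) A iA
  have hB : ∀ (b : Fld₀ O E p m) (hb : b ∈ (model₀ O E p m).B₀) (h : b ∈ P₀),
      ρ' ⟨b, h⟩ ∈ (expand (K := 𝕜) p hp0).fieldRange := fun b hb h => by
    obtain ⟨s, hs⟩ := exists_lmap_eq (poleBound_chart (mem_B₀_iff.mp hb))
    refine mem_range_expand hp0 fun i hi => ?_
    rw [hρ' ⟨b, h⟩ s hs, lmap_coeff, show s.coeff i = 0 from E.inj (by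
      rw [← lmap_coeff, hs, map_zero]
      exact coeff_eq_zero_of_level hM b.2 hi), map_zero]
  have hfrac : ∀ z : P₀, ∃ (a b : Fld₀ O E p m) (ha : a ∈ (model₀ O E p m).B₀)
      (hb : b ∈ (model₀ O E p m).B₀), b ∉ (P₀).nonunits ∧
        z * (⟨b, hw.chart₀.fibre.le false b hb⟩ : P₀) = ⟨a, hw.chart₀.fibre.le false a ha⟩ := by
    intro z
    obtain ⟨a, b, hb, hab⟩ := hw.chart₀.frac false _ z.2
    exact ⟨a, b, a.2, b.2, hb, Subtype.ext hab⟩
  have hrange : ∀ z, ρ' z ∈ (expand (K := 𝕜) p hp0).fieldRange := fun z => by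
    obtain ⟨a, b, ha, hb, hbn, hab⟩ := hfrac z
    have h1 := congrArg ρ' hab
    rw [map_mul] at h1
    rw [eq_div_of_mul_eq (fun h => hbn ((h0' _).mp h)) h1]
    exact div_mem (hB a ha _) (hB b hb _)
  choose f hf using hrange
  have hinj : Function.Injective (expand (K := 𝕜) p hp0) := expand_injective p hp0
  let ρ : P₀ →+* LaurentSeries 𝕜 :=
    { toFun := f
      map_one' := hinj (by rw [hf, map_one, map_one])
      map_zero' := hinj (by rw [hf, map_zero, map_zero])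
      map_mul' := fun x y => hinj (by rw [hf, map_mul, map_mul, hf, hf])
      map_add' := fun x y => hinj (by rw [hf, map_add, map_add, hf, hf]) }
  have hρ : ∀ (z : P₀) (s : LaurentSeries O), lmap E.φ s = toLS E ((z : Fld₀ O E p m) : Fld E) →
      expand p hp0 (ρ z) = lmap rA s := fun z s hs => (hf z).trans (hρ' z s hs)
  have h0 : ∀ z : P₀, ρ z = 0 ↔ (z : Fld₀ O E p m) ∈ (P₀).nonunits := fun z => by
    rw [← h0', ← hf z, map_eq_zero_iff _ hinj]
    rfl
  have hC : ∀ (o : O) (h : algebraMap O (Fld₀ O E p m) o ∈ P₀),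
      ρ ⟨_, h⟩ = HahnSeries.C (residue A (iA o)) := fun o h => by
    have h' : aeval (jF₀ O E p m) (Polynomial.C o) ∈ P₀ := by rwa [aeval_C]
    rw [show (⟨_, h⟩ : P₀) = ⟨_, h'⟩ from Subtype.ext (aeval_C (A := Fld₀ O E p m) _ o).symm,
      redComp_aeval A iA hM ρ hρ, Polynomial.map_C, jHom, coe_eval₂RingHom, eval₂_C,
      ModularCurve.qExpand_C]
    rfl
  have hJ : ∀ h : jF₀ O E p m ∈ P₀, ρ ⟨_, h⟩ = qExpand 𝕜 m (jqModC 𝕜) := fun h => by
    have h' : aeval (jF₀ O E p m) (Polynomial.X : O[X]) ∈ P₀ := by rwa [aeval_X]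
    rw [show (⟨_, h⟩ : P₀) = ⟨_, h'⟩ from Subtype.ext (aeval_X (R := O) (jF₀ O E p m)).symm,
      redComp_aeval A iA hM ρ hρ, Polynomial.map_X, jHom, coe_eval₂RingHom, eval₂_X]
  refine ⟨ρ, h0, hC, hJ, fun z => ?_, hρ⟩
  let L : Lev m := ⟨2, m / 2, Or.inl rfl, (Nat.div_mul_cancel h2).symm, by omega⟩
  have hmem : ∀ (b : Fld₀ O E p m) (hb : b ∈ (model₀ O E p m).B₀),
      ρ ⟨b, hw.chart₀.fibre.le false b hb⟩ ∈ redFld m A := fun b hb => by
    obtain ⟨Q, y, g, hQ, hmul, hr, -, -⟩ := exists_red_chart A iA hiA L hM hpm hw ρ h0 hρ hb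
    have hq : qExpand 𝕜 m (jHom 𝕜 (Q.map rA)) ≠ 0 :=
      (map_ne_zero_iff _ (ModularCurve.qExpand_injective m)).mpr
        ((map_ne_zero_iff _ jHom_injective).mpr hQ)
    rw [eq_div_of_mul_eq hq hmul, ← hr]
    refine div_mem (rS_mem_redFld A y) ?_
    rw [← Polynomial.map_map, ← MCurve.Spec.rS_polI A L]
    exact rS_mem_redFld A _
  obtain ⟨a, b, ha, hb, hbn, hab⟩ := hfrac z
  have h1 := congrArg ρ hab
  rw [map_mul] at h1
  rw [eq_div_of_mul_eq (fun h => hbn ((h0 _).mp h)) h1]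
  exact div_mem (hmem a ha) (hmem b hb)

theorem evJq_mem_fullC {m₀ : ℕ} (R : Polynomial 𝕜) :
    evJq 𝕜 R ∈ modularFunctionFieldFullC 𝕜 m₀ := by
  have hj : jqModC 𝕜 ∈ modularFunctionFieldFullC 𝕜 m₀ := by
    refine IntermediateField.subset_adjoin _ _ ?_
    exact ⟨1, inferInstance, one_dvd _, (ModularCurve.qExpand_one_apply _).symm⟩
  induction R using Polynomial.induction_on' with
  | add a b ha hb => rw [map_add]; exact add_mem ha hb
  | monomial n a =>
    rw [evJq, aeval_monomial]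
    exact mul_mem (IntermediateField.algebraMap_mem _ a) (pow_mem hj n)

include hiA in
/-- Invariant chart elements reduce into the function field of `X₀(m₀)`. -/
theorem mem_of_invariant_chart (L : Lev m) (hM : M = p * m) (hpm : ¬ p ∣ m)
    (hA : A.LiesOverPrime p)
    (hw : IsWildModel (model₀ O E p m) π (twoP O E p m hπ) e p F₀)
    (ρ : P₀ →+* LaurentSeries 𝕜)
    (h0 : ∀ z : P₀, ρ z = 0 ↔ (z : Fld₀ O E p m) ∈ (P₀).nonunits)
    (hρ : ∀ (z : P₀) (s : LaurentSeries O), lmap E.φ s = toLS E ((z : Fld₀ O E p m) : Fld E) →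
      expand p hp.out.ne_zero (ρ z) = lmap rA s)
    {m₀ : ℕ} [NeZero m₀] (hd : m₀ ∣ m) {b : Fld₀ O E p m} (hb : b ∈ (model₀ O E p m).B₀)
    (hinv : ∀ g ∈ Gamma0 (p * m₀), fShift E g (b : Fld E) = b) :
    ∃ y ∈ modularFunctionFieldFullC 𝕜 m₀,
      ρ ⟨b, hw.chart₀.fibre.le false b hb⟩ = qExpand 𝕜 m y := by
  classical
  obtain ⟨Q, y, g, hQ, hmul, -, hy, hsh⟩ := exists_red_chart A iA hiA L hM hpm hw ρ h0 hρ hb
  have hpm₀ : ¬ p ∣ m₀ := fun h => hpm (h.trans hd)
  have hfix : ∀ σ ∈ MCurve.Spec.gam0G m₀ m A, σ (y : LK m A) = y := by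
    rintro _ ⟨g, hg, rfl⟩
    obtain ⟨γ, hγ, h, hh, hgh⟩ := exists_gamma0_split (p := p) hpm hd (inv_mem hg)
    have := hsh g⁻¹ (by
      rw [hgh]
      exact fShift_trOp hpm b (MCurve.Gamma0_le_of_dvd (dvd_mul_right p m₀) hγ) (hinv γ hγ) hh)
    rwa [inv_inv] at this
  obtain ⟨x, hx⟩ : (y : LK m A) ∈ (MCurve.Spec.iotaBar A L hd hA hpm₀).fieldRange := by
    rw [← MCurve.Spec.fixedField_gam0G, IntermediateField.mem_fixedField_iff]
    exact hfix
  obtain ⟨D, P, hor, -, hrep⟩ := MCurve.Spec.exists_repr hA hpm₀ x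
  set S := ∑ i, MCurve.aJ A (P i) * MCurve.Spec.bSer A m₀ i
  have hxs : qExpand Q̄ m (x : LaurentSeries Q̄) = sQ A (lmap iA g) := by
    refine lmap_injective (RingHom.injective qbarToC) ?_
    rw [show sQ A (lmap iA g) = lmap (MCurve.subA A) (lmap iA g) from rfl, lmap_qExp,
      MCurve.qExpand_eq_expand, lmap_lmap, lmap_lmap]
    have e : qbarToC.comp ((MCurve.subA A).comp iA) = E.φ := RingHom.ext hiA
    rw [RingHom.comp_assoc, e, ← hy,
      show (y : LK m A) = MCurve.Spec.iotaBar A L hd hA hpm₀ x from hx.symm, wSer_iotaBar]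
    rfl
  have heq : lmap iA g * qExpand A m (MCurve.aJ A D) = qExpand A m S := by
    refine MCurve.Spec.sQ_injective A ?_
    have h1 := congrArg (qExpand Q̄ m) hrep
    rw [map_mul, hxs] at h1
    rw [map_mul]
    simp only [MCurve.Spec.sQ] at h1 ⊢
    rw [MCurve.qExpand_coeffMap, MCurve.qExpand_coeffMap]
    exact h1
  have hred := congrArg (sk A) heq
  rw [map_mul] at hred
  simp only [MCurve.Spec.sk, MCurve.qExpand_coeffMap] at hred
  change sk A (lmap iA g) * qExpand 𝕜 m (sk A (MCurve.aJ A D)) = qExpand 𝕜 m (sk A S) at hred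
  rw [show sk A (lmap iA g) = lmap rA g from lmap_lmap iA (residue A) g] at hred
  have hD : sk A (MCurve.aJ A D) ≠ 0 := fun h0' => by
    rw [h0', map_zero, mul_zero, eq_comm, map_eq_zero_iff _ (ModularCurve.qExpand_injective m)]
      at hred
    rcases hor with hD | ⟨i, hi⟩
    · exact MCurve.Spec.sk_aJ_ne_zero hD h0'
    · exact hi (MCurve.Spec.red_indep hA hpm₀ P hred i)
  have hj : jHom 𝕜 (Q.map rA) ≠ 0 := (map_ne_zero_iff _ jHom_injective).mpr hQ
  refine ⟨sk A S / sk A (MCurve.aJ A D) / jHom 𝕜 (Q.map rA), div_mem (div_mem ?_ ?_) ?_, ?_⟩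
  · rw [map_sum]
    refine sum_mem fun i _ => ?_
    rw [map_mul, MCurve.Spec.sk_aJ, MCurve.Spec.bSer, map_pow]
    refine mul_mem (evJq_mem_fullC A _) (pow_mem ?_ _)
    show ModularCurve.coeffMap (residue A) _ ∈ _
    rw [MCurve.qExpand_coeffMap, MCurve.coeffMap_jqModC]
    exact IntermediateField.subset_adjoin _ _ (ModularCurve.mem_divisorExpansionsC 𝕜 m₀ dvd_rfl)
  · rw [MCurve.Spec.sk_aJ]; exact evJq_mem_fullC A _
  · rw [← evJq_eq_jHom]; exact evJq_mem_fullC A _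
  · rw [map_div₀, map_div₀, eq_div_iff ((map_ne_zero_iff _ (ModularCurve.qExpand_injective m)).mpr hj),
      eq_div_iff ((map_ne_zero_iff _ (ModularCurve.qExpand_injective m)).mpr hD), hmul, hred]

include hiA in
/-- Invariant functions with a multiple in the chart reduce into the function field of `X₀(m₀)`. -/
theorem mem_of_invariant (hM : M = p * m) (hpm : ¬ p ∣ m) (h2 : 2 ∣ m) (h6 : 6 ≤ m)
    (hA : A.LiesOverPrime p)
    (hw : IsWildModel (model₀ O E p m) π (twoP O E p m hπ) e p F₀)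
    (ρ : P₀ →+* LaurentSeries 𝕜)
    (h0 : ∀ z : P₀, ρ z = 0 ↔ (z : Fld₀ O E p m) ∈ (P₀).nonunits)
    (hρ : ∀ (z : P₀) (s : LaurentSeries O), lmap E.φ s = toLS E ((z : Fld₀ O E p m) : Fld E) →
      expand p hp.out.ne_zero (ρ z) = lmap rA s)
    {m₀ : ℕ} [NeZero m₀] (hd : m₀ ∣ m) (z : P₀) (N : ℕ)
    (hz : π ^ N • (z : Fld₀ O E p m) ∈ (model₀ O E p m).B₀)
    (hinv : ∀ g ∈ Gamma0 (p * m₀), fShift E g ((z : Fld₀ O E p m) : Fld E) = (z : Fld₀ O E p m)) :
    ∃ y ∈ modularFunctionFieldFullC 𝕜 m₀, ρ z = qExpand 𝕜 m y := by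
  let L : Lev m := ⟨2, m / 2, Or.inl rfl, (Nat.div_mul_cancel h2).symm, by omega⟩
  have hpM : p ∣ M := hM ▸ dvd_mul_right p m
  have hpO := natCast_mem_of_wild hw
  have hvinv : ∀ g ∈ Gamma0 p, fShift E g (vF E p hpM) = vF E p hpM := fun g hg => by
    rw [vF, fShift_toFld]
    exact congrArg _ (Subtype.ext (Subtype.ext (funext fun τ =>
      (isModFun_vFun p).invariant g hg τ)))
  let v : Fld₀ O E p m :=
    ⟨vF E p hpM, mem_fld₀_self_iff.mpr fun g hg => hvinv g (mem_levelG.mp hg).1⟩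
  have hvB : v ∈ (model₀ O E p m).B₀ := mem_B₀_iff.mpr (vF_mem_chart hpM)
  have hvU : IsU (twoP O E p m hπ false) v := by
    rw [twoP, comp, isU_comap_iff]
    exact ((uF_gauss (E := E) hπ hpO hpM 1).1 (by simp)).2
  have hvN : v ∈ (twoP O E p m hπ true).nonunits := by
    rw [twoP, comp, mem_nonunits_comap]
    refine ((uF_gauss (E := E) hπ hpO hpM ModularGroup.S).2 ?_).2
    simp only [ModularGroup.coe_S]
    intro hd'
    simp at hd'
    exact hp.out.ne_one (Nat.dvd_one.mp (Int.natCast_dvd_natCast.mp (by simpa using hd')))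
  have hup : ∀ (k : ℕ) (u : Fld₀ O E p m), u ∈ P₀ → π ^ k • u ∈ (model₀ O E p m).B₀ →
      v ^ k * u ∈ (model₀ O E p m).B₀ := by
    intro k
    induction k with
    | zero => intro u _ h; simpa using h
    | succ k ih =>
      intro u hu h
      have hπu : π • u ∈ P₀ := by
        rw [Algebra.smul_def]; exact mul_mem (hw.algebraMap_mem false π) hu
      have h1 := ih (π • u) hπu (by rwa [smul_smul, ← pow_succ])
      have e : v ^ k * (π • u) * v = π • (v ^ (k + 1) * u) := by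
        simp only [Algebra.smul_def]; ring
      obtain ⟨d, hd, hde⟩ := hw.chart₀.fibre.reduced _ (mul_mem h1 hvB) fun i => by
        cases i
        · exact (hw.mem_nonunits_iff false).mpr
            ⟨_, mul_mem (pow_mem hvU.1 _) hu, e⟩
        · rw [ValuationSubring.mem_nonunits_iff, map_mul, mul_comm]
          exact mul_lt_one_of_lt_of_le (((twoP O E p m hπ true).mem_nonunits_iff).mp hvN)
            ((ValuationSubring.valuation_le_one_iff _ _).mpr (hw.chart₀.fibre.le true _ h1))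
      rw [e, Algebra.smul_def, Algebra.smul_def] at hde
      rwa [mul_left_cancel₀ hw.pi_ne_zero hde]
  have h1B := hup N z z.2 hz
  have hvk : v ^ N ∈ (model₀ O E p m).B₀ := pow_mem hvB N
  have hfixv : ∀ g ∈ Gamma0 (p * m₀),
      fShift E g ((v ^ N : Fld₀ O E p m) : Fld E) = ((v ^ N : Fld₀ O E p m) : Fld E) := fun g hg => by
    show fShift E g (vF E p hpM ^ N) = vF E p hpM ^ N
    rw [map_pow, hvinv g (MCurve.Gamma0_le_of_dvd (dvd_mul_right p m₀) hg)]
  obtain ⟨y₁, hy₁, e₁⟩ := mem_of_invariant_chart A iA hiA L hM hpm hA hw ρ h0 hρ hd h1B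
    fun g hg => by rw [Subfield.coe_mul, map_mul, hfixv g hg, hinv g hg]
  obtain ⟨y₂, hy₂, e₂⟩ := mem_of_invariant_chart A iA hiA L hM hpm hA hw ρ h0 hρ hd hvk hfixv
  have hne : ρ ⟨v ^ N, hw.chart₀.fibre.le false _ hvk⟩ ≠ 0 := fun h => by
    rw [show (⟨v ^ N, _⟩ : P₀) = (⟨v, hvU.1⟩ : P₀) ^ N from Subtype.ext rfl, map_pow] at h
    exact hvU.2 (Models.rs_eq_zero_of_nonunit ((h0 ⟨v, hvU.1⟩).mp (eq_zero_of_pow_eq_zero h)))
  have e3 : ρ z * ρ ⟨v ^ N, hw.chart₀.fibre.le false _ hvk⟩ =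
      ρ ⟨v ^ N * z, hw.chart₀.fibre.le false _ h1B⟩ := by
    rw [← map_mul]
    exact congrArg ρ (Subtype.ext (mul_comm _ _))
  refine ⟨y₁ / y₂, div_mem hy₁ hy₂, ?_⟩
  rw [map_div₀, ← e₁, ← e₂, eq_div_iff hne, e3]

end Fermat.Agent.ModField
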