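import Fermat.Agent.GalRep.Wild.EigenBoth
import Fermat.Agent.GalRep.WildModel.GapA
import Fermat.Agent.GalRep.WildModel.OffRoots
import Fermat.Agent.Models.Wild.Endgame

/-!
A constant exponent of the Kummer function of an eigenclass gives, after scaling, roots everywhere
and, without a character at level prime to `p`, power reductions on both components.
-/

set_option autoImplicit false
set_option linter.style.haveILetI false
set_option linter.unusedSectionVars false

noncomputable section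

namespace Fermat.Agent.GalRep.Wild

open IsLocalRing UpperHalfPlane CongruenceSubgroup
open Fermat.Agent.ModField
open Fermat.Agent.NewVec
open Fermat.Agent.GalRep Fermat.Agent.GalRep.Level
open Fermat.Agent.GalRep.InertiaBase
open Fermat.Agent.GalRep.Semistable (ChartsSemi)
open Fermat.Agent.GalRep.WildModel (irreducible_rUnif)
open Fermat.Agent.Models (IsKummer RootsEverywhere ExpEq)
open scoped MatrixGroups

variable {A : ValuationSubring (AlgebraicClosure ℚ)} {L : IntermediateField ℚ (AlgebraicClosure ℚ)}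
  [FiniteDimensional ℚ L] [Normal ℚ L]
  {p m m' : ℕ} [Fact p.Prime] [NeZero (p * m')] [NeZero (p * m)] [NeZero m] [NeZero m']

set_option maxHeartbeats 1000000 in
/-- A constant exponent gives roots everywhere and power reductions. -/
theorem exists_scaled_roots (hA : A.LiesOverPrime p) (hp5 : 5 ≤ p) (hpm' : ¬ p ∣ m')
    (h2 : 2 ∣ m') (h6 : 6 ≤ m') (hmm : m ∣ m') (hζ : zetaQ (p * m') ∈ L)
    (hcharts : ChartsSemi A p m') [IsDiscreteValuationRing (rBase A L)]
    (S : Finset ℕ) (hmS : ∀ r : ℕ, r.Prime → r ∣ m → r ∈ S) (hpS : p ∈ S) (a : ℕ → ℤ)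
    (hno : ∀ θ : CuspForm.heckeAlgebra m 2 (↑S : Set ℕ) →+* ResidueField A,
      ∃ (ℓ : ℕ) (hℓ : ℓ.Prime) (hℓm : ¬ ℓ ∣ m) (hℓS : ℓ ∉ (↑S : Set ℕ)),
        θ (CuspForm.heckeAlgebra.T hℓ hℓm hℓS) ≠ (a ℓ : ResidueField A))
    (l : GoodPrime (p * m)) (hl : ((l : ℕ) : ZMod (p * m')) = 1) (hlS : (l : ℕ) ∉ S)
    (hla : (a (l : ℕ) : ZMod p) ≠ ((l : ℕ) : ZMod p) + 1)
    {χ : ParHom (p * m) (ZMod p)}
    (heig : ∀ l : GoodPrime (p * m), (l : ℕ) ∉ S → heckeHomAt l χ = a (l : ℕ) • χ)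
    {F : ℍ → ℂ} (hF : IsRepG (Gamma0 (p * m)) p χ F)
    {b : bddMF (embR A L hζ)} (hb : ((b : MF (p * m')) : ℍ → ℂ) = F ^ p)
    {f : rTop A L hζ p m'} (hf0 : f ≠ 0) (hfb : (f : Fld (embR A L hζ)) = toFld (embR A L hζ) b)
    {s : ℕ}
    (hs₀ : ExpEq (model₀ (rBase A L) (embR A L hζ) p m').B₀ (rUnif (Fact.out : p.Prime) hA)
      (twoP (rBase A L) (embR A L hζ) p m' (irreducible_rUnif (Fact.out : p.Prime) hA))
      (rIdx (L := L) (Fact.out : p.Prime) hA)
      (algebraMap (wTop A (p * m') p m') (rTop A L hζ p m')).fieldRange p f s)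
    (hs₁ : ExpEq (model₀ (rBase A L) (embR A L hζ) p m').B₁ (rUnif (Fact.out : p.Prime) hA)
      (twoP (rBase A L) (embR A L hζ) p m' (irreducible_rUnif (Fact.out : p.Prime) hA))
      (rIdx (L := L) (Fact.out : p.Prime) hA)
      (algebraMap (wTop A (p * m') p m') (rTop A L hζ p m')).fieldRange p f s) :
    ∃ t : ℕ,
      IsKummer (model₀ (rBase A L) (embR A L hζ) p m') (rUnif (Fact.out : p.Prime) hA)
        (twoP (rBase A L) (embR A L hζ) p m' (irreducible_rUnif (Fact.out : p.Prime) hA)) p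
        (algebraMap (rBase A L) _ (rUnif (Fact.out : p.Prime) hA) ^ t * f) ∧
      RootsEverywhere (model₀ (rBase A L) (embR A L hζ) p m') p
        (algebraMap (rBase A L) _ (rUnif (Fact.out : p.Prime) hA) ^ t * f) ∧
      ∃ T : Bool → rTop A L hζ p m', ∀ i,
        T i ^ p / (algebraMap (rBase A L) _ (rUnif (Fact.out : p.Prime) hA) ^ t * f) - 1 ∈
          (twoP (rBase A L) (embR A L hζ) p m'
            (irreducible_rUnif (Fact.out : p.Prime) hA) i).nonunits := by
  have hw := WildModel.isWildModel (Fact.out : p.Prime) hA hpm' hζ hcharts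
  have hoff := WildModel.off_roots_kummer (Fact.out : p.Prime) hA hp5 hpm' rfl
    (mul_dvd_mul_left p hmm) hF hb hf0 hfb
  obtain ⟨h0, h1⟩ := WildModel.expEq_zero (Fact.out : p.Prime) hA hp5 hpm' hζ hcharts
    (mul_dvd_mul_left p hmm) l hl (a := (a (l : ℕ) : ZMod p)) hla
    ((heig l hlS).trans (Int.cast_smul_eq_zsmul (ZMod p) _ χ).symm) hF hb hf0 hfb hs₀ hs₁
  obtain ⟨t, ht⟩ := hw.exists_scaling hf0 hoff.1 hoff.2 (Or.inr h0)
  have hroots := hw.roots_of_expEq_zero ht (hw.expEq_scale t h0) (hw.expEq_scale t h1)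
  exact ⟨t, ht, hroots, exists_root_eigen hA hp5 hpm' h2 h6 hmm hζ hcharts S hmS hpS a hno heig hF hb
    hf0 hfb ht hroots⟩

end Fermat.Agent.GalRep.Wild
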