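import Fermat.Agent.GalRep.Wild.EigenRoots
import Fermat.Agent.GalRep.WildModel.Aut
import Fermat.Agent.GalRep.WildModel.Classes
import Fermat.Agent.GalRep.WildModel.Roots
import Fermat.Agent.GalRep.Ordinary.ResidualData
import Fermat.Agent.Models.Wild.Ordinary

/-!
An eigenclass fixed by inertia at `p` vanishes when the eigenvalues do not come from level prime
to `p`.
-/

set_option autoImplicit false
set_option linter.style.haveILetI false
set_option linter.unusedSectionVars false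

noncomputable section

namespace Fermat.Agent.GalRep.Wild

open IsLocalRing UpperHalfPlane CongruenceSubgroup
open Fermat.Agent.ModField
open Fermat.Agent.NewVec
open Fermat.Agent.GalRep Fermat.Agent.GalRep.Level
open Fermat.Agent.GalRep.InertiaBase
open Fermat.Agent.GalRep.Semistable (ChartsSemi)
open Fermat.Agent.GalRep.WildModel (irreducible_rUnif)
open Fermat.Agent.Galois (GQ)
open Fermat.Agent.Models (TrivialMod)
open scoped MatrixGroups

local notation "Qb" => AlgebraicClosure ℚ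

variable {A : ValuationSubring (AlgebraicClosure ℚ)}
  {p m m' : ℕ} [Fact p.Prime] [NeZero p] [NeZero (p * m')] [NeZero (p * m)] [NeZero m] [NeZero m']

set_option maxHeartbeats 1000000 in
/-- A class fixed by inertia is zero. -/
theorem eq_zero_of_inertia_fixed (hA : A.LiesOverPrime p) (hp5 : 5 ≤ p) (hpm' : ¬ p ∣ m')
    (h2 : 2 ∣ m') (h6 : 6 ≤ m') (hmm : m ∣ m')
    (hcharts : ChartsSemi A p m')
    (S : Finset ℕ) (hmS : ∀ r : ℕ, r.Prime → r ∣ m → r ∈ S) (hpS : p ∈ S) (a : ℕ → ℤ)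
    (hno : ∀ θ : CuspForm.heckeAlgebra m 2 (↑S : Set ℕ) →+* ResidueField A,
      ∃ (ℓ : ℕ) (hℓ : ℓ.Prime) (hℓm : ¬ ℓ ∣ m) (hℓS : ℓ ∉ (↑S : Set ℕ)),
        θ (CuspForm.heckeAlgebra.T hℓ hℓm hℓS) ≠ (a ℓ : ResidueField A))
    (l : GoodPrime (p * m)) (hl : ((l : ℕ) : ZMod (p * m')) = 1) (hlS : (l : ℕ) ∉ S)
    (hla : (a (l : ℕ) : ZMod p) ≠ ((l : ℕ) : ZMod p) + 1)
    {χ : ParHom (p * m) (ZMod p)}
    (heig : ∀ l : GoodPrime (p * m), (l : ℕ) ∉ S → heckeHomAt l χ = a (l : ℕ) • χ)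
    (hfix : ∀ s ∈ A.inertiaSubgroupIn ℚ, (kummerGalois (p * m) p).galois s χ = χ) : χ = 0 := by
  classical
  have hq : p.Prime := Fact.out
  let L := IntermediateField.adjoin ℚ ({zetaQ (p * m')} : Set Qb)
  haveI : FiniteDimensional ℚ L := WildModel.finite_adjoin_zetaQ _
  haveI : Normal ℚ L := WildModel.normal_adjoin_zetaQ _
  have hζ : zetaQ (p * m') ∈ L := IntermediateField.mem_adjoin_simple_self ℚ _
  haveI := (rBase_dvr (L := L) hq hA).1
  have hw := WildModel.isWildModel hq hA hpm' hζ hcharts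
  have hN : p * m ∣ p * m' := mul_dvd_mul_left p hmm
  have he : rIdx (L := L) hq hA = p - 1 := Ordinary.rIdx_cyclotomic hA rfl hpm' hζ le_rfl
  obtain ⟨F, b, f, hF, hb, hfb, hf0⟩ :=
    WildModel.exists_kummerFun (hζ := hζ) hq hpm' rfl hN χ fun s hs _ => hfix s hs
  have hoff := WildModel.off_roots_kummer hq hA hp5 hpm' rfl hN hF hb hf0 hfb
  obtain ⟨s, hs₀, hs₁⟩ := hw.exists_exp_const_unit
    (by rw [he]; exact Nat.not_dvd_of_pos_of_lt (by omega) (by omega)) hf0 hoff.1 hoff.2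
  obtain ⟨t, hK, hroots, T, hT⟩ := exists_scaled_roots hA hp5 hpm' h2 h6 hmm hζ hcharts S hmS hpS a
    hno l hl hlS hla heig hF hb hf0 hfb hs₀ hs₁
  obtain ⟨r₀, r₁, hr⟩ := hw.triv_one hroots hT
  obtain ⟨δ, hc⟩ := hr.exists_class hK.ne_zero hq.pos
  -- a tame element
  obtain ⟨σ, hσI, hσ⟩ := Ordinary.exists_inertia_cyc_ne_one (p := p) (by omega) hA
  let σ' : A.inertiaSubgroupIn ℚ := ⟨σ, hσI⟩
  obtain ⟨v, hv⟩ := exists_rAct_rUnif (L := L) hq hA σ'
  obtain ⟨k, u, hk0, hk, hu, hku⟩ := Ordinary.exists_crit (L := L) hA (m := m') rfl hζ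
  obtain rfl : k = 1 := Nat.eq_of_mul_eq_mul_right (show 0 < p - 1 by omega)
    (hk.trans (he.trans (one_mul _).symm))
  have hvu := Ordinary.isUnit_tame (L := L) hA (m := m') rfl hζ (s := σ') hσ hu one_pos hku hv
  obtain ⟨ht₀, ht₁, ht₀₁⟩ := Ordinary.tauTop_trivial (hζ := hζ) hA hpm' hcharts σ'
  -- it fixes the function up to a power
  obtain ⟨c, H, hc0, hH, hσf⟩ : ∃ (c : rBase A L) (H : rTop A L hζ p m'), c ≠ 0 ∧ H ≠ 0 ∧
      tauTop hζ rfl σ' f = algebraMap (rBase A L) _ c * f * H ^ p := by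
    obtain ⟨F', b', hF', hb', he'⟩ := WildModel.exists_conj_kummerFun rfl hN hF hb hfb σ'
    rw [hfix σ hσI] at hF'
    obtain ⟨c, H, hc0, hH, hHmem, hcH⟩ := Ordinary.exists_pow_of_rep_eq hN
      (fun γ hγ => WildModel.levelG_le_gamma0 hq hpm' hN hγ) hF hF' hb hb'
    refine ⟨c, ⟨H, hHmem⟩, hc0, fun h0 => hH (congrArg Subtype.val h0), Subtype.ext ?_⟩
    rw [he', hcH, ← hfb, Subfield.coe_mul, Subfield.coe_mul, SubmonoidClass.coe_pow,
      coe_algebraMap_fld₀]
  have hσπ : tauTop hζ rfl σ' (algebraMap (rBase A L) _ (rUnif hq hA)) =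
      algebraMap (rBase A L) (rTop A L hζ p m') (rUnif (L := L) hq hA * (v : rBase A L)) := by
    rw [tauTop_algebraMap, hv]
  have hsplit := hw.split_tame (σ := tauTop hζ rfl σ') (fun b hb => TrivialMod.map_mem ht₀ hb)
    (fun b hb => TrivialMod.map_mem ht₁ hb)
    (fun z hz => by
      obtain ⟨w, hw', hwe⟩ := ht₀₁ z hz
      exact ⟨w, hw', sub_eq_iff_eq_add'.mp hwe⟩)
    hσπ one_pos hvu hK.ne_zero hc (c := (v : rBase A L) ^ t * c) (H := H)
    (mul_ne_zero (pow_ne_zero _ v.ne_zero) hc0) hH (by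
      rw [map_mul (tauTop hζ rfl σ'), map_pow (tauTop hζ rfl σ'), hσπ, hσf, map_mul, map_mul,
        map_pow]
      ring)
  obtain ⟨c', H', hc', hH', hroot⟩ := hw.exists_root_of_triv hK.ne_zero hroots.1 (k := 1 + 1)
    (by omega) (by rw [he]; omega) (hw.triv_succ one_pos hc hsplit)
  -- so the class vanishes
  refine WildModel.eq_zero_of_heckeHomAt (M := p * m') hN l hl hla χ
    ((heig l hlS).trans (Int.cast_smul_eq_zsmul (ZMod p) _ χ).symm) fun γ hγ => ?_
  refine WildModel.apply_eq_zero_of_pow_eq (q := p) (m := m') (K := baseK (rBase A L) (embR A L hζ))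
    hF hb (h := (H' : Fld (embR A L hζ))) H'.2
    (fun h0 => hH' (Subtype.ext h0)) (c := c' * rUnif hq hA ^ t)
    (mul_ne_zero hc' (pow_ne_zero _ (rBase_dvr hq hA).2.2.ne_zero)) ?_ γ
    (gamma_le_levelG (dvd_mul_right p m') (dvd_mul_left m' p) hγ)
  have h1 := congrArg Subtype.val hroot
  simp only [SubmonoidClass.coe_pow, Subfield.coe_mul, coe_algebraMap_fld₀, hfb] at h1
  rw [h1, map_mul, map_pow]
  ring

end Fermat.Agent.GalRep.Wild
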