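import Fermat.Agent.EC.Local.WildField

/-!
# An eigenspace with the traces of `E[p]` on which wild inertia is trivial makes `E[p]` reducible
-/

set_option autoImplicit false

noncomputable section

namespace Fermat.Agent.GalRep.Wild

open WeierstrassCurve WeierstrassCurve.Affine.Point
open scoped WeierstrassCurve.Affine
open Fermat.Agent.EC

local notation "Qbar" => AlgebraicClosure ℚ
local notation "GQ" => (AlgebraicClosure ℚ) ≃ₐ[ℚ] (AlgebraicClosure ℚ)

variable (P : FreyPackage) [Fact P.p.Prime] {A : ValuationSubring Qbar}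

local notation "ρE" => galoisRepModuleEnd (K := Qbar) ℚ P.freyCurve.toAffine P.p

/-- The trace on `E[p]`. -/
abbrev freyTrace (g : GQ) : ZMod P.p :=
  galoisTrace (K := Qbar) ℚ P.freyCurve.toAffine P.p g

variable (hA : A.LiesOverPrime P.p) (hd : (P.p : ℤ) ∣ P.a * P.b * P.c)
include hA hd

/-- On inertia the trace is `1 + ω`. -/
theorem freyTrace_inertia {s : GQ} (hs : s ∈ A.inertiaSubgroupIn ℚ) :
    freyTrace P s = 1 + freyOmega P s := by
  classical
  have hrk := finrank_torsionBy (K := Qbar) P.freyCurve.toAffine P.p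
  haveI : Module.Finite (ZMod P.p) (FreyTorsion P) := Module.finite_of_finrank_eq_succ hrk
  set bs := Module.finBasisOfFinrankEq (ZMod P.p) _ hrk
  have h1 : LinearMap.det (ρE s - 1) = 0 := by
    by_contra h
    refine bigTorsion_ne_top P hA hd (eq_top_iff.2 fun y _ => ?_)
    obtain ⟨x, rfl⟩ : ∃ x, (ρE s - 1) x = y :=
      (Module.End.isUnit_iff _).1 ((LinearMap.isUnit_iff_isUnit_det _).2
        (isUnit_iff_ne_zero.2 h)) |>.surjective y
    exact smul_sub_mem_big_all P hA hd hs x
  have h2 := det_eq_freyOmega P s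
  rw [← LinearMap.det_toMatrix bs, map_sub, LinearMap.toMatrix_one] at h1
  rw [← LinearMap.det_toMatrix bs] at h2
  show LinearMap.trace (ZMod P.p) _ (ρE s) = _
  rw [LinearMap.trace_eq_matrix_trace (ZMod P.p) bs, Matrix.trace_fin_two]
  simp only [Matrix.det_fin_two, Matrix.sub_apply, Matrix.one_apply, Fin.isValue, if_true,
    zero_ne_one, one_ne_zero, if_false, sub_zero] at h1 h2
  linear_combination -h1 + h2

variable {V : Type*} [AddCommGroup V] [Module (ZMod P.p) V] (σ : GQ →* Module.End (ZMod P.p) V)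
  (hrel : ∀ g, σ g + freyOmega P g • σ g⁻¹ = freyTrace P g • 1)
include hrel

/-- Inertia is killed by `(s - 1)(s - ω)`. -/
theorem rep_quadratic {s : GQ} (hs : s ∈ A.inertiaSubgroupIn ℚ) (v : V) :
    σ s (σ s v) + freyOmega P s • v = (1 + freyOmega P s) • σ s v := by
  have h := LinearMap.congr_fun (hrel s) (σ s v)
  rw [freyTrace_inertia P hA hd hs] at h
  simp only [LinearMap.add_apply, LinearMap.smul_apply, Module.End.one_apply] at h
  rwa [← Module.End.mul_apply (σ s⁻¹), ← map_mul, inv_mul_cancel, map_one,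
    Module.End.one_apply] at h

variable (hker : ∀ g ∈ torsionKer P, σ g = 1)
  (hwild : (∃ s ∈ A.inertiaSubgroupIn ℚ, (∀ z : Qbar, z ^ P.p = 1 → s z = z) ∧
      ∃ x : FreyTorsion P, s • x ≠ x) →
    ∃ τ ∈ A.inertiaSubgroupIn ℚ, (∀ z : Qbar, z ^ P.p = 1 → τ z = z) ∧
      (∃ x : FreyTorsion P, τ • x ≠ x) ∧
      ∀ v, σ τ (σ τ v - v) = σ τ v - v → σ τ v = v)
include hker hwild

/-- Wild inertia acts trivially. -/
theorem rep_wild_eq_one {s : GQ} (hs : s ∈ A.inertiaSubgroupIn ℚ) (hw : freyOmega P s = 1) :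
    σ s = 1 := by
  by_cases hE : ∀ x : FreyTorsion P, s • x = x
  · exact hker s hE
  push Not at hE
  obtain ⟨τ, hτ, hτμ, hτx, hτV⟩ := hwild ⟨s, hs, (freyOmega_one_iff P).mp hw, hE⟩
  have hτw : freyOmega P τ = 1 := (freyOmega_one_iff P).mpr hτμ
  have hτ1 : σ τ = 1 := LinearMap.ext fun v => hτV v (by
    have h := rep_quadratic P hA hd σ hrel hτ v
    rw [hτw, one_smul] at h
    rw [map_sub, sub_eq_sub_iff_add_eq_add, h, one_add_one_eq_two, ← two_smul (ZMod P.p)])
  -- `s` acts on `E[p]` as a power of `τ`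
  obtain ⟨x, hx⟩ := hτx
  obtain ⟨x₀, hx₀⟩ := exists_not_mem_big P hA hd
  have hfixB : ∀ {t : GQ}, t ∈ A.inertiaSubgroupIn ℚ → freyOmega P t = 1 →
      ∀ z ∈ bigTorsion P A, t • z = z := fun ht htw z hz => by
    show ρE _ z = z
    rw [smul_of_mem_big P hA hd ht hz, htw, one_smul]
  have hB : bigTorsion P A ≠ ⊥ := fun hB => hx (sub_eq_zero.mp (by
    have := smul_sub_mem_big_all P hA hd hτ x
    rwa [hB, Submodule.mem_bot] at this))
  obtain ⟨b₁, hb₁, hb₁0⟩ := Submodule.exists_mem_ne_zero_of_ne_bot hB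
  have hbτ : τ • x₀ - x₀ ≠ 0 := fun he => hx (by
    obtain ⟨c, e, rfl⟩ := exists_decomp P hA hd hb₁ hb₁0 hx₀ x
    rw [smul_add, smul_comm, smul_comm τ e, sub_eq_zero.mp he, hfixB hτ hτw b₁ hb₁])
  have hbτm := smul_sub_mem_big_all P hA hd hτ x₀
  obtain ⟨c, d, hcd⟩ := exists_decomp P hA hd hbτm hbτ hx₀ (s • x₀ - x₀)
  have hc : c = 0 := by
    by_contra hc
    refine hx₀ ?_
    rw [← inv_smul_smul₀ hc x₀]
    refine (bigTorsion P A).smul_mem _ (((bigTorsion P A).add_mem_iff_left
      ((bigTorsion P A).smul_mem d hbτm)).mp ?_)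
    rw [← hcd]
    exact smul_sub_mem_big_all P hA hd hs x₀
  subst hc
  rw [zero_smul, zero_add, sub_eq_iff_eq_add] at hcd
  have hpow : ∀ n : ℕ, (τ ^ n) • x₀ = (n : ZMod P.p) • (τ • x₀ - x₀) + x₀ := by
    intro n
    induction n with
    | zero => rw [pow_zero, one_smul, Nat.cast_zero, zero_smul, zero_add]
    | succ n ih =>
      rw [pow_succ', mul_smul, ih, smul_add, smul_comm, hfixB hτ hτw _ hbτm, Nat.cast_succ,
        add_smul, one_smul]
      abel
  have hτn : ∀ (n : ℕ), ∀ z ∈ bigTorsion P A, (τ ^ n) • z = z := fun n z hz => by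
    induction n with
    | zero => rw [pow_zero, one_smul]
    | succ n ih => rw [pow_succ, mul_smul, hfixB hτ hτw z hz, ih]
  have hmem : (τ ^ d.val)⁻¹ * s ∈ torsionKer P := fun y => by
    obtain ⟨c, e, rfl⟩ := exists_decomp P hA hd hbτm hbτ hx₀ y
    rw [mul_smul, inv_smul_eq_iff, smul_add, smul_add, smul_comm s, smul_comm s e,
      smul_comm (τ ^ d.val), smul_comm (τ ^ d.val) e, hcd, hfixB hs hw _ hbτm, hτn _ _ hbτm,
      hpow, ZMod.natCast_zmod_val]
  have h1 := hker _ hmem
  rw [← mul_inv_cancel_left (τ ^ d.val) s, map_mul, h1, map_pow, hτ1, one_pow, one_mul]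

variable [Nontrivial V] (hfix : ∀ v : V, (∀ s ∈ A.inertiaSubgroupIn ℚ, σ s v = v) → v = 0)
include hfix

/-- The endgame. -/
theorem not_irreducible_of_eigenspace :
    ¬ GaloisRepIsIrreducible (K := Qbar) ℚ P.freyCurve P.p := by
  intro hirr
  haveI : NeZero P.p := ⟨P.hp0⟩
  -- an element of inertia with `ω` a generator
  obtain ⟨a, ha⟩ := IsCyclic.exists_generator (α := (ZMod P.p)ˣ)
  obtain ⟨s₀, hs₀, hs₀w⟩ := exists_inertia_freyOmega P hA a
  have hsame : ∀ {s t : GQ}, s ∈ A.inertiaSubgroupIn ℚ → t ∈ A.inertiaSubgroupIn ℚ →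
      freyOmega P s = freyOmega P t → σ s = σ t := by
    intro s t hs ht hst
    have hw : freyOmega P (t⁻¹ * s) = 1 := by
      rw [← det_eq_freyOmega, map_mul, map_mul, det_eq_freyOmega, det_eq_freyOmega, hst,
        ← det_eq_freyOmega P t, ← det_eq_freyOmega P t⁻¹, ← map_mul, ← map_mul, inv_mul_cancel,
        map_one, map_one]
    have := rep_wild_eq_one P hA hd σ hrel hker hwild (mul_mem (inv_mem ht) hs) hw
    rw [← mul_inv_cancel_left t s, map_mul, this, mul_one]
  have ha1 : (a : ZMod P.p) ≠ 1 := fun h => by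
    have h1 : a = 1 := Units.ext h
    have hc : Nat.card (ZMod P.p)ˣ = 1 := by
      rw [← orderOf_eq_card_of_forall_mem_zpowers ha, h1, orderOf_one]
    rw [Nat.card_eq_fintype_card, ZMod.card_units] at hc
    have := P.hp5
    omega
  have hωpow : ∀ n : ℕ, freyOmega P (s₀ ^ n) = (a : ZMod P.p) ^ n := fun n => by
    rw [← det_eq_freyOmega, map_pow, map_pow, det_eq_freyOmega, hs₀w]
  have hinj : ∀ v, σ s₀ v = v → v = 0 := fun v hv => hfix v fun s hs => by
    have hu : IsUnit (freyOmega P s) := by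
      refine isUnit_iff_exists_inv.mpr ⟨freyOmega P s⁻¹, ?_⟩
      rw [← det_eq_freyOmega, ← det_eq_freyOmega P s⁻¹, ← map_mul, ← map_mul, mul_inv_cancel,
        map_one, map_one]
    obtain ⟨n, hn⟩ := (mem_powers_iff_mem_zpowers (y := hu.unit)).mpr (ha _)
    have hn' : (a : ZMod P.p) ^ n = freyOmega P s := by
      simpa using congrArg Units.val hn
    rw [hsame hs (pow_mem hs₀ n) (by rw [hωpow, hn']), map_pow]
    clear hn hn'
    induction n with
    | zero => rfl
    | succ n ih => rw [pow_succ, Module.End.mul_apply, hv, ih]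
  have hscal : ∀ v, σ s₀ v = (a : ZMod P.p) • v := fun v => by
    have h := rep_quadratic P hA hd σ hrel hs₀ v
    rw [hs₀w] at h
    refine sub_eq_zero.mp (hinj _ ?_)
    rw [map_sub, map_smul, sub_eq_sub_iff_add_eq_add, h, add_smul, one_smul]
  -- every element acts by a scalar
  have ha0 : (a : ZMod P.p) ≠ 0 := a.ne_zero
  have hsub : (a : ZMod P.p) - 1 ≠ 0 := sub_ne_zero.mpr ha1
  have hlin : ∀ (g : GQ) (v : V), ((a : ZMod P.p) - 1) • σ g v =
      (freyTrace P (g * s₀) - freyTrace P g) • v := fun g v => by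
    have h1 := LinearMap.congr_fun (hrel g) v
    have h2 := LinearMap.congr_fun (hrel (g * s₀)) v
    have hw : freyOmega P (g * s₀) = freyOmega P g * a := by
      rw [← det_eq_freyOmega, map_mul, map_mul, det_eq_freyOmega, det_eq_freyOmega, hs₀w]
    have hinvs : ∀ x, σ s₀⁻¹ x = (a : ZMod P.p)⁻¹ • x := fun x => by
      have h3 : σ s₀⁻¹ (σ s₀ x) = x := by
        rw [← Module.End.mul_apply, ← map_mul, inv_mul_cancel, map_one, Module.End.one_apply]
      rw [hscal, map_smul] at h3
      rw [← h3, smul_smul, inv_mul_cancel₀ ha0, one_smul, h3]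
    simp only [LinearMap.add_apply, LinearMap.smul_apply, Module.End.one_apply, map_mul,
      Module.End.mul_apply, mul_inv_rev, hinvs, hscal, map_smul, hw, smul_smul] at h1 h2
    rw [mul_assoc, mul_inv_cancel₀ ha0, mul_one] at h2
    linear_combination (norm := module) h2 - h1
  -- the projector on the `a`-line of `s₀`
  set π : Module.End (ZMod P.p) (FreyTorsion P) :=
    ((a : ZMod P.p) - 1)⁻¹ • (ρE s₀ - 1) with hπ
  have hρ0 : ρE s₀ = ((a : ZMod P.p) - 1) • π + 1 := by
    rw [hπ, smul_smul, mul_inv_cancel₀ hsub, one_smul, sub_add_cancel]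
  have hrk := finrank_torsionBy (K := Qbar) P.freyCurve.toAffine P.p
  haveI : Module.Finite (ZMod P.p) (FreyTorsion P) := Module.finite_of_finrank_eq_succ hrk
  have htr : LinearMap.trace (ZMod P.p) _ π = 1 := by
    have h := freyTrace_inertia P hA hd hs₀
    rw [freyTrace, galoisTrace_def, hρ0, map_add, map_smul, LinearMap.trace_one, hrk, hs₀w,
      smul_eq_mul] at h
    refine mul_left_cancel₀ hsub ?_
    push_cast at h
    linear_combination h
  have hidem : ∀ x, π (π x) = π x := fun x => by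
    have h := LinearMap.congr_fun (inertia_quadratic P hA hd hs₀) x
    rw [hs₀w, hρ0] at h
    simp only [Module.End.mul_apply, LinearMap.sub_apply, LinearMap.add_apply,
      LinearMap.smul_apply, Module.End.one_apply, add_sub_cancel_right, LinearMap.zero_apply,
      map_add, map_sub, map_smul] at h
    have h' : (((a : ZMod P.p) - 1) * ((a : ZMod P.p) - 1)) • (π (π x) - π x) = 0 := by
      rw [← h]
      module
    exact sub_eq_zero.mp ((smul_eq_zero.mp h').resolve_left (mul_ne_zero hsub hsub))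
  have hπ0 : LinearMap.range π ≠ ⊥ := fun h => by
    rw [LinearMap.range_eq_bot.mp h, _root_.map_zero] at htr
    exact zero_ne_one htr
  have hπ1 : LinearMap.range π ≠ ⊤ := fun h => by
    have h1 : π = 1 := LinearMap.ext fun x => by
      obtain ⟨y, rfl⟩ := LinearMap.range_eq_top.mp h x
      exact hidem y
    rw [h1, LinearMap.trace_one, hrk] at htr
    push_cast at htr
    exact one_ne_zero (α := ZMod P.p) (by linear_combination htr)
  have hline := finrank_eq_one_of_ne (K := Qbar) P.freyCurve.toAffine P.p hπ0 hπ1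
  obtain ⟨b, hb, hb0⟩ := Submodule.exists_mem_ne_zero_of_ne_bot hπ0
  have hπb : π b = b := by
    obtain ⟨y, rfl⟩ := hb
    exact hidem y
  obtain ⟨φ₀, hφ₀⟩ := Module.Projective.exists_dual_eq_one (ZMod P.p) hb0
  set φ := φ₀.comp π with hφ
  have hπφ : ∀ x, π x = φ x • b := fun x => by
    obtain ⟨r, hr⟩ := exists_smul_eq_of_finrank_eq_one hline
      (x := ⟨b, hb⟩) (fun e => hb0 (congrArg Subtype.val e)) ⟨π x, LinearMap.mem_range_self π x⟩
    have hr' : r • b = π x := congrArg Subtype.val hr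
    rw [hφ, LinearMap.comp_apply, ← hr', map_smul, hφ₀, smul_eq_mul, mul_one]
  have hφb : φ b = 1 := by rw [hφ, LinearMap.comp_apply, hπb, hφ₀]
  have hcoef : ∀ (g : GQ) (v : V), σ g v = φ (g • b) • v := fun g v => by
    refine smul_right_injective V hsub ?_
    show ((a : ZMod P.p) - 1) • σ g v = ((a : ZMod P.p) - 1) • φ (g • b) • v
    rw [hlin, smul_smul]
    congr 1
    have hcomp : ρE g * π = φ.smulRight (g • b) := LinearMap.ext fun x => by
      rw [Module.End.mul_apply, hπφ, (ρE g).map_smul]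
      rfl
    rw [freyTrace, freyTrace, galoisTrace_def, galoisTrace_def, map_mul, hρ0, mul_add, mul_one,
      mul_smul_comm, hcomp, map_add, map_smul, LinearMap.trace_smulRight, smul_eq_mul,
      add_sub_cancel_right]
  obtain ⟨v₀, hv₀⟩ := exists_ne (0 : V)
  have hmul : ∀ g h : GQ, φ (g • h • b) = φ (g • b) * φ (h • b) := fun g h =>
    smul_left_injective (ZMod P.p) hv₀ (by
      show φ (g • h • b) • v₀ = (φ (g • b) * φ (h • b)) • v₀
      rw [← mul_smul g h b, ← hcoef, map_mul, Module.End.mul_apply, hcoef, hcoef, smul_smul])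
  -- the submodule killed by every translate of the functional
  let U : Submodule (ZMod P.p) (FreyTorsion P) :=
    { carrier := {x | ∀ g : GQ, φ (g • x) = 0}
      add_mem' := fun {x y} hx hy g => by rw [smul_add, map_add, hx g, hy g, add_zero]
      zero_mem' := fun g => by rw [smul_zero, _root_.map_zero]
      smul_mem' := fun c x hx g => by rw [smul_comm g, φ.map_smul, hx g, smul_zero] }
  have hU : U = ⊥ := (hirr.2 U fun h x hx g => by rw [← mul_smul]; exact hx _).resolve_right
    fun htop => one_ne_zero (α := ZMod P.p) (by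
      have := (htop ▸ Submodule.mem_top : b ∈ U) 1
      rwa [one_smul, hφb] at this)
  have hst : ∀ h : GQ, h • b = φ (h • b) • b := fun h => by
    have hm : h • b - φ (h • b) • b ∈ U := fun g => by
      rw [smul_sub, smul_comm g (φ (h • b)), map_sub, φ.map_smul, hmul, smul_eq_mul, mul_comm, sub_self]
    rw [hU, Submodule.mem_bot, sub_eq_zero] at hm
    exact hm
  rcases hirr.2 (Submodule.span (ZMod P.p) {b}) (fun h x hx => by
      obtain ⟨r, rfl⟩ := Submodule.mem_span_singleton.mp hx
      rw [smul_comm, hst h, smul_smul]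
      exact Submodule.smul_mem _ _ (Submodule.mem_span_singleton_self b)) with he | he
  · exact hb0 (Submodule.span_singleton_eq_bot.mp he)
  · have h1 := finrank_span_singleton (K := ZMod P.p) hb0
    rw [he, finrank_top, hrk] at h1
    omega

end Fermat.Agent.GalRep.Wild
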