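import Fermat.Agent.GalRep.Wild.Eigen
import Fermat.Agent.Newform.Character

/-!
# A character of the Hecke algebra modulo `p` gives residual modularity
-/

set_option autoImplicit false
set_option linter.style.haveILetI false

noncomputable section

namespace Fermat.Agent.GalRep.Wild

open CongruenceSubgroup ModularFormClass
open WeierstrassCurve WeierstrassCurve.Affine.Point
open Fermat.Agent.EC
open Fermat.Agent.Galois (GQ)

section Matrix

variable {k : Type} [Field k] {G : Type*} [Group G] (r : G →* Matrix (Fin 2) (Fin 2) k)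

theorem matRel (g : G) : r g + (r g).det • r g⁻¹ = (r g).trace • 1 := by
  have h1 : (r g).adjugate = (r g).det • r g⁻¹ := by
    calc (r g).adjugate = (r g).adjugate * (r g * r g⁻¹) := by
          rw [← map_mul, mul_inv_cancel, map_one, mul_one]
      _ = (r g).det • r g⁻¹ := by
          rw [← mul_assoc, Matrix.adjugate_mul, smul_mul_assoc, one_mul]
  rw [← h1, Matrix.adjugate_fin_two]
  ext i j
  fin_cases i <;> fin_cases j <;> simp [Matrix.trace_fin_two] <;> ring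

/-- The trace of a power from trace and determinant. -/
theorem trace_pow_eq_frobPoly {g : G} {t : k} {l : ℕ} (ht : (r g).trace = t)
    (hl : (r g).det = (l : k)) (b : ℕ) : (r (g ^ b)).trace = frobPoly t (l : k) b := by
  have h1 := matRel r g
  rw [ht, hl, Nat.cast_smul_eq_nsmul, nsmul_eq_mul] at h1
  have h2 := pow_add_pow_eq_frobPoly (F := r g) (G := r g⁻¹)
    (by rw [← map_mul, mul_inv_cancel, map_one]) (by rw [← map_mul, inv_mul_cancel, map_one]) h1 b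
  have h3 := matRel r (g ^ b)
  rw [map_pow, Matrix.det_pow, hl, ← inv_pow, map_pow, ← Nat.cast_pow, Nat.cast_smul_eq_nsmul,
    nsmul_eq_mul, Nat.cast_pow, h2] at h3
  have h4 := map_frobPoly (algebraMap k (Matrix (Fin 2) (Fin 2) k)) t (l : k) b
  rw [map_natCast, Algebra.algebraMap_eq_smul_one, Algebra.algebraMap_eq_smul_one, h3] at h4
  rw [map_pow]
  exact (smul_left_injective k (one_ne_zero (α := Matrix (Fin 2) (Fin 2) k)) h4).symm

end Matrix

variable (P : FreyPackage) [Fact P.p.Prime] {m : ℕ} [NeZero m]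

/-- A character modulo `p` with the eigenvalues `a_ℓ(W)` outside a finite set gives residual
modularity of the level. -/
theorem modularRepOfLevel_of_theta {W : WeierstrassCurve ℤ} (hW : W.IsIntegralModelOf P.freyCurve)
    (S : Finset ℕ) (hS : ∀ ℓ : ℕ, ℓ.Prime → ℓ ∉ S → W.IsGoodPrimeFor ℓ ∧ ℓ ≠ P.p)
    (hmS : ∀ q : ℕ, q.Prime → q ∣ m → q ∈ S) {k : Type*} [Field k] [CharP k P.p]
    (θ : CuspForm.heckeAlgebra m 2 (↑S : Set ℕ) →+* k)
    (hθ : ∀ (ℓ : ℕ) (hℓ : ℓ.Prime) (hℓm : ¬ ℓ ∣ m) (hℓS : ℓ ∉ (↑S : Set ℕ)),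
      θ (CuspForm.heckeAlgebra.T hℓ hℓm hℓS) = (W.apOfModel ℓ : k)) :
    P.ModularRepOfLevel m := by
  classical
  obtain ⟨f, χ, hf, hker, -, hχ⟩ := Newform.exists_eigenform_of_ringHom (↑S : Set ℕ) θ
  obtain ⟨χ', hχ'⟩ := exists_eigenCharacter hf (↑S : Set ℕ)
  have hcomp : (integralClosure ℤ ℂ).val.toRingHom.comp χ' = χ :=
    Newform.heckeHom_ext (fun q hq hqm => hmS q hq hqm) fun ℓ hℓ hℓm hℓS =>
      (hχ' ℓ hℓ hℓm hℓS).trans (hχ ℓ hℓ hℓm hℓS).symm
  have hker' : RingHom.ker χ'.rangeRestrict ≤ RingHom.ker θ := fun t ht => hker (by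
    rw [RingHom.mem_ker] at ht ⊢
    rw [← hcomp, RingHom.comp_apply, show χ' t = 0 from congrArg Subtype.val ht]; exact _root_.map_zero _)
  let θ' : χ'.range →+* k :=
    RingHom.liftOfSurjective χ'.rangeRestrict χ'.rangeRestrict_surjective ⟨θ, hker'⟩
  have hθ' : ∀ t, θ' (χ'.rangeRestrict t) = θ t := fun t =>
    RingHom.liftOfSurjective_comp_apply _ _ _ t
  haveI : Algebra.IsIntegral χ'.range (integralClosure ℤ ℂ) :=
    ⟨fun x => IsIntegral.tower_top (R := ℤ) (Algebra.IsIntegral.isIntegral x)⟩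
  haveI : (RingHom.ker θ').IsPrime := RingHom.ker_isPrime θ'
  obtain ⟨𝔪, -, h𝔪, hcomap⟩ := Ideal.exists_ideal_over_prime_of_isIntegral (RingHom.ker θ')
    (⊥ : Ideal (integralClosure ℤ ℂ)) (by
      intro x hx
      rw [Ideal.mem_comap, Ideal.mem_bot] at hx
      rw [RingHom.mem_ker, show x = 0 from Subtype.ext hx]; exact _root_.map_zero _)
  have hp : (P.p : integralClosure ℤ ℂ) ∈ 𝔪 := by
    have : (P.p : χ'.range) ∈ RingHom.ker θ' := by
      rw [RingHom.mem_ker, map_natCast, CharP.cast_eq_zero]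
    rw [← hcomap, Ideal.mem_comap, map_natCast] at this
    exact this
  haveI := h𝔪
  have hmax : 𝔪.IsMaximal := by
    refine Ideal.isMaximal_of_isIntegral_of_isMaximal_comap (R := ℤ) _ (Ideal.IsPrime.isMaximal inferInstance ?_)
    intro h
    have h1 : ((P.p : ℤ)) ∈ 𝔪.comap (algebraMap ℤ (integralClosure ℤ ℂ)) := by
      rw [Ideal.mem_comap, map_natCast]
      exact hp
    rw [h, Submodule.mem_bot] at h1
    exact P.hp0 (by exact_mod_cast h1)
  letI : Field (integralClosure ℤ ℂ ⧸ 𝔪) := Ideal.Quotient.field 𝔪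
  haveI : CharP (integralClosure ℤ ℂ ⧸ 𝔪) P.p := by
    refine (CharP.charP_iff_prime_eq_zero P.pp).mpr ?_
    rw [← map_natCast (Ideal.Quotient.mk 𝔪), Ideal.Quotient.eq_zero_iff_mem]
    exact hp
  have hout : ∀ ℓ : ℕ, ℓ.Prime → ¬ ℓ ∣ m → ℓ ∉ S → ∀ a : integralClosure ℤ ℂ,
      (a : ℂ) = qCoeff ⇑f ℓ → Ideal.Quotient.mk 𝔪 a = (W.apOfModel ℓ : integralClosure ℤ ℂ ⧸ 𝔪) := by
    intro ℓ hℓ hℓm hℓS a ha
    have hℓS' : ℓ ∉ (↑S : Set ℕ) := by simpa using hℓS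
    have he : a = χ' (CuspForm.heckeAlgebra.T hℓ hℓm hℓS') :=
      Subtype.ext (ha.trans (hχ' ℓ hℓ hℓm hℓS').symm)
    have h0 : χ'.rangeRestrict (CuspForm.heckeAlgebra.T hℓ hℓm hℓS' -
        ((W.apOfModel ℓ : ℤ) : CuspForm.heckeAlgebra m 2 (↑S : Set ℕ))) ∈
        RingHom.ker θ' := by
      rw [RingHom.mem_ker, hθ', map_sub, map_intCast, hθ, sub_self]
    rw [← hcomap, Ideal.mem_comap] at h0
    rw [← map_intCast (Ideal.Quotient.mk 𝔪), Ideal.Quotient.eq, he]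
    have h0' : χ' (CuspForm.heckeAlgebra.T hℓ hℓm hℓS' -
        ((W.apOfModel ℓ : ℤ) : CuspForm.heckeAlgebra m 2 (↑S : Set ℕ))) ∈ 𝔪 := h0
    rwa [map_sub, map_intCast] at h0'
  haveI : ∀ j, NeZero (P.p ^ j) := fun j => ⟨pow_ne_zero j P.hp0⟩
  obtain ⟨D⟩ := nonempty_datum (fun M => Model.kummerReduction M) m P.p
  obtain ⟨r, hr, hfrob, -⟩ := exists_residual_matrix D hf (Ideal.Quotient.mk 𝔪)
  obtain ⟨L₁, hL₁, h1⟩ := hr
  obtain ⟨L₂, hL₂, h2⟩ :=
    EC.exists_finite_level ℚ P.freyCurve.toAffine (K := AlgebraicClosure ℚ) P.p P.pp.one_le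
  haveI := hL₁
  haveI := hL₂
  -- the traces agree everywhere
  have hall : ∀ g : GQ, (r g).trace = ZMod.castHom (dvd_refl P.p) (integralClosure ℤ ℂ ⧸ 𝔪) (freyTrace P g) := by
    intro g
    obtain ⟨ℓ, hℓ, hbad, A, hA, σ, hσ, b, hb⟩ :=
      frobeniusPowDensity (L₁ ⊔ L₂) (S ∪ m.primeFactors) g
    simp only [Finset.mem_union, not_or] at hbad
    have hℓm : ¬ ℓ ∣ m := fun h => hbad.2 (Nat.mem_primeFactors.mpr ⟨hℓ, h, NeZero.ne m⟩)
    obtain ⟨hgood, hℓp⟩ := hS ℓ hℓ hbad.1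
    obtain ⟨a, ha, htr, hdet⟩ := hfrob ℓ hℓ hℓm hℓp A hA σ hσ
    rw [hout ℓ hℓ hℓm hbad.1 a ha] at htr
    obtain ⟨hta, htω⟩ := freyTrace_frobenius P hW hℓ hgood hℓp hA hσ
    have hfix : ∀ x ∈ L₁ ⊔ L₂, ((σ ^ b)⁻¹ * g) x = x := fun x hx => by
      rw [AlgEquiv.mul_apply, ← hb x hx]
      exact (σ ^ b).symm_apply_apply x
    have e1 : r ((σ ^ b)⁻¹ * g) = 1 :=
      h1 _ fun x hx => hfix x ((le_sup_left : L₁ ≤ L₁ ⊔ L₂) hx)
    have e2 : galoisRepModuleEnd (K := AlgebraicClosure ℚ) ℚ P.freyCurve.toAffine P.p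
        ((σ ^ b)⁻¹ * g) = 1 :=
      LinearMap.ext fun Q => h2 _ (fun x hx => hfix x ((le_sup_right : L₂ ≤ L₁ ⊔ L₂) hx)) Q
    have hg : freyTrace P g = freyTrace P (σ ^ b) := by
      rw [freyTrace, freyTrace, galoisTrace_def, galoisTrace_def]
      conv_lhs => rw [← mul_inv_cancel_left (σ ^ b) g, map_mul, e2, mul_one]
    have hg' : r g = r (σ ^ b) := by
      conv_lhs => rw [← mul_inv_cancel_left (σ ^ b) g, map_mul, e1, mul_one]
    rw [hg', trace_pow_eq_frobPoly r htr hdet b, hg, freyTrace_pow P hta htω b, map_frobPoly,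
      map_intCast, map_natCast]
  refine ⟨f, W, 𝔪, hf, hW, hmax, hp, fun ℓ hℓ hgood hℓm hℓp => ?_⟩
  obtain ⟨A, hA⟩ := Galois.exists_liesOverPrime hℓ
  obtain ⟨σ, hσ⟩ := Galois.exists_isFrobeniusAt hℓ hA
  obtain ⟨a, ha, htr, -⟩ := hfrob ℓ hℓ hℓm hℓp A hA σ hσ
  refine ⟨a, ha, ?_⟩
  rw [hall, (freyTrace_frobenius P hW hℓ hgood hℓp hA hσ).1, map_intCast,
    ← map_intCast (Ideal.Quotient.mk 𝔪)] at htr
  exact Ideal.Quotient.eq.mp htr.symm

end Fermat.Agent.GalRep.Wild
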