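import Fermat.Agent.GalRep.Wild.Fixed
import Fermat.Agent.GalRep.Wild.Contra
import Fermat.Agent.GalRep.Wild.Theta
import Fermat.Agent.GalRep.Semistable.SemiModel
import Fermat.Prelude.Def_FreyPackage_IsConductorLevel

/-!
Level lowering at `p` from the statement on wild inertia and an auxiliary prime.
-/

set_option autoImplicit false
set_option linter.style.haveILetI false
set_option linter.unusedSectionVars false

noncomputable section

namespace Fermat.Agent.GalRep.Wild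

open IsLocalRing CongruenceSubgroup
open WeierstrassCurve WeierstrassCurve.Affine.Point
open Fermat.Agent.EC
open Fermat.Agent.GalRep.Semistable (ChartsSemi)
open Fermat.Agent.Galois (GQ)

local notation "Qb" => AlgebraicClosure ℚ

/-- An integral model of the Frey curve has non-zero discriminant. -/
theorem delta_ne_zero (P : FreyPackage) {W : WeierstrassCurve ℤ}
    (hW : W.IsIntegralModelOf P.freyCurve) : W.Δ ≠ 0 := by
  obtain ⟨C, hC⟩ := hW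
  intro h
  have h1 := congrArg WeierstrassCurve.Δ hC
  rw [WeierstrassCurve.variableChange_Δ, WeierstrassCurve.map_Δ, h, _root_.map_zero,
    mul_eq_zero] at h1
  exact h1.elim (pow_ne_zero 12 C.u⁻¹.ne_zero) (EC.freyCurve_Δ_ne_zero P)

/-- The wild statement for a place, a level and a finite set of primes. -/
def WildStatement (P : FreyPackage) [Fact P.p.Prime] (m : ℕ) [NeZero m] [NeZero P.p]
    [NeZero (P.p * m)] : Prop :=
  ∀ (A : ValuationSubring (AlgebraicClosure ℚ)) (m' : ℕ) [NeZero m'] [NeZero (P.p * m')],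
    A.LiesOverPrime P.p → (P.p : ℤ) ∣ P.a * P.b * P.c → ¬ P.p ∣ m' → 2 ∣ m' → 6 ≤ m' → m ∣ m' →
    ChartsSemi A P.p m' →
    ∀ (S : Finset ℕ), (∀ r : ℕ, r.Prime → r ∣ m → r ∈ S) → P.p ∈ S →
    ∀ W : WeierstrassCurve ℤ,
    (∀ θ : CuspForm.heckeAlgebra m 2 (↑S : Set ℕ) →+* ResidueField A,
      ∃ (ℓ : ℕ) (hℓ : ℓ.Prime) (hℓm : ¬ ℓ ∣ m) (hℓS : ℓ ∉ (↑S : Set ℕ)),
        θ (CuspForm.heckeAlgebra.T hℓ hℓm hℓS) ≠ (W.apOfModel ℓ : ResidueField A)) →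
    ∀ l : GoodPrime (P.p * m), ((l : ℕ) : ZMod (P.p * m')) = 1 → (l : ℕ) ∉ S →
    (W.apOfModel (l : ℕ) : ZMod P.p) ≠ ((l : ℕ) : ZMod P.p) + 1 →
    (∃ s ∈ A.inertiaSubgroupIn ℚ, (∀ z : Qb, z ^ P.p = 1 → s z = z) ∧
      ∃ x : FreyTorsion P, s • x ≠ x) →
    ∃ τ ∈ A.inertiaSubgroupIn ℚ, (∀ z : Qb, z ^ P.p = 1 → τ z = z) ∧
      (∃ x : FreyTorsion P, τ • x ≠ x) ∧
      ∀ χ ∈ eigenSpace P (P.p * m) S W,
        (kummerGalois (P.p * m) P.p).galois τ ((kummerGalois (P.p * m) P.p).galois τ χ - χ) =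
            (kummerGalois (P.p * m) P.p).galois τ χ - χ →
          (kummerGalois (P.p * m) P.p).galois τ χ = χ

/-- Level lowering at `p`. -/
theorem modularRepOfLevel_of_wild (P : FreyPackage) [Fact P.p.Prime] [NeZero P.p] {m : ℕ}
    [NeZero m] [NeZero (P.p * m)] (hpm : ¬ P.p ∣ m)
    (hd : (P.p : ℤ) ∣ P.a * P.b * P.c)
    (hirr : GaloisRepIsIrreducible (K := AlgebraicClosure ℚ) ℚ P.freyCurve P.p)
    (hmod : P.ModularRepOfLevel (P.p * m))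
    (hwild : WildStatement P m)
    (haux : ∀ W : WeierstrassCurve ℤ, W.IsIntegralModelOf P.freyCurve → ∀ (M : ℕ) [NeZero M]
      (S : Finset ℕ), (∀ ℓ : ℕ, ℓ.Prime → ℓ ∉ S → W.IsGoodPrimeFor ℓ ∧ ℓ ≠ P.p) →
      ∃ ℓ : ℕ, ℓ.Prime ∧ ℓ ∉ S ∧ ¬ ℓ ∣ M ∧ (ℓ : ZMod M) = 1 ∧
        (W.apOfModel ℓ : ZMod P.p) ≠ (ℓ : ZMod P.p) + 1) :
    P.ModularRepOfLevel m := by
  classical
  obtain ⟨f, W, 𝔪, hf, hW, h𝔪, hp𝔪, hcong⟩ := hmod
  by_contra hcon
  have hΔ := delta_ne_zero P hW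
  obtain ⟨A, hA⟩ := Galois.exists_liesOverPrime P.pp
  have hp6 : ¬ P.p ∣ 6 * m := fun h => by
    rcases P.pp.dvd_mul.mp h with h' | h'
    · rcases P.pp.dvd_mul.mp (show P.p ∣ 2 * 3 from h') with h'' | h'' <;>
        have := Nat.le_of_dvd (by norm_num) h'' <;> have := P.hp5 <;> omega
    · exact hpm h'
  obtain ⟨m', hne, hmm', hpm', hcharts⟩ := Semistable.hasSemiModel P.pp hA
    (Nat.mul_pos (by norm_num) (NeZero.pos m)) hp6
  haveI := hne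
  haveI : NeZero m' := ⟨fun h => NeZero.ne (P.p * m') (by rw [h, mul_zero])⟩
  set S : Finset ℕ := insert P.p (W.Δ.natAbs.primeFactors ∪ m.primeFactors) with hSdef
  have hpS : P.p ∈ S := Finset.mem_insert_self _ _
  have hmS : ∀ r : ℕ, r.Prime → r ∣ m → r ∈ S := fun r hr hrm =>
    Finset.mem_insert_of_mem (Finset.mem_union_right _
      (Nat.mem_primeFactors.mpr ⟨hr, hrm, NeZero.ne m⟩))
  have hS : ∀ ℓ : ℕ, ℓ.Prime → ℓ ∉ S → W.IsGoodPrimeFor ℓ ∧ ℓ ≠ P.p := fun ℓ hℓ hℓS => by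
    refine ⟨fun h => hℓS (Finset.mem_insert_of_mem (Finset.mem_union_left _
      (Nat.mem_primeFactors.mpr ⟨hℓ, Int.natCast_dvd.mp h, Int.natAbs_ne_zero.mpr hΔ⟩))),
      fun h => hℓS (h ▸ hpS)⟩
  haveI := GalRep.charP_residue (A := A) P.pp hA
  have hno : ∀ θ : CuspForm.heckeAlgebra m 2 (↑S : Set ℕ) →+* ResidueField A,
      ∃ (ℓ : ℕ) (hℓ : ℓ.Prime) (hℓm : ¬ ℓ ∣ m) (hℓS : ℓ ∉ (↑S : Set ℕ)),
        θ (CuspForm.heckeAlgebra.T hℓ hℓm hℓS) ≠ (W.apOfModel ℓ : ResidueField A) := by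
    intro θ
    by_contra h
    push Not at h
    exact hcon (modularRepOfLevel_of_theta P hW S hS hmS θ h)
  have h6 : 6 ∣ m' := (dvd_mul_right 6 m).trans hmm'
  have hmm : m ∣ m' := (dvd_mul_left m 6).trans hmm'
  obtain ⟨ℓ, hℓ, hℓS, hℓM, hℓ1, hℓa⟩ := haux W hW (P.p * m') S hS
  let l : GoodPrime (P.p * m) := ⟨⟨ℓ, hℓ⟩, fun h => hℓM (h.trans (mul_dvd_mul_left P.p hmm))⟩
  have h2 : 2 ∣ m' := (show 2 ∣ 6 by norm_num).trans h6
  have h6' : 6 ≤ m' := Nat.le_of_dvd (NeZero.pos m') h6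
  exact not_irreducible_of_local P hA hd hf hW h𝔪 hp𝔪 hcong S hS
    (fun χ hχ hfix => eq_zero_of_inertia_fixed hA P.hp5 hpm' h2 h6' hmm hcharts S hmS hpS
      W.apOfModel hno l hℓ1 hℓS hℓa hχ.1.hecke hfix)
    (hwild A m' hA hd hpm' h2 h6' hmm hcharts S hmS hpS W hno l hℓ1 hℓS hℓa) hirr

end Fermat.Agent.GalRep.Wild
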