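import Fermat.Agent.GalRep.Wild.Space
import Fermat.Agent.GalRep.Semistable.ComplexConj
import Fermat.Agent.Density.FrobeniusCyclic

/-!
An irreducible `E[p]` is not Eisenstein at the primes in an arithmetic progression `1` mod `M`.
-/

set_option autoImplicit false
set_option linter.style.haveILetI false

noncomputable section

namespace Fermat.Agent.GalRep.Wild

open WeierstrassCurve WeierstrassCurve.Affine.Point
open scoped WeierstrassCurve.Affine
open Fermat.Agent.EC
open Fermat.Agent.Galois (GQ)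

local notation "Qbar" => AlgebraicClosure ℚ

/-- A Frobenius at `ℓ` fixing a primitive root of unity of order prime to `ℓ`. -/
theorem natCast_eq_one_of_frobenius_fix {A : ValuationSubring Qbar} {ℓ M : ℕ} [NeZero M]
    (hℓ : ℓ.Prime) (hA : A.LiesOverPrime ℓ) (hM : ¬ ℓ ∣ M) {σ : GQ} (hσ : A.IsFrobeniusAt σ ℓ)
    {ζ : Qbar} (hζ : IsPrimitiveRoot ζ M) (hfix : σ ζ = ζ) : (ℓ : ZMod M) = 1 := by
  have hζA : ζ ∈ A := Galois.integralClosure_le A ⟨ζ, hζ.isIntegral (NeZero.pos M)⟩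
  let x : A := ⟨ζ, hζA⟩
  have hx : x ^ M = 1 := Subtype.ext (by simpa [x] using hζ.pow_eq_one)
  have hsm : (⟨σ, hσ.mem_decompositionSubgroup⟩ : A.decompositionSubgroup ℚ) • x = x :=
    Subtype.ext hfix
  have h2 := hσ.smul_residue_eq (IsLocalRing.residue A x)
  rw [← IsLocalRing.ResidueField.residue_smul, hsm, ← map_pow] at h2
  have h3 := congrArg Subtype.val (pow_eq_of_residue_eq hℓ hA hM hx
    (by rw [← pow_mul, mul_comm, pow_mul, hx, one_pow]) h2)
  simp only [x, SubmonoidClass.coe_pow] at h3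
  rcases eq_or_ne M 1 with rfl | hM1
  · exact Subsingleton.elim _ _
  rw [← Nat.cast_one, ZMod.natCast_eq_natCast_iff', ← Nat.ModEq]
  obtain ⟨u, hu⟩ := hζ.isUnit (NeZero.ne M)
  have h4 : u ^ ℓ = u ^ 1 := Units.ext (by rw [Units.val_pow_eq_pow_val, pow_one, hu]; exact h3.symm)
  have h5 := pow_eq_pow_iff_modEq.1 h4
  rwa [← orderOf_units, hu, ← hζ.eq_orderOf] at h5

/-- An irreducible `E[p]` is not Eisenstein at the primes `≡ 1` mod `M`. -/
theorem exists_prime_nonEisenstein (P : FreyPackage) [Fact P.p.Prime]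
    (hirr : GaloisRepIsIrreducible (K := AlgebraicClosure ℚ) ℚ P.freyCurve P.p)
    {W : WeierstrassCurve ℤ} (hW : W.IsIntegralModelOf P.freyCurve) (M : ℕ) [NeZero M]
    (S : Finset ℕ) (hS : ∀ ℓ : ℕ, ℓ.Prime → ℓ ∉ S → W.IsGoodPrimeFor ℓ ∧ ℓ ≠ P.p) :
    ∃ ℓ : ℕ, ℓ.Prime ∧ ℓ ∉ S ∧ ¬ ℓ ∣ M ∧ (ℓ : ZMod M) = 1 ∧
      (W.apOfModel ℓ : ZMod P.p) ≠ (ℓ : ZMod P.p) + 1 := by
  classical
  by_contra hcon
  push Not at hcon
  haveI : NeZero P.p := ⟨P.hp0⟩
  haveI : NeZero (P.p * M) := ⟨Nat.mul_ne_zero P.hp0 (NeZero.ne M)⟩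
  set ρE := galoisRepModuleEnd (K := Qbar) ℚ P.freyCurve.toAffine P.p with hρE
  have hrk := finrank_torsionBy (K := Qbar) P.freyCurve.toAffine P.p
  haveI : Module.Finite (ZMod P.p) (FreyTorsion P) := Module.finite_of_finrank_eq_succ hrk
  haveI : Finite (FreyTorsion P) := Module.finite_of_finite (ZMod P.p)
  obtain ⟨ζ, hζ⟩ := HasEnoughRootsOfUnity.exists_primitiveRoot Qbar (P.p * M)
  obtain ⟨L, hL, hLfix⟩ :=
    EC.exists_finite_level ℚ P.freyCurve.toAffine (K := Qbar) P.p P.pp.one_le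
  haveI := hL
  haveI : FiniteDimensional ℚ (IntermediateField.adjoin ℚ ({ζ} : Set Qbar)) :=
    IntermediateField.adjoin.finiteDimensional (IsIntegral.tower_top (R := ℤ)
      (hζ.isIntegral (NeZero.pos _)))
  set F := L ⊔ IntermediateField.adjoin ℚ ({ζ} : Set Qbar) with hF
  have hζF : ζ ∈ F := (le_sup_right : _ ≤ F) (IntermediateField.mem_adjoin_simple_self ℚ ζ)
  let H : Subgroup GQ :=
    { carrier := {g | g ζ = ζ}
      one_mem' := rfl
      mul_mem' := fun {g h} hg hh => by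
        show (g * h) ζ = ζ
        rw [AlgEquiv.mul_apply, show h ζ = ζ from hh, show g ζ = ζ from hg]
      inv_mem' := fun {g} hg => by
        show g⁻¹ ζ = ζ
        conv_lhs => rw [← (show g ζ = ζ from hg)]
        exact g.symm_apply_apply ζ }
  -- trace `2` and determinant `1` on the fixer of `ζ`
  have hωH : ∀ g ∈ H, freyOmega P g = 1 := fun g hg => (freyOmega_one_iff P).mpr fun z hz => by
    obtain ⟨i, -, rfl⟩ := hζ.eq_pow_of_pow_eq_one (show z ^ (P.p * M) = 1 by
      rw [pow_mul, hz, one_pow])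
    rw [map_pow, show g ζ = ζ from hg]
  have htrH : ∀ g ∈ H, freyTrace P g = 2 := by
    intro g hg
    obtain ⟨ℓ, hℓ, hbad, A, hA, σ, hσ, hσfix, b, hb⟩ :=
      Density.exists_frobenius_cyclic F (S ∪ (P.p * M).primeFactors) g
    simp only [Finset.mem_union, not_or] at hbad
    have hℓM : ¬ ℓ ∣ P.p * M := fun h =>
      hbad.2 (Nat.mem_primeFactors.mpr ⟨hℓ, h, NeZero.ne _⟩)
    have h1 := natCast_eq_one_of_frobenius_fix hℓ hA hℓM hσ hζ (hσfix ζ hζF hg)
    have hℓ1 : (ℓ : ZMod M) = 1 := by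
      simpa using congrArg (ZMod.castHom (Dvd.intro_left P.p rfl) (ZMod M)) h1
    have hℓp : (ℓ : ZMod P.p) = 1 := by
      simpa using congrArg (ZMod.castHom (Dvd.intro M rfl) (ZMod P.p)) h1
    obtain ⟨hgood, hne⟩ := hS ℓ hℓ hbad.1
    obtain ⟨hta, htω⟩ := freyTrace_frobenius P hW hℓ hgood hne hA hσ
    rw [hcon ℓ hℓ hbad.1 (fun h => hℓM (h.mul_left _)) hℓ1] at hta
    have e2 : ρE ((σ ^ b)⁻¹ * g) = 1 := LinearMap.ext fun Q => hLfix _ (fun x hx => by
      rw [AlgEquiv.mul_apply, ← hb x ((le_sup_left : L ≤ F) hx)]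
      exact (σ ^ b).symm_apply_apply x) Q
    have hg' : freyTrace P g = freyTrace P (σ ^ b) := by
      rw [freyTrace, freyTrace, galoisTrace_def, galoisTrace_def, ← hρE]
      conv_lhs => rw [← mul_inv_cancel_left (σ ^ b) g, map_mul, e2, mul_one]
    have h2b := pow_add_pow_eq_frobPoly (R := ZMod P.p) (F := 1) (G := 1) (t := 2) (l := 1)
      (mul_one 1) (mul_one 1) (by norm_num) b
    simp only [Nat.cast_one, one_pow, mul_one, one_add_one_eq_two] at h2b
    rw [hg', freyTrace_pow P hta htω b, hℓp, one_add_one_eq_two, ← h2b]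
  -- a vector fixed by the fixer
  let rZ : H →* Module.End ℤ (FreyTorsion P) :=
    { toFun := fun g => (ρE (g : GQ)).restrictScalars ℤ
      map_one' := LinearMap.ext fun x => one_smul GQ x
      map_mul' := fun g h => LinearMap.ext fun x => mul_smul (g : GQ) (h : GQ) x }
  obtain ⟨x₀, hx₀⟩ : ∃ x : FreyTorsion P, x ≠ 0 := by
    haveI := hirr.1
    exact exists_ne 0
  obtain ⟨y, -, hy0, hy⟩ := exists_fixed_of_unipotent (p := P.p) rZ ⊤
    (fun x => by
      rw [← Nat.cast_smul_eq_nsmul (ZMod P.p) P.p x, ZMod.natCast_self, zero_smul])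
    (fun _ _ _ => AddSubgroup.mem_top _)
    (fun g x _ => by
      have h := LinearMap.congr_fun (freyRel P (g : GQ)) x
      rw [hωH g g.2, htrH g g.2, one_smul, LinearMap.add_apply, LinearMap.smul_apply,
        Module.End.one_apply, two_smul] at h
      rw [two_nsmul]
      exact h)
    (AddSubgroup.mem_top x₀) hx₀
  have hconj : ∀ (σ : GQ) (g : H), σ⁻¹ * (g : GQ) * σ ∈ H := fun σ g => by
    show (σ⁻¹ * (g : GQ) * σ) ζ = ζ
    obtain ⟨i, -, hi⟩ := hζ.eq_pow_of_pow_eq_one (show (σ ζ) ^ (P.p * M) = 1 by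
      rw [← map_pow, hζ.pow_eq_one, map_one])
    rw [AlgEquiv.mul_apply, AlgEquiv.mul_apply, ← hi, map_pow,
      show (g : GQ) ζ = ζ from g.2, hi]
    exact σ.symm_apply_apply ζ
  let X : Submodule (ZMod P.p) (FreyTorsion P) :=
    ⨅ g : H, LinearMap.ker (ρE (g : GQ) - 1)
  have hXmem : ∀ x, x ∈ X ↔ ∀ g : H, (g : GQ) • x = x := fun x => by
    simp [X, Submodule.mem_iInf, sub_eq_zero, hρE, galoisRepModuleEnd_apply]
  have hXtop : X = ⊤ := (hirr.2 X fun σ x hx => (hXmem _).mpr fun g => by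
      have := (hXmem x).mp hx ⟨_, hconj σ g⟩
      rw [mul_smul, mul_smul, inv_smul_eq_iff] at this
      exact this).resolve_left fun h =>
    hy0 ((Submodule.eq_bot_iff _).mp h y ((hXmem y).mpr fun g => hy g))
  have hHtriv : ∀ g ∈ H, ρE g = 1 := fun g hg => LinearMap.ext fun x =>
    (hXmem x).mp (hXtop ▸ Submodule.mem_top) ⟨g, hg⟩
  -- the image is abelian
  have hcomm : ∀ g h : GQ, ρE g * ρE h = ρE h * ρE g := fun g h => by
    have hmem : (h * g)⁻¹ * (g * h) ∈ H := by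
      show ((h * g)⁻¹ * (g * h)) ζ = ζ
      have hroot : ∀ k : GQ, ∃ i, ζ ^ i = k ζ := fun k => by
        obtain ⟨i, -, hi⟩ := hζ.eq_pow_of_pow_eq_one (show (k ζ) ^ (P.p * M) = 1 by
          rw [← map_pow, hζ.pow_eq_one, map_one])
        exact ⟨i, hi⟩
      obtain ⟨i, hi⟩ := hroot g
      obtain ⟨j, hj⟩ := hroot h
      have e : (g * h) ζ = (h * g) ζ := by
        rw [AlgEquiv.mul_apply, AlgEquiv.mul_apply, ← hi, ← hj, map_pow, map_pow, ← hi, ← hj,
          ← pow_mul, ← pow_mul, mul_comm]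
      rw [AlgEquiv.mul_apply, e]
      exact (h * g).symm_apply_apply ζ
    rw [← map_mul, ← map_mul, ← mul_inv_cancel_left (h * g) (g * h), map_mul _ (h * g),
      hHtriv _ hmem, mul_one]
  -- complex conjugation
  set c := Semistable.conjQ
  have hωc : freyOmega P c ≠ 1 := fun h => by
    haveI : Fact (1 < P.p) := ⟨P.pp.one_lt⟩
    obtain ⟨z, hz⟩ := HasEnoughRootsOfUnity.exists_primitiveRoot Qbar P.p
    have h1 := (freyOmega_one_iff P).mp h z hz.pow_eq_one
    rw [Semistable.conjQ_root_of_unity P.hp0 hz.pow_eq_one] at h1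
    have hz0 : z ≠ 0 := hz.ne_zero P.hp0
    have h2 : z ^ 2 = 1 := by
      rw [sq]
      conv_lhs => arg 1; rw [← h1]
      exact inv_mul_cancel₀ hz0
    have := Nat.le_of_dvd two_pos (hz.dvd_of_pow_eq_one 2 h2)
    have := P.hp5
    omega
  have hcc : ρE c * ρE c = 1 := by rw [← map_mul, Semistable.conjQ_mul_self, map_one]
  let N : Submodule (ZMod P.p) (FreyTorsion P) := LinearMap.ker (ρE c - 1)
  have hstab : ∀ σ : GQ, ∀ x ∈ N, σ • x ∈ N := fun σ x hx => by
    rw [LinearMap.mem_ker, LinearMap.sub_apply, Module.End.one_apply, sub_eq_zero] at hx ⊢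
    show ρE c (ρE σ x) = ρE σ x
    rw [← Module.End.mul_apply, hcomm, Module.End.mul_apply, hx]
  rcases hirr.2 N hstab with hN | hN
  · have hneg : ρE c = (-1 : ZMod P.p) • 1 := LinearMap.ext fun x => by
      have hmem : ρE c x + x ∈ N := by
        rw [LinearMap.mem_ker, LinearMap.sub_apply, Module.End.one_apply, map_add,
          ← Module.End.mul_apply, hcc, Module.End.one_apply]
        abel
      rw [hN, Submodule.mem_bot] at hmem
      rw [LinearMap.smul_apply, Module.End.one_apply, neg_one_smul]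
      exact eq_neg_of_add_eq_zero_left hmem
    refine hωc ?_
    rw [← det_eq_freyOmega, ← hρE, hneg, LinearMap.det_smul, hrk, map_one, mul_one]
    ring
  · refine hωc ?_
    rw [← det_eq_freyOmega, ← hρE, show ρE c = 1 from LinearMap.ext fun x =>
      sub_eq_zero.mp (LinearMap.mem_ker.mp (hN ▸ Submodule.mem_top : x ∈ N)), map_one]

end Fermat.Agent.GalRep.Wild
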