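import Fermat.Agent.GalRep.Wild.DlogZero
import Fermat.Agent.Models.Gamma0.CompPower
import Fermat.Agent.Models.Wild.RootExp

/-!
A unit at infinity with roots everywhere whose reduction has an eigen logarithmic derivative is a
`p`-th power on the component at infinity unless the eigenvalues come from level prime to `p`.
-/

set_option autoImplicit false
set_option linter.style.haveILetI false
set_option linter.unusedSectionVars false

noncomputable section

namespace Fermat.Agent.GalRep.Wild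

open IsLocalRing ModularCurve
open Fermat.Agent.MCurve Fermat.Agent.MCurve.SpecialDifferential
open Fermat.Agent.ModField
open Fermat.Agent.Models (IsWildModel IsU HasRootAt RootsEverywhere)
open Fermat.Agent.GalRep.Level

variable {k : Type} [Field k] {O : Type} [CommRing O] [IsDomain O] [IsDiscreteValuationRing O]
  {M : ℕ} [NeZero M] {E : Emb O M} {p m : ℕ} [Fact p.Prime] [NeZero m]
  {m₀ : ℕ} [NeZero m₀] {π : O} {hπ : Irreducible π} {e : ℕ}
  {F₀ : Subfield (Fld₀ O E p m)}

/-- A series killed by `θ` is supported on the exponents divisible by `p`. -/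
theorem coeff_eq_zero_of_thetaL [CharP k p] {h : LaurentSeries k} (hh : thetaL h = 0) {i : ℤ}
    (hi : ¬ (p : ℤ) ∣ i) : h.coeff i = 0 := by
  have := congrArg (fun s => HahnSeries.coeff s i) hh
  rw [thetaL_coeff, HahnSeries.coeff_zero, mul_eq_zero] at this
  exact this.resolve_left fun h0 => hi ((CharP.intCast_eq_zero_iff k p i).mp h0)

/-- The residue map of the base under a reduction. -/
theorem res_eq_zero_iff (hw : IsWildModel (model₀ O E p m) π (twoP O E p m hπ) e p F₀)
    (res : O →+* k) (ρ : twoP O E p m hπ false →+* LaurentSeries k)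
    (hker : ∀ z, ρ z = 0 ↔ (z : Fld₀ O E p m) ∈ (twoP O E p m hπ false).nonunits)
    (hcst : ∀ o : O, ρ ⟨algebraMap O _ o, hw.algebraMap_mem false o⟩ = HahnSeries.C (res o))
    (o : O) : res o = 0 ↔ residue O o = 0 := by
  rw [residue_eq_zero_iff, hπ.maximalIdeal_eq, Ideal.mem_span_singleton,
    ← hw.algebraMap_nonunit_iff false, ← hker ⟨_, hw.algebraMap_mem false o⟩, hcst,
    map_eq_zero_iff _ HahnSeries.C_injective]

/-- The reduced series of a unit with vanishing logarithmic derivative gives a root at infinity. -/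
theorem exists_root_of_thetaL_eq_zero [CharP k p] (hM : M = p * m) (hpm : ¬ p ∣ m)
    (hw : IsWildModel (model₀ O E p m) π (twoP O E p m hπ) e p F₀)
    (res : O →+* k) (ρ : twoP O E p m hπ false →+* LaurentSeries k)
    (hker : ∀ z, ρ z = 0 ↔ (z : Fld₀ O E p m) ∈ (twoP O E p m hπ false).nonunits)
    (hcst : ∀ o : O, ρ ⟨algebraMap O _ o, hw.algebraMap_mem false o⟩ = HahnSeries.C (res o))
    {z : Fld₀ O E p m} (hz : z ∈ twoP O E p m hπ false) {s : LaurentSeries O}
    (hs : lmap E.φ s = toLS E (z : Fld E))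
    (hρ : GalRep.expand p (NeZero.ne p) (ρ ⟨z, hz⟩) = lmap res s)
    (hzU : IsU (twoP O E p m hπ false) z) {h : LaurentSeries k}
    (hh : ρ ⟨z, hz⟩ = qExpand k m h) (hθ : thetaL h = 0) :
    ∃ T : Fld₀ O E p m, T ^ p / z - 1 ∈ (twoP O E p m hπ false).nonunits := by
  have hρ0 : ρ ⟨z, hz⟩ ≠ 0 := fun h0 => by
    have h1 := (hker _).mp h0
    exact hzU.2 ((Models.rs_eq_zero hz).mpr h1)
  have hres := res_eq_zero_iff hw res ρ hker hcst
  have hsupp : ∀ i : ℤ, ¬ ((p * p : ℕ) : ℤ) ∣ i → (lmap res s).coeff i = 0 := by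
    intro i hi
    rw [← hρ]
    by_cases h1 : (p : ℤ) ∣ i
    swap
    · exact expand_coeff_of_not_dvd _ _ _ _ h1
    obtain ⟨i', rfl⟩ := h1
    rw [expand_coeff_mul, hh]
    by_cases h2 : (m : ℤ) ∣ i'
    swap
    · exact qExpand_coeff_of_not_dvd m h h2
    obtain ⟨n, rfl⟩ := h2
    rw [qExpand_coeff_mul]
    refine coeff_eq_zero_of_thetaL hθ fun h3 => hi ?_
    rw [Nat.cast_mul]
    exact mul_dvd_mul_left _ (h3.mul_left _)
  have hPS : PowSer p (z : Fld E) := by
    refine ⟨1, s, one_ne_zero, by rw [hs, OneMemClass.coe_one, map_one, one_mul], fun h0 => ?_,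
      fun i hi => ?_⟩
    · refine hρ0 ((map_eq_zero_iff _ (GalRep.expand p (NeZero.ne p)).injective).mp ?_)
      rw [hρ]
      ext i
      rw [lmap_coeff, HahnSeries.coeff_zero, hres, ← lmap_coeff, h0, HahnSeries.coeff_zero]
    · rw [lmap_coeff, ← hres, ← lmap_coeff]
      exact hsupp i hi
  obtain ⟨n, T, hT⟩ := exists_root_false hM hpm hw hPS
  have h1 := hw.isU_of_sub_one false hT
  have hz0 := hzU.ne_zero
  have hP0 := hw.pi_ne_zero
  have hT0 : T ≠ 0 := fun h0 => h1.ne_zero (by
    rw [h0, zero_pow (Fact.out : p.Prime).pos.ne', zero_div])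
  obtain ⟨v, hv⟩ := hw.exists_order false hT0
  have h2 := (h1.mul hzU).div (hv.pow p)
  rw [show T ^ p / (z / algebraMap O _ π ^ n) * z / (T / algebraMap O _ π ^ v) ^ p =
      algebraMap O (Fld₀ O E p m) π ^ (n + v * p) by
    rw [div_pow, ← zpow_natCast (algebraMap O _ π ^ v) p, ← zpow_mul, zpow_add₀ hP0]
    have := zpow_ne_zero n hP0
    have := zpow_ne_zero (v * p) hP0
    have := pow_ne_zero p hT0
    field_simp] at h2
  have hn := hw.eq_zero_of_isU_zpow false h2
  refine ⟨T / algebraMap O _ π ^ v, ?_⟩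
  convert hT using 2
  rw [div_pow, ← zpow_natCast (algebraMap O _ π ^ v) p, ← zpow_mul,
    show v * (p : ℤ) = -n by linear_combination hn, zpow_neg, div_inv_eq_mul, div_div_eq_mul_div]

/-- A function in the local ring at infinity with a multiple in the chart has an integral series. -/
theorem exists_series_of_mem (hw : IsWildModel (model₀ O E p m) π (twoP O E p m hπ) e p F₀)
    {z : Fld₀ O E p m} (hz : z ∈ twoP O E p m hπ false) {N : ℕ}
    (hN : algebraMap O _ π ^ N * z ∈ (model₀ O E p m).B₀) :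
    ∃ s : LaurentSeries O, lmap E.φ s = toLS E (z : Fld E) := by
  induction N generalizing z with
  | zero =>
    rw [pow_zero, one_mul] at hN
    have h := (mem_chart₀_iff' (W := O) (w := jF₀ O E p m) (x := z)).1 hN
    rw [coe_jF₀] at h
    exact exists_lmap_eq (poleBound_chart h)
  | succ N ih =>
    have hπz : algebraMap O _ π * z ∈ twoP O E p m hπ false :=
      mul_mem (hw.algebraMap_mem false π) hz
    obtain ⟨s, hs⟩ := ih hπz (by rw [← mul_assoc, ← pow_succ]; exact hN)
    have h0 := ((gauss_of_lmap hπ hs).2.mp ((mem_nonunits_twoP_false hπ).mp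
      ((hw.mem_nonunits_iff false).mpr ⟨z, hz, (Algebra.smul_def _ _).symm⟩)))
    have hdiv : ∀ i : ℤ, π ∣ s.coeff i := fun i => by
      have h1 : residue O (s.coeff i) = 0 := by rw [← lmap_coeff, h0, HahnSeries.coeff_zero]
      rwa [residue_eq_zero_iff, hπ.maximalIdeal_eq, Ideal.mem_span_singleton] at h1
    choose c hc using hdiv
    refine ⟨⟨c, s.isPWO_support.mono fun i hi hs0 => hi (by
      have := hc i
      rw [hs0, eq_comm, mul_eq_zero] at this
      exact this.resolve_left hπ.ne_zero)⟩, HahnSeries.ext (funext fun i => ?_)⟩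
    have h2 := congrArg (fun t => HahnSeries.coeff t i) hs
    simp only [Subfield.coe_mul, map_mul, coe_algebraMap_fld₀, lmap_coeff, toLS_algebraMap,
      HahnSeries.C_mul_eq_smul, HahnSeries.coeff_smul, smul_eq_mul, hc i] at h2
    rw [lmap_coeff]
    exact mul_left_cancel₀ ((map_ne_zero_iff _ E.inj).mpr hπ.ne_zero) h2

/-- A function which is a power up to a unit along a component becomes a unit, keeping its roots,
after division by a power of a power of the uniformiser. -/
theorem exists_unit_scaled {O F : Type} [CommRing O] [IsDomain O] [IsDiscreteValuationRing O]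
    [Field F] [Algebra O F] {Md : Models.Model O F} {π : O} {P : Bool → ValuationSubring F}
    {e p : ℕ} {F₀ : Subfield F} (hw : IsWildModel Md π P e p F₀) (i : Bool) {g : F} (hg : g ≠ 0)
    (hord : ∃ G : F, IsU (P i) (G ^ p / g)) (hroots : RootsEverywhere Md p g) :
    ∃ (v : ℤ) (z : F), z = g / (algebraMap O F π ^ v) ^ p ∧ IsU (P i) z ∧
      RootsEverywhere Md p z := by
  obtain ⟨G, hG⟩ := hord
  have hG0 : G ≠ 0 := fun h0 =>
    hG.ne_zero (by rw [h0, zero_pow hw.prime.ne_zero, zero_div])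
  obtain ⟨v, hv⟩ := hw.exists_order i hG0
  refine ⟨v, _, rfl, ?_, ?_⟩
  · have := (hv.pow p).div hG
    rwa [show (G / algebraMap O F π ^ v) ^ p / (G ^ p / g) = g / (algebraMap O F π ^ v) ^ p by
      rw [div_pow]; have := pow_ne_zero p hG0; field_simp] at this
  · have key : ∀ {B : Subalgebra O F} {m₁ : Ideal B},
        HasRootAt B p g m₁ → HasRootAt B p (g / (algebraMap O F π ^ v) ^ p) m₁ := by
      rintro B m₁ ⟨h, α, β, hα, hβ, he⟩
      refine ⟨h / algebraMap O F π ^ v, α, β, hα, hβ, ?_⟩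
      rw [div_pow, mul_div_assoc', mul_div_assoc', he]
    exact ⟨fun m₁ h₁ => key (hroots.1 m₁ h₁), fun m₁ h₁ => key (hroots.2 m₁ h₁)⟩

/-- Division by a power of the uniformiser keeps a multiple in a subalgebra. -/
theorem exists_pow_mul_mem_scaled {O F : Type} [CommRing O] [Field F] [Algebra O F]
    {B : Subalgebra O F} {π : O} (hπ : algebraMap O F π ≠ 0) {f : F} {N₀ : ℕ}
    (hf : algebraMap O F π ^ N₀ * f ∈ B) (t p : ℕ) (v : ℤ) :
    ∃ N : ℕ, algebraMap O F π ^ N * (algebraMap O F π ^ t * f / (algebraMap O F π ^ v) ^ p) ∈ B := by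
  refine ⟨N₀ + (v * p).toNat, ?_⟩
  obtain ⟨r, hr⟩ : ∃ r : ℕ, ((N₀ + (v * p).toNat : ℕ) : ℤ) + t - v * p = (r : ℤ) + N₀ :=
    ⟨(((N₀ + (v * p).toNat : ℕ) : ℤ) + t - v * p - N₀).toNat, by omega⟩
  have h1 : algebraMap O F π ^ (((N₀ + (v * p).toNat : ℕ) : ℤ) + t - v * p) =
      algebraMap O F π ^ ((r : ℤ) + N₀) := by rw [hr]
  rw [zpow_sub₀ hπ, zpow_add₀ hπ, zpow_add₀ hπ, zpow_natCast, zpow_natCast, zpow_natCast,
    zpow_natCast, zpow_mul, zpow_natCast] at h1
  rw [mul_div_assoc', ← mul_assoc, mul_div_right_comm, h1, mul_assoc]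
  exact mul_mem (pow_mem (B.algebraMap_mem π) r) hf

end Fermat.Agent.GalRep.Wild
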