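import Fermat.Agent.GalRep.Wild.Eigen
import Mathlib.GroupTheory.PGroup

/-!
# The space of eigenclasses fixed by the kernel of `E[p]`
-/

set_option autoImplicit false
set_option linter.style.haveILetI false

noncomputable section

namespace Fermat.Agent.GalRep.Wild

open CongruenceSubgroup
open WeierstrassCurve WeierstrassCurve.Affine.Point
open scoped WeierstrassCurve.Affine
open Fermat.Agent.EC
open Fermat.Agent.Galois (GQ)

variable (P : FreyPackage) [Fact P.p.Prime] {N : ℕ} [NeZero N] [NeZero P.p]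
  (S : Finset ℕ) (W : WeierstrassCurve ℤ)

/-- An eigenclass with the traces of `E[p]`. -/
structure IsEigenClass (χ : ParHom N (ZMod P.p)) : Prop where
  hecke : ∀ ℓ : GoodPrime N, ((ℓ : Nat.Primes) : ℕ) ∉ S →
    heckeHomAt ℓ χ = W.apOfModel ((ℓ : Nat.Primes) : ℕ) • χ
  rel : ∀ g, (kummerGalois N P.p).galois g χ +
    (freyOmega P g).val • (kummerGalois N P.p).galois g⁻¹ χ = (freyTrace P g).val • χ

theorem galois_heckeHomAt (ℓ : GoodPrime N) (h : GQ) (χ : ParHom N (ZMod P.p)) :
    heckeHomAt ℓ ((kummerGalois N P.p).galois h χ) =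
      (kummerGalois N P.p).galois h (heckeHomAt ℓ χ) :=
  (eq_heckeHom (goodIndex ℓ) (kummerHeckeComm N P.p (kummerGalois N P.p) ℓ h _ _
    (isHeckeTransfer_heckeHom (goodIndex ℓ) χ))).symm

theorem freyTrace_conj (g h : GQ) : freyTrace P (h⁻¹ * g * h) = freyTrace P g := by
  rw [freyTrace, freyTrace, galoisTrace_def, galoisTrace_def,
    (galoisRepModuleEnd (K := AlgebraicClosure ℚ) ℚ P.freyCurve.toAffine P.p).map_mul,
    LinearMap.trace_mul_comm,
    ← (galoisRepModuleEnd (K := AlgebraicClosure ℚ) ℚ P.freyCurve.toAffine P.p).map_mul,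
    ← mul_assoc, mul_inv_cancel, one_mul]

theorem freyOmega_conj (g h : GQ) : freyOmega P (h⁻¹ * g * h) = freyOmega P g := by
  rw [freyOmega, freyOmega, map_mul (cyc P.p), map_mul (cyc P.p), map_inv, inv_mul_cancel_comm]

variable {P S W}

theorem IsEigenClass.galois {χ : ParHom N (ZMod P.p)} (hχ : IsEigenClass P S W χ) (h : GQ) :
    IsEigenClass P S W ((kummerGalois N P.p).galois h χ) := by
  refine ⟨fun ℓ hℓ => by rw [galois_heckeHomAt, hχ.hecke ℓ hℓ, map_zsmul], fun g => ?_⟩
  have h1 := congrArg ((kummerGalois N P.p).galois h) (hχ.rel (h⁻¹ * g * h))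
  rw [map_add, map_nsmul, map_nsmul, freyTrace_conj, freyOmega_conj] at h1
  rw [← h1]
  simp only [← Module.End.mul_apply, ← map_mul]
  rw [show h * (h⁻¹ * g * h) = g * h by group, show h * (h⁻¹ * g * h)⁻¹ = g⁻¹ * h by group]

theorem IsEigenClass.add {x y : ParHom N (ZMod P.p)} (hx : IsEigenClass P S W x)
    (hy : IsEigenClass P S W y) : IsEigenClass P S W (x + y) :=
  ⟨fun ℓ hℓ => by rw [map_add, smul_add, hx.hecke ℓ hℓ, hy.hecke ℓ hℓ],
    fun g => by rw [map_add, map_add, smul_add, smul_add, ← hx.rel g, ← hy.rel g]; abel⟩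

theorem IsEigenClass.neg {x : ParHom N (ZMod P.p)} (hx : IsEigenClass P S W x) :
    IsEigenClass P S W (-x) :=
  ⟨fun ℓ hℓ => by rw [map_neg, hx.hecke ℓ hℓ, smul_neg],
    fun g => by rw [map_neg, map_neg, smul_neg, smul_neg, ← neg_add, hx.rel g]⟩

theorem isEigenClass_zero : IsEigenClass P S W (0 : ParHom N (ZMod P.p)) :=
  ⟨fun ℓ _ => by rw [_root_.map_zero, smul_zero],
    fun g => by rw [_root_.map_zero, _root_.map_zero, smul_zero, add_zero, smul_zero]⟩

variable (P) (N) (S) (W) in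
/-- Eigenclasses fixed by the kernel of `E[p]`. -/
def eigenSpace : AddSubgroup (ParHom N (ZMod P.p)) where
  carrier := {χ | IsEigenClass P S W χ ∧ ∀ g ∈ torsionKer P, (kummerGalois N P.p).galois g χ = χ}
  add_mem' := fun hx hy => ⟨hx.1.add hy.1, fun g hg => by rw [map_add, hx.2 g hg, hy.2 g hg]⟩
  zero_mem' := ⟨isEigenClass_zero, fun g _ => _root_.map_zero _⟩
  neg_mem' := fun hx => ⟨hx.1.neg, fun g hg => by rw [map_neg, hx.2 g hg]⟩

theorem freyTrace_of_mem_torsionKer {g : GQ} (hg : g ∈ torsionKer P) : freyTrace P g = 2 := by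
  have hrk := finrank_torsionBy (K := AlgebraicClosure ℚ) P.freyCurve.toAffine P.p
  haveI : Module.Finite (ZMod P.p) (FreyTorsion P) := Module.finite_of_finrank_eq_succ hrk
  rw [freyTrace, galoisTrace_def, show galoisRepModuleEnd (K := AlgebraicClosure ℚ) ℚ
    P.freyCurve.toAffine P.p g = 1 from LinearMap.ext fun x => hg x, LinearMap.trace_one, hrk]
  norm_num

/-- A fixed vector for a unipotent action on a finite `p`-torsion group. -/
theorem exists_fixed_of_unipotent {M : Type*} [AddCommGroup M] [Finite M] {G : Type*} [Group G]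
    {p : ℕ} [Fact p.Prime] (ρ : G →* Module.End ℤ M) (X : AddSubgroup M)
    (hp : ∀ x : M, p • x = 0) (hstab : ∀ g, ∀ x ∈ X, ρ g x ∈ X)
    (hu : ∀ g, ∀ x ∈ X, ρ g x + ρ g⁻¹ x = 2 • x) {x₀ : M} (hx₀ : x₀ ∈ X) (h0 : x₀ ≠ 0) :
    ∃ y ∈ X, y ≠ 0 ∧ ∀ g, ρ g y = y := by
  classical
  have hinv : ∀ g x, ρ g (ρ g⁻¹ x) = x := fun g x => by
    rw [← Module.End.mul_apply, ← map_mul, mul_inv_cancel, map_one, Module.End.one_apply]
  let act : G →* Equiv.Perm X :=
    { toFun := fun g =>
        { toFun := fun x => ⟨ρ g x.1, hstab g x.1 x.2⟩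
          invFun := fun x => ⟨ρ g⁻¹ x.1, hstab g⁻¹ x.1 x.2⟩
          left_inv := fun x => Subtype.ext (by simpa using hinv g⁻¹ x.1)
          right_inv := fun x => Subtype.ext (hinv g x.1) }
      map_one' := Equiv.ext fun x => Subtype.ext (by simp)
      map_mul' := fun g h => Equiv.ext fun x => Subtype.ext (by simp) }
  have hpow : ∀ g, ∀ x ∈ X, ρ (g ^ p) x = x := fun g x hx => by
    have hfix : ρ g (ρ g x - x) = ρ g x - x := by
      have h1 := congrArg (ρ g) (hu g x hx)
      rw [map_add, hinv, map_nsmul, two_nsmul] at h1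
      rw [map_sub, sub_eq_sub_iff_add_eq_add, h1]
    have hn : ∀ n : ℕ, ρ (g ^ n) x = x + n • (ρ g x - x) := by
      intro n
      induction n with
      | zero => simp
      | succ n ih =>
        rw [pow_succ', map_mul, Module.End.mul_apply, ih, map_add, map_nsmul, hfix, succ_nsmul]
        abel
    rw [hn, hp, add_zero]
  have hG : IsPGroup p act.range := by
    rintro ⟨_, g, rfl⟩
    refine ⟨1, Subtype.ext ?_⟩
    show act g ^ p ^ 1 = 1
    rw [pow_one, ← map_pow]
    exact Equiv.ext fun x => Subtype.ext (hpow g x.1 x.2)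
  have hdvd : p ∣ Nat.card X := by
    have : addOrderOf (⟨x₀, hx₀⟩ : X) = p :=
      addOrderOf_eq_prime (Subtype.ext (hp x₀)) fun h => h0 (congrArg Subtype.val h)
    rw [← this]
    exact addOrderOf_dvd_natCard _
  obtain ⟨y, hy, hy0⟩ := hG.exists_fixed_point_of_prime_dvd_card_of_fixed_point X hdvd
    (a := (0 : X)) (fun g => by
      obtain ⟨_, g, rfl⟩ := g
      exact Subtype.ext (_root_.map_zero (ρ g)))
  exact ⟨y.1, y.2, fun h => hy0 (Subtype.ext h.symm),
    fun g => congrArg Subtype.val (hy ⟨act g, g, rfl⟩)⟩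

theorem parHom_prime_nsmul (x : ParHom N (ZMod P.p)) : P.p • x = 0 :=
  Subtype.ext (AddMonoidHom.ext fun y => by
    rw [Submodule.coe_smul_of_tower, AddMonoidHom.smul_apply, nsmul_eq_mul, ZMod.natCast_self,
      zero_mul]
    rfl)

/-- A nonzero eigenclass gives one fixed by the kernel of `E[p]`. -/
theorem exists_fixed_eigen {χ : ParHom N (ZMod P.p)} (h0 : χ ≠ 0) (hχ : IsEigenClass P S W χ) :
    ∃ ψ ∈ eigenSpace P N S W, ψ ≠ 0 := by
  let X : AddSubgroup (ParHom N (ZMod P.p)) :=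
    { carrier := {x | IsEigenClass P S W x}
      add_mem' := fun hx hy => hx.add hy
      zero_mem' := isEigenClass_zero
      neg_mem' := fun hx => hx.neg }
  obtain ⟨ψ, hψ, hψ0, hψfix⟩ := exists_fixed_of_unipotent (p := P.p)
    ((kummerGalois N P.p).galois.comp (torsionKer P).subtype) X parHom_prime_nsmul
    (fun g x hx => IsEigenClass.galois hx g.1)
    (fun g x hx => by
      have h := IsEigenClass.rel hx g.1
      rw [freyOmega_of_mem_torsionKer P g.2, freyTrace_of_mem_torsionKer g.2, ZMod.val_one,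
        one_smul, show ((2 : ZMod P.p)).val = 2 by
          rw [show (2 : ZMod P.p) = ((2 : ℕ) : ZMod P.p) by norm_num]
          exact ZMod.val_cast_of_lt (by have := P.hp5; omega)] at h
      exact h)
    (show χ ∈ X from hχ) h0
  exact ⟨ψ, ⟨hψ, fun g hg => hψfix ⟨g, hg⟩⟩, hψ0⟩

end Fermat.Agent.GalRep.Wild
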