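import Fermat.Agent.GalRep.Wild.Lowering
import Fermat.Agent.GalRep.WildModel.Kummer
import Fermat.Agent.Models.Wild.Endgame

/-!
The statement on wild inertia: a wild element fixes the eigenclasses it moves by fixed classes.
-/

set_option autoImplicit false
set_option linter.style.haveILetI false
set_option linter.unusedSectionVars false

noncomputable section

namespace Fermat.Agent.GalRep.Wild

open IsLocalRing UpperHalfPlane CongruenceSubgroup
open Fermat.Agent.EC
open Fermat.Agent.ModField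
open Fermat.Agent.NewVec
open Fermat.Agent.GalRep Fermat.Agent.GalRep.Level
open Fermat.Agent.GalRep.InertiaBase
open Fermat.Agent.GalRep.WildModel (irreducible_rUnif wildLevel zetaQ_mem_wildLevel)
open Fermat.Agent.Galois (GQ)
open scoped MatrixGroups

local notation "Qb" => AlgebraicClosure ℚ

/-- The exponents do not change when a power of the uniformiser is removed. -/
theorem expEq_unscale {O F : Type} [CommRing O] [IsDomain O] [IsDiscreteValuationRing O] [Field F]
    [Algebra O F] {B : Subalgebra O F} {π : O} {P : Bool → ValuationSubring F} {e : ℕ}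
    {F₀ : Subfield F} {p : ℕ} (hp : 0 < p) (hπ : algebraMap O F π ≠ 0) {f : F} {s : ℕ} (t : ℕ)
    (hs : Models.ExpEq B π P e F₀ p (algebraMap O F π ^ t * f) s) :
    Models.ExpEq B π P e F₀ p f s := by
  intro m x y u hm hn
  obtain ⟨z, a, b, i, j, ha, hb, hi, he⟩ := hs m x y u hm hn
  obtain ⟨q, rfl⟩ : ∃ q, p = q + 1 := ⟨p - 1, by omega⟩
  refine ⟨z / algebraMap O F π ^ t, a, b, i, j + t * q, ha, hb, hi, ?_⟩
  simp only [map_mul, map_pow] at he ⊢
  rw [show algebraMap B F (algebraMap O B π) = algebraMap O F π from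
    (IsScalarTower.algebraMap_apply O B F π).symm] at he ⊢
  rw [div_pow, ← pow_mul, mul_div_assoc', div_eq_iff (pow_ne_zero _ hπ), pow_add, mul_add,
    mul_one, pow_add]
  linear_combination (algebraMap O F π ^ (t * q)) * he

/-- The ratio of a scaled function and its conjugate. -/
theorem exists_fix_ratio {O F : Type} [CommRing O] [Field F] [Algebra O F] {π : O} {p : ℕ}
    {τ : F →+* F} (hπ : algebraMap O F π ≠ 0) {v v' : Oˣ}
    (hv : τ (algebraMap O F π) = algebraMap O F (π * v))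
    (hv' : τ (algebraMap O F v) = algebraMap O F v') {f : F} (hf : f ≠ 0) {c : O} {H : F}
    (h : τ (τ f) * f = algebraMap O F c * τ f ^ 2 * H ^ p) (t : ℕ) :
    ∃ (c' : O) (H' : F), τ (τ (algebraMap O F π ^ t * f) / (algebraMap O F π ^ t * f)) /
      (τ (algebraMap O F π ^ t * f) / (algebraMap O F π ^ t * f)) =
        algebraMap O F c' * H' ^ p := by
  refine ⟨(v' : O) ^ t * ((v⁻¹ : Oˣ) : O) ^ t * c, H, ?_⟩
  have hτf : τ f ≠ 0 := (map_ne_zero τ).mpr hf
  have hu : ∀ w : Oˣ, algebraMap O F w ≠ 0 := fun w => (w.isUnit.map (algebraMap O F)).ne_zero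
  have hinv : algebraMap O F ((v⁻¹ : Oˣ) : O) * algebraMap O F v = 1 := by
    rw [← map_mul, Units.inv_mul, map_one]
  have hq : τ (algebraMap O F π ^ t * f) / (algebraMap O F π ^ t * f) =
      algebraMap O F v ^ t * (τ f / f) := by
    rw [map_mul τ, map_pow τ, hv, map_mul (algebraMap O F), mul_pow]
    have := pow_ne_zero t hπ
    field_simp
  rw [hq, map_mul τ, map_pow τ, hv', map_div₀, map_mul, map_mul, map_pow, map_pow]
  have := pow_ne_zero t (hu v)
  field_simp
  have h1 : (algebraMap O F ((v⁻¹ : Oˣ) : O) * algebraMap O F v) ^ t = 1 := by rw [hinv, one_pow]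
  rw [mul_pow] at h1
  linear_combination (algebraMap O F (v' : O)) ^ t * h -
    (algebraMap O F (v' : O)) ^ t * algebraMap O F c * τ f ^ 2 * H ^ p * h1

/-- A power relation for a scaled function is one for the function. -/
theorem exists_pow_ratio {O F : Type} [CommRing O] [IsDomain O] [Field F] [Algebra O F] {π : O} {p : ℕ}
    {τ : F →+* F} (hπ : algebraMap O F π ≠ 0) {v : Oˣ}
    (hv : τ (algebraMap O F π) = algebraMap O F (π * v)) {f : F} {c : O} {H : F} (hc : c ≠ 0)
    (t : ℕ) (h : H ^ p = algebraMap O F c *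
      (τ (algebraMap O F π ^ t * f) / (algebraMap O F π ^ t * f))) :
    ∃ c' : O, c' ≠ 0 ∧ H ^ p = algebraMap O F c' * (τ f / f) := by
  refine ⟨c * (v : O) ^ t, mul_ne_zero hc (pow_ne_zero _ v.ne_zero), ?_⟩
  rw [h, map_mul τ, map_pow τ, hv, map_mul, map_mul, map_pow, mul_pow]
  have := pow_ne_zero t hπ
  field_simp

variable (P : FreyPackage) [Fact P.p.Prime] [NeZero P.p]

set_option maxHeartbeats 1000000 in
/-- The statement on wild inertia. -/
theorem wildStatement (m : ℕ) [NeZero m] [NeZero (P.p * m)] : WildStatement P m := by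
  intro A m' _ _ hA hd hpm' h2 h6 hmm hcharts S hmS hpS W hno l hl hlS hla hex
  classical
  have hp : P.p.Prime := P.pp
  have hN : P.p * m ∣ P.p * m' := mul_dvd_mul_left P.p hmm
  haveI := (rBase_dvr (L := wildLevel P (P.p * m')) hp hA).1
  obtain ⟨he, τ, b₀, β, hτμ, hτx, hbp, haut⟩ :=
    WildModel.exists_wildAut P hA hd hex rfl hpm' hcharts.1 hcharts.2
  refine ⟨(τ : GQ), τ.2, hτμ, hτx, fun χ hχ hw' => ?_⟩
  have hw := WildModel.isWildModel (L := wildLevel P (P.p * m')) hp hA hpm'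
    (zetaQ_mem_wildLevel P (P.p * m')) hcharts
  -- the classes
  obtain ⟨F, b, f, t, hF, hb, hfb, hf0, hK⟩ := WildModel.exists_isKummer
    (hζ := zetaQ_mem_wildLevel P (P.p * m')) hp hA P.hp5 hpm' hcharts hN (Dvd.intro _ he.symm) χ
    fun s _ hsL => hχ.2 s ((mem_torsionKer P).mpr ((EC.fix_torsionFld_iff P).mp fun x hx =>
      hsL x (WildModel.torsionFld_le_wildLevel P _ hx)))
  obtain ⟨F₁, b₁, hF₁, hb₁, he₁⟩ := WildModel.exists_conj_kummerFun rfl hN hF hb hfb τ
  obtain ⟨F₂, b₂, hF₂, hb₂, he₂⟩ := WildModel.exists_conj_kummerFun rfl hN hF₁ hb₁ he₁ τ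
  obtain ⟨c, H, hH⟩ : ∃ (c : rBase A (wildLevel P (P.p * m')))
      (H : rTop A (wildLevel P (P.p * m')) (zetaQ_mem_wildLevel P (P.p * m')) P.p m'),
      tauTop (zetaQ_mem_wildLevel P (P.p * m')) rfl τ
          (tauTop (zetaQ_mem_wildLevel P (P.p * m')) rfl τ f) * f =
        algebraMap (rBase A (wildLevel P (P.p * m'))) _ c *
          tauTop (zetaQ_mem_wildLevel P (P.p * m')) rfl τ f ^ 2 * H ^ P.p := by
    have hrel : (kummerGalois (P.p * m) P.p).galois (τ : GQ)
        ((kummerGalois (P.p * m) P.p).galois (τ : GQ) χ) + χ =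
        2 • (kummerGalois (P.p * m) P.p).galois (τ : GQ) χ := by
      rw [map_sub] at hw'
      linear_combination (norm := module) hw'
    have h21 := hF₂.mul hF
    rw [hrel] at h21
    obtain ⟨c, H, -, -, hHmem, hcH⟩ := Ordinary.exists_pow_of_rep_eq (b₁ := b₁ ^ 2) (b₂ := b₂ * b) hN
      (fun γ hγ => WildModel.levelG_le_gamma0 hp hpm' hN hγ) (hF₁.pow 2) h21
      (by rw [SubmonoidClass.coe_pow, SubmonoidClass.coe_pow, hb₁, ← pow_mul, ← pow_mul, mul_comm])
      (by rw [Subring.coe_mul, MulMemClass.coe_mul, hb₂, hb, ← mul_pow])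
    refine ⟨c, ⟨H, hHmem⟩, Subtype.ext ?_⟩
    simp only [Subfield.coe_mul, SubmonoidClass.coe_pow, coe_algebraMap_fld₀, he₁, he₂, hfb]
    rw [← map_mul, ← map_pow]
    exact hcH
  obtain ⟨v, hv⟩ := exists_rAct_rUnif (L := wildLevel P (P.p * m')) hp hA τ
  let v' := Units.map (rAct (wildLevel P (P.p * m')) τ).toMonoidHom v
  have hfix := fun t => exists_fix_ratio (τ := tauTop (zetaQ_mem_wildLevel P (P.p * m')) rfl τ)
    hw.pi_ne_zero (v := v) (v' := v') (by rw [tauTop_algebraMap, hv]) (tauTop_algebraMap rfl τ _)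
    hf0 hH t
  -- roots
  obtain ⟨s, hs₀, hs₁⟩ := hw.exists_exp_wild he haut hbp hK (hfix t)
  obtain ⟨t', hK', hroots, T, hT⟩ := exists_scaled_roots hA P.hp5 hpm' h2 h6 hmm
    (zetaQ_mem_wildLevel P (P.p * m')) hcharts S hmS hpS W.apOfModel hno l hl hlS hla hχ.1.hecke
    hF hb hf0 hfb (expEq_unscale hp.pos hw.pi_ne_zero t hs₀) (expEq_unscale hp.pos hw.pi_ne_zero t hs₁)
  obtain ⟨c₁, H₁, hc₁, hH₁, hroot⟩ := hw.root_tau_of_wild he haut hbp hK' (hfix t') hroots hT
  obtain ⟨c₂, hc₂, hroot'⟩ := exists_pow_ratio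
    (τ := tauTop (zetaQ_mem_wildLevel P (P.p * m')) rfl τ) hw.pi_ne_zero (v := v)
    (by rw [tauTop_algebraMap, hv]) hc₁ t' hroot
  -- the classes agree
  refine WildModel.eq_of_pow_eq (q := P.p) (m := m')
    (K := baseK (rBase A (wildLevel P (P.p * m')))
      (embR A (wildLevel P (P.p * m')) (zetaQ_mem_wildLevel P (P.p * m'))))
    hN (dvd_mul_right P.p m') (dvd_mul_left m' P.p) l hl hla
    (((hχ.1.galois (τ : GQ)).hecke l hlS).trans (Int.cast_smul_eq_zsmul (ZMod P.p) _ _).symm)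
    ((hχ.1.hecke l hlS).trans (Int.cast_smul_eq_zsmul (ZMod P.p) _ _).symm)
    hF₁ hF hb₁ hb (h := (H₁ : Fld (embR A (wildLevel P (P.p * m'))
      (zetaQ_mem_wildLevel P (P.p * m'))))) H₁.2 (fun h0 => hH₁ (Subtype.ext h0)) hc₂ ?_
  have h1 := congrArg Subtype.val hroot'
  simp only [SubmonoidClass.coe_pow, Subfield.coe_mul, Subfield.coe_div, coe_algebraMap_fld₀, he₁,
    hfb] at h1
  exact h1

end Fermat.Agent.GalRep.Wild
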